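import Mathlib.FieldTheory.IntermediateField.Basic
import Mathlib.RingTheory.LaurentSeries

/-!
# The constants act on fields of Laurent series

Shortcut instances: the general search for these tries, and fails, many slow unifications.
-/

noncomputable section

namespace Fermat.Agent

/-- The constants act on a field of series. A shortcut: the general search is slow. -/
@[reducible, instance high]
def algebraSeriesField {K : Type*} [Field K]
    (E : IntermediateField K (LaurentSeries K)) : Algebra K E :=
  SubalgebraClass.toAlgebra E

/-- The rationals act on a field of series as on any field of characteristic zero. -/
@[reducible, instance 10001]
def algebraSeriesFieldRat (E : IntermediateField ℚ (LaurentSeries ℚ)) :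
    Algebra ℚ E :=
  DivisionRing.toRatAlgebra

end Fermat.Agent
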