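import Mathlib
import Fermat.Prelude.Def_AlgebraicCurve_DivisorClassGroup
import Fermat.Prelude.Def_AlgebraicCurve_Repartitions
import Fermat.Agent.FF.SeriesInst

/-!
# Function fields of one variable: the standing hypothesis, and basic facts on places

`IsFunctionField K F` says that `F` is finite over `K(x)` for some transcendental `x`. The file
collects the elementary calculus of `ord` at a place and the pole spaces `poleLe v n`.
-/

noncomputable section

open IntermediateField AlgebraicCurve WithZero

namespace Fermat.Agent.FF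

/-- `F` is a function field of one variable over `K`. -/
class IsFunctionField (K F : Type*) [Field K] [Field F] [Algebra K F] : Prop where
  exists_transcendental :
    ∃ x : F, Transcendental K x ∧ FiniteDimensional (IntermediateField.adjoin K ({x} : Set F)) F

section Generation

variable {K F : Type*} [Field K] [Field F] [Algebra K F]

theorem isFunctionField_of_finite {x : F} (hx : Transcendental K x)
    [FiniteDimensional K⟮x⟯ F] : IsFunctionField K F :=
  ⟨⟨x, hx, inferInstance⟩⟩

theorem isTranscendenceBasis_of_transcendental [IsFunctionField K F] {x : F}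
    (hx : Transcendental K x) : IsTranscendenceBasis K (fun _ : Unit => x) := by
  obtain ⟨y, hy, hfin⟩ := IsFunctionField.exists_transcendental (K := K) (F := F)
  have := hfin
  have hy' : AlgebraicIndependent K (fun _ : Unit => y) :=
    algebraicIndependent_unique_type_iff.mpr hy
  have : Algebra.IsAlgebraic K⟮y⟯ F := Algebra.IsAlgebraic.of_finite _ _
  have hb : IsTranscendenceBasis K (fun _ : Unit => y) := by
    rw [hy'.isTranscendenceBasis_iff_isAlgebraic]
    have : Set.range (fun _ : Unit => y) = {y} := Set.range_const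
    rw [this]
    exact IntermediateField.isAlgebraic_adjoin_iff_top.mp ‹_›
  exact AlgebraicIndependent.isTranscendenceBasis_of_lift_trdeg_le_of_finite
    (algebraicIndependent_unique_type_iff.mpr hx) hb.lift_cardinalMk_eq_trdeg.symm.le

theorem essFiniteType [IsFunctionField K F] : Algebra.EssFiniteType K F := by
  obtain ⟨y, hy, hfin⟩ := IsFunctionField.exists_transcendental (K := K) (F := F)
  have := hfin
  have : Algebra.EssFiniteType K K⟮y⟯ :=
    IntermediateField.essFiniteType_iff.mpr (IntermediateField.fg_def.mpr ⟨{y}, by simp, rfl⟩)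
  exact Algebra.EssFiniteType.comp K K⟮y⟯ F

theorem finiteDimensional_adjoin_of_transcendental [IsFunctionField K F] {x : F}
    (hx : Transcendental K x) : FiniteDimensional K⟮x⟯ F := by
  have hb := isTranscendenceBasis_of_transcendental hx
  have halg := hb.isAlgebraic_field
  rw [show Set.range (fun _ : Unit => x) = {x} from Set.range_const] at halg
  have : Algebra.IsAlgebraic K⟮x⟯ F := halg
  have := essFiniteType (K := K) (F := F)
  have : Algebra.EssFiniteType K⟮x⟯ F := Algebra.EssFiniteType.of_comp K K⟮x⟯ F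
  exact Algebra.finite_of_essFiniteType_of_isAlgebraic

theorem adjoin_inv_eq (x : F) : K⟮x⁻¹⟯ = K⟮x⟯ := by
  apply le_antisymm <;> rw [IntermediateField.adjoin_le_iff, Set.singleton_subset_iff]
  · exact inv_mem (mem_adjoin_simple_self K x)
  · simpa using inv_mem (mem_adjoin_simple_self K x⁻¹)

theorem finrank_adjoin_inv (x : F) :
    Module.finrank K⟮x⁻¹⟯ F = Module.finrank K⟮x⟯ F := by
  rw [adjoin_inv_eq]

theorem transcendental_inv {x : F} (hx : Transcendental K x) : Transcendental K x⁻¹ := by
  intro h
  exact hx (by simpa using h.inv)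

theorem linearIndependent_pow_of_transcendental {x : F} (hx : Transcendental K x) :
    LinearIndependent K fun i : ℕ => x ^ i := by
  have h := (Polynomial.basisMonomials K).linearIndependent.map'
    (Polynomial.aeval x).toLinearMap
    (LinearMap.ker_eq_bot.mpr (transcendental_iff_injective.mp hx))
  simpa [Function.comp_def] using h

theorem mem_range_or_transcendental [IsAlgClosed K] (x : F) :
    x ∈ Set.range (algebraMap K F) ∨ Transcendental K x := by
  by_cases h : IsAlgebraic K x
  · left
    exact IntermediateField.mem_bot.mp <| by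
      have hmin := minpoly.irreducible h.isIntegral
      have hdeg := IsAlgClosed.degree_eq_one_of_irreducible K hmin
      exact minpoly.mem_range_of_degree_eq_one K x hdeg
  · exact Or.inr h

theorem transcendental_sub_const {x : F} (hx : Transcendental K x) (c : K) :
    Transcendental K (x - algebraMap K F c) := by
  intro h
  exact hx (by simpa using h.add (isAlgebraic_algebraMap c))

theorem adjoin_sub_const_eq (x : F) (c : K) : K⟮x - algebraMap K F c⟯ = K⟮x⟯ := by
  apply le_antisymm <;> rw [IntermediateField.adjoin_le_iff, Set.singleton_subset_iff]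
  · exact sub_mem (mem_adjoin_simple_self K x) ((K⟮x⟯).algebraMap_mem c)
  · simpa using add_mem (mem_adjoin_simple_self K (x - algebraMap K F c))
      ((K⟮x - algebraMap K F c⟯).algebraMap_mem c)

end Generation

section PlaceBasics

variable {K F : Type*} [Field K] [Field F] [Algebra K F] (v : Place K F)

theorem mem_iff_adicValuation_le_one {f : F} :
    f ∈ v.toValuationSubring ↔ v.adicValuation f ≤ 1 := by
  refine ⟨v.adicValuation_le_one_of_mem, fun h => ?_⟩
  rcases v.toValuationSubring.mem_or_inv_mem f with hf | hf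
  · exact hf
  rcases eq_or_ne f 0 with rfl | hf0
  · exact zero_mem _
  have h1 : (1 : ℤᵐ⁰) ≤ v.adicValuation f := by
    have := v.adicValuation_le_one_of_mem hf
    rwa [map_inv₀, inv_le_one₀ (zero_lt_iff.mpr (v.adicValuation_ne_zero hf0))] at this
  have hu : IsUnit (⟨f⁻¹, hf⟩ : v.toValuationSubring) := by
    rw [← v.adicValuation_coe_eq_one_iff]
    simp [le_antisymm h h1]
  obtain ⟨b, hb⟩ := isUnit_iff_exists_inv.mp hu
  have hb' : f⁻¹ * (b : F) = 1 := congrArg Subtype.val hb
  have : f = (b : F) := by
    field_simp at hb'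
    exact hb'.symm
  exact this ▸ b.2

theorem mem_iff {f : F} : f ∈ v.toValuationSubring ↔ f = 0 ∨ 0 ≤ v.ord f := by
  rw [mem_iff_adicValuation_le_one, v.adicValuation_le_one_iff]

theorem mem_iff_ord_nonneg {f : F} : f ∈ v.toValuationSubring ↔ 0 ≤ v.ord f := by
  rw [mem_iff]
  exact ⟨fun h => h.elim (fun h => by simp [h]) id, Or.inr⟩

theorem ord_algebraMap (c : K) : v.ord (algebraMap K F c) = 0 := by
  rcases eq_or_ne c 0 with rfl | hc
  · simp
  have h1 := (mem_iff_ord_nonneg v).mp (v.algebraMap_mem' c)
  have h2 := (mem_iff_ord_nonneg v).mp (v.algebraMap_mem' c⁻¹)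
  rw [map_inv₀, v.ord_inv] at h2
  omega

theorem ord_div {f g : F} (hf : f ≠ 0) (hg : g ≠ 0) : v.ord (f / g) = v.ord f - v.ord g := by
  rw [div_eq_mul_inv, v.ord_mul hf (inv_ne_zero hg), v.ord_inv, sub_eq_add_neg]

theorem ord_pow (f : F) (n : ℕ) : v.ord (f ^ n) = n * v.ord f := by
  simpa using v.ord_zpow f (n : ℤ)

theorem ord_algebraMap_mul {c : K} (hc : c ≠ 0) (f : F) :
    v.ord (algebraMap K F c * f) = v.ord f := by
  rcases eq_or_ne f 0 with rfl | hf
  · simp
  rw [v.ord_mul ((map_ne_zero _).mpr hc) hf, ord_algebraMap, zero_add]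

theorem ord_neg (f : F) : v.ord (-f) = v.ord f := by
  simp [Place.ord]

theorem min_le_ord_add {f g : F} (h : f + g ≠ 0) :
    min (v.ord f) (v.ord g) ≤ v.ord (f + g) := by
  rcases eq_or_ne f 0 with rfl | hf
  · simp
  rcases eq_or_ne g 0 with rfl | hg
  · simp
  have := Valuation.map_add v.adicValuation f g
  rw [v.adicValuation_eq_exp_neg_ord hf, v.adicValuation_eq_exp_neg_ord hg,
    v.adicValuation_eq_exp_neg_ord h, le_max_iff, exp_le_exp, exp_le_exp] at this
  omega

/-- The order of a sum with a strictly dominant term. -/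
theorem ord_add_eq_of_lt {f g : F} (hf : f ≠ 0) (h : g = 0 ∨ v.ord f < v.ord g) :
    v.ord (f + g) = v.ord f := by
  rcases eq_or_ne g 0 with rfl | hg
  · simp
  have hlt := h.resolve_left hg
  have : v.adicValuation g < v.adicValuation f := by
    rw [v.adicValuation_eq_exp_neg_ord hf, v.adicValuation_eq_exp_neg_ord hg, exp_lt_exp]
    omega
  simp only [Place.ord, Valuation.map_add_eq_of_lt_left _ this]

theorem add_ne_zero_of_ord_lt {f g : F} (hf : f ≠ 0) (h : g = 0 ∨ v.ord f < v.ord g) :
    f + g ≠ 0 := by
  rintro h0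
  rcases h with rfl | h
  · simp [hf] at h0
  · rw [eq_neg_of_add_eq_zero_right h0, ord_neg] at h
    omega

/-- Every place has a uniformiser. -/
theorem exists_ord_eq_one : ∃ t : F, t ≠ 0 ∧ v.ord t = 1 := by
  obtain ⟨π, hπ⟩ := IsDiscreteValuationRing.exists_irreducible v.toValuationSubring
  exact ⟨π, by simpa using hπ.ne_zero, v.ord_coe_irreducible hπ⟩

/-- An element with a zero or a pole is transcendental. -/
theorem transcendental_of_ord_ne_zero [IsAlgClosed K] {f : F} (h : v.ord f ≠ 0) :
    Transcendental K f :=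
  (mem_range_or_transcendental f).resolve_left fun ⟨c, hc⟩ => h (hc ▸ ord_algebraMap v c)

/-- A place is determined by the elements of nonnegative order. -/
theorem place_ext {v w : Place K F} (h : ∀ f : F, 0 ≤ v.ord f ↔ 0 ≤ w.ord f) : v = w :=
  Place.ext <| SetLike.ext fun f => by rw [mem_iff_ord_nonneg, mem_iff_ord_nonneg, h]

theorem eq_of_toValuationSubring_le {v w : Place K F}
    (h : v.toValuationSubring ≤ w.toValuationSubring) : v = w := by
  refine place_ext fun f => ⟨
    fun hf => (mem_iff_ord_nonneg w).mp (h ((mem_iff_ord_nonneg v).mpr hf)),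
    fun hf => ?_⟩
  by_contra hneg
  rw [not_le] at hneg
  -- `v.ord f < 0`, so every element lies in `w`
  apply w.ne_top'
  refine SetLike.ext fun g => ⟨fun _ => trivial, fun _ => ?_⟩
  obtain ⟨k, hk⟩ : ∃ k : ℕ, 0 ≤ v.ord g + k * (-v.ord f) := by
    refine ⟨(-v.ord g).toNat, ?_⟩
    have h1 : 1 ≤ -v.ord f := by omega
    nlinarith [Int.self_le_toNat (-v.ord g), mul_le_mul_of_nonneg_left h1
      (Int.natCast_nonneg (-v.ord g).toNat)]
  rcases eq_or_ne g 0 with rfl | hg
  · exact zero_mem _
  have hf0 : f ≠ 0 := by rintro rfl; simp at hneg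
  have hmem : g * f⁻¹ ^ k ∈ w.toValuationSubring := by
    refine h ((mem_iff_ord_nonneg v).mpr ?_)
    rw [v.ord_mul hg (pow_ne_zero _ (inv_ne_zero hf0)), ord_pow, v.ord_inv]
    exact hk
  have := mul_mem hmem (pow_mem ((mem_iff_ord_nonneg w).mpr hf) k)
  rwa [mul_assoc, ← mul_pow, inv_mul_cancel₀ hf0, one_pow, mul_one] at this

/-- The `K`-space of functions with `ord_v ≥ -n` (together with `0`). -/
def poleLe (n : ℤ) : Submodule K F where
  carrier := {f | v.adicValuation f ≤ exp n}
  zero_mem' := by simp
  add_mem' := fun {f g} hf hg => by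
    show v.adicValuation (f + g) ≤ exp n
    exact (Valuation.map_add _ _ _).trans (max_le hf hg)
  smul_mem' c f hf := by
    show v.adicValuation (c • f) ≤ exp n
    rw [Algebra.smul_def, map_mul]
    exact (mul_le_of_le_one_left' (v.adicValuation_algebraMap_le_one c)).trans hf

theorem mem_poleLe {n : ℤ} {f : F} : f ∈ poleLe v n ↔ f = 0 ∨ -n ≤ v.ord f :=
  v.adicValuation_le_exp_iff

theorem mem_poleLe_iff_adicValuation {n : ℤ} {f : F} :
    f ∈ poleLe v n ↔ v.adicValuation f ≤ exp n :=
  Iff.rfl

theorem mem_poleLe_of_ne {n : ℤ} {f : F} (hf : f ≠ 0) : f ∈ poleLe v n ↔ -n ≤ v.ord f := by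
  simp [mem_poleLe, hf]

theorem poleLe_mono {m n : ℤ} (h : m ≤ n) : poleLe v m ≤ poleLe v n :=
  fun _ hf => le_trans hf (exp_le_exp.mpr h)

theorem mul_mem_poleLe {m n : ℤ} {f g : F} (hf : f ∈ poleLe v m) (hg : g ∈ poleLe v n) :
    f * g ∈ poleLe v (m + n) := by
  rw [mem_poleLe_iff_adicValuation, map_mul, exp_add]
  exact mul_le_mul' hf hg

theorem poleLe_zero_eq {f : F} : f ∈ poleLe v 0 ↔ f ∈ v.toValuationSubring := by
  simp [mem_poleLe, mem_iff]

end PlaceBasics

end Fermat.Agent.FF

end
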