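import Mathlib
import Fermat.Agent.FF.Basic

/-!
# Weak approximation for places

Distinct places are incomparable, so for finitely many places one finds functions with prescribed
leading behaviour. This gives weak approximation, used for repartitions and for the different.
-/

noncomputable section

open AlgebraicCurve WithZero

namespace Fermat.Agent.FF

variable {K F : Type*} [Field K] [Field F] [Algebra K F]

/-- Distinct places have incomparable rings. -/
theorem exists_mem_notMem {v w : Place K F} (h : v ≠ w) :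
    ∃ f : F, f ≠ 0 ∧ 0 ≤ v.ord f ∧ w.ord f < 0 := by
  by_contra hcon
  push Not at hcon
  refine h (eq_of_toValuationSubring_le fun f hf => ?_)
  rw [mem_iff_ord_nonneg] at hf ⊢
  rcases eq_or_ne f 0 with rfl | hf0
  · simp
  · exact hcon f hf0 hf

theorem exists_pos_neg {v w : Place K F} (h : v ≠ w) :
    ∃ f : F, f ≠ 0 ∧ 0 < v.ord f ∧ w.ord f < 0 := by
  obtain ⟨y, hy0, hy1, hy2⟩ := exists_mem_notMem h
  obtain ⟨z, hz0, hz1, hz2⟩ := exists_mem_notMem (Ne.symm h)
  refine ⟨y / z, div_ne_zero hy0 hz0, ?_, ?_⟩ <;> rw [ord_div _ hy0 hz0] <;> omega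

/-- A function with a zero at `v` and poles at finitely many other given places. -/
theorem exists_pos_forall_neg (v : Place K F) (S : Finset (Place K F)) (hv : v ∉ S) :
    ∃ f : F, f ≠ 0 ∧ 0 < v.ord f ∧ ∀ w ∈ S, w.ord f < 0 := by
  classical
  induction S using Finset.induction with
  | empty =>
    obtain ⟨t, ht0, ht⟩ := exists_ord_eq_one v
    exact ⟨t, ht0, by omega, by simp⟩
  | @insert u S hu ih =>
    rw [Finset.mem_insert, not_or] at hv
    obtain ⟨y, hy0, hy1, hy2⟩ := ih hv.2
    by_cases hyu : u.ord y < 0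
    · exact ⟨y, hy0, hy1, Finset.forall_mem_insert _ _ _ |>.mpr ⟨hyu, hy2⟩⟩
    obtain ⟨z, hz0, hz1, hz2⟩ := exists_pos_neg hv.1
    set r : ℕ := (v.ord y).toNat + 1 + ∑ w ∈ S, (w.ord y).natAbs with hr
    have hzr : z ^ r ≠ 0 := pow_ne_zero _ hz0
    have hvr : v.ord y < v.ord (z ^ r) := by
      rw [ord_pow]
      have : (r : ℤ) * 1 ≤ (r : ℤ) * v.ord z := mul_le_mul_of_nonneg_left (by omega) (by omega)
      omega
    refine ⟨y + z ^ r, add_ne_zero_of_ord_lt v hy0 (Or.inr hvr), ?_, ?_⟩
    · rw [ord_add_eq_of_lt v hy0 (Or.inr hvr)]; exact hy1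
    rw [Finset.forall_mem_insert]
    constructor
    · have hlt : u.ord (z ^ r) < u.ord y := by
        rw [ord_pow]
        have : (r : ℤ) * u.ord z ≤ (r : ℤ) * (-1) :=
          mul_le_mul_of_nonneg_left (by omega) (by omega)
        omega
      rw [add_comm, ord_add_eq_of_lt u hzr (Or.inr hlt), ord_pow]
      exact mul_neg_of_pos_of_neg (by omega) hz2
    · intro w hw
      have hwy := hy2 w hw
      have hr1 : (w.ord y).natAbs < r := by
        have : (w.ord y).natAbs ≤ ∑ w ∈ S, (w.ord y).natAbs :=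
          Finset.single_le_sum (f := fun w => (w.ord y).natAbs) (fun _ _ => Nat.zero_le _) hw
        omega
      rcases lt_trichotomy (w.ord z) 0 with hwz | hwz | hwz
      · have hlt : w.ord (z ^ r) < w.ord y := by
          rw [ord_pow]
          have : (r : ℤ) * w.ord z ≤ (r : ℤ) * (-1) :=
            mul_le_mul_of_nonneg_left (by omega) (by omega)
          omega
        rw [add_comm, ord_add_eq_of_lt w hzr (Or.inr hlt), ord_pow]
        exact mul_neg_of_pos_of_neg (by omega) hwz
      · have hlt : w.ord y < w.ord (z ^ r) := by rw [ord_pow, hwz]; omega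
        rw [ord_add_eq_of_lt w hy0 (Or.inr hlt)]; exact hwy
      · have hlt : w.ord y < w.ord (z ^ r) := by
          rw [ord_pow]
          have : (0 : ℤ) ≤ (r : ℤ) * w.ord z := mul_nonneg (by omega) (by omega)
          omega
        rw [ord_add_eq_of_lt w hy0 (Or.inr hlt)]; exact hwy

/-- For every finite set of places: an element close to `1` at one, close to `0` at the others. -/
theorem exists_bump (S : Finset (Place K F)) (v : Place K F) (hv : v ∉ S) (M : ℕ) :
    ∃ e : F, e - 1 ∈ poleLe v (-(M : ℤ)) ∧ ∀ w ∈ S, e ∈ poleLe w (-(M : ℤ)) := by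
  obtain ⟨f, hf0, hf1, hf2⟩ := exists_pos_forall_neg v S hv
  have hfs : f ^ (M + 1) ≠ 0 := pow_ne_zero _ hf0
  have hv' : v.ord (1 : F) < v.ord (f ^ (M + 1)) := by
    rw [v.ord_one, ord_pow]; positivity
  set g : F := 1 + f ^ (M + 1) with hg
  have hg0 : g ≠ 0 := add_ne_zero_of_ord_lt v one_ne_zero (Or.inr hv')
  have hgv : v.ord g = 0 := by rw [hg, ord_add_eq_of_lt v one_ne_zero (Or.inr hv'), v.ord_one]
  refine ⟨1 / g, ?_, fun w hw => ?_⟩
  · have : 1 / g - 1 = -(f ^ (M + 1) / g) := by rw [hg] at hg0 ⊢; field_simp; ring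
    rw [this]
    refine neg_mem ((mem_poleLe v).mpr (Or.inr ?_))
    rw [ord_div v hfs hg0, hgv, ord_pow, sub_zero, neg_neg]
    have : ((M + 1 : ℕ) : ℤ) * 1 ≤ ((M + 1 : ℕ) : ℤ) * v.ord f :=
      mul_le_mul_of_nonneg_left (by omega) (by omega)
    omega
  · refine (mem_poleLe w).mpr (Or.inr ?_)
    have hlt : w.ord (f ^ (M + 1)) < w.ord (1 : F) := by
      rw [w.ord_one, ord_pow]
      exact mul_neg_of_pos_of_neg (by omega) (hf2 w hw)
    rw [ord_div w one_ne_zero hg0, hg, add_comm, ord_add_eq_of_lt w hfs (Or.inr hlt), w.ord_one,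
      ord_pow]
    have : ((M + 1 : ℕ) : ℤ) * w.ord f ≤ ((M + 1 : ℕ) : ℤ) * (-1) :=
      mul_le_mul_of_nonneg_left (by have := hf2 w hw; omega) (by omega)
    omega

/-- Weak approximation. -/
theorem approximation (S : Finset (Place K F)) (a : Place K F → F) (n : Place K F → ℤ) :
    ∃ f : F, ∀ v ∈ S, v.adicValuation (f - a v) ≤ exp (-n v) := by
  classical
  set M : ℕ := ∑ v ∈ S, ((n v).toNat + ∑ w ∈ S, (v.ord (a w)).natAbs) with hM
  choose e he1 he2 using fun v : Place K F => exists_bump (S.erase v) v (by simp) M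
  refine ⟨∑ w ∈ S, a w * e w, fun v hv => ?_⟩
  rw [← mem_poleLe_iff_adicValuation]
  have hbound : ∀ w ∈ S, ((n v).toNat : ℤ) + (v.ord (a w)).natAbs ≤ M := by
    intro w hw
    have h1 : (n v).toNat + (v.ord (a w)).natAbs ≤
        (n v).toNat + ∑ w ∈ S, (v.ord (a w)).natAbs :=
      Nat.add_le_add_left
        (Finset.single_le_sum (f := fun w => (v.ord (a w)).natAbs) (fun _ _ => Nat.zero_le _) hw) _
    have h2 : (n v).toNat + ∑ w ∈ S, (v.ord (a w)).natAbs ≤ M :=
      Finset.single_le_sum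
        (f := fun v => (n v).toNat + ∑ w ∈ S, (v.ord (a w)).natAbs) (fun _ _ => Nat.zero_le _) hv
    omega
  have hmem : ∀ w ∈ S, a w ∈ poleLe v (-v.ord (a w)) := fun w _ =>
    (mem_poleLe v).mpr (Or.inr (by omega))
  have : ∑ w ∈ S, a w * e w - a v =
      a v * (e v - 1) + ∑ w ∈ S.erase v, a w * e w := by
    rw [← Finset.add_sum_erase _ _ hv]; ring
  rw [this]
  refine add_mem ?_ (sum_mem fun w hw => ?_)
  · refine poleLe_mono v ?_ (mul_mem_poleLe v (hmem v hv) (he1 v))
    have := hbound v hv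
    omega
  · have hwS := Finset.mem_of_mem_erase hw
    refine poleLe_mono v ?_ (mul_mem_poleLe v (hmem w hwS)
      (he2 w v (Finset.mem_erase.mpr ⟨(Finset.ne_of_mem_erase hw).symm, hv⟩)))
    have := hbound w hwS
    omega

/-- Prescribed orders at finitely many places. -/
theorem exists_ord_eq (S : Finset (Place K F)) (n : Place K F → ℤ) :
    ∃ f : F, f ≠ 0 ∧ ∀ v ∈ S, v.ord f = n v := by
  classical
  rcases S.eq_empty_or_nonempty with rfl | ⟨v0, hv0⟩
  · exact ⟨1, one_ne_zero, by simp⟩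
  choose t ht0 ht using fun v : Place K F => exists_ord_eq_one v
  obtain ⟨f, hf⟩ := approximation S (fun v => t v ^ (n v)) (fun v => n v + 1)
  have key : ∀ v ∈ S, f ≠ 0 ∧ v.ord f = n v := by
    intro v hv
    have htn : t v ^ (n v) ≠ 0 := zpow_ne_zero _ (ht0 v)
    have hord : v.ord (t v ^ (n v)) = n v := by rw [v.ord_zpow, ht, mul_one]
    have hd := v.adicValuation_le_exp_iff.mp (hf v hv)
    have hlt : f - t v ^ (n v) = 0 ∨ v.ord (t v ^ (n v)) < v.ord (f - t v ^ (n v)) :=
      hd.imp id fun h => by omega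
    have h1 := add_ne_zero_of_ord_lt v htn hlt
    have h2 := ord_add_eq_of_lt v htn hlt
    rw [add_sub_cancel] at h1 h2
    exact ⟨h1, h2.trans hord⟩
  exact ⟨f, (key v0 hv0).1, fun v hv => (key v hv).2⟩

end Fermat.Agent.FF

end
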