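import Mathlib
import Fermat.Prelude.Def_AlgebraicCurve_IsCurveOver
import Fermat.Agent.FF.Basic

/-!
# Existence of places, valuation rings are places, residue fields are trivial

Valuation rings over the constants are discrete (by the chain bound `[F : K(x)]`), so every
transcendental element has a zero and a pole; over an algebraically closed field places have
degree one.
-/

noncomputable section

open IntermediateField AlgebraicCurve WithZero Polynomial

namespace Fermat.Agent.FF

variable {K F : Type*} [Field K] [Field F] [Algebra K F]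

/-- To prove independence over `K(x)` it is enough to show that the constant terms of any
polynomial relation vanish. -/
theorem linearIndependent_adjoin {ι : Type*} [Fintype ι] {x : F} (hx : Transcendental K x)
    (y : ι → F)
    (key : ∀ φ : ι → K[X], ∑ i, aeval x (φ i) * y i = 0 → ∀ i, (φ i).coeff 0 = 0) :
    LinearIndependent K⟮x⟯ y := by
  classical
  have hx0 : x ≠ 0 := by rintro rfl; exact hx isAlgebraic_zero
  have all : ∀ k : ℕ, ∀ φ : ι → K[X], ∑ i, aeval x (φ i) * y i = 0 → ∀ i, (φ i).coeff k = 0 := by
    intro k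
    induction k with
    | zero => exact key
    | succ k ih =>
      intro φ hφ i
      have hdiv : ∀ j, φ j = X * (φ j).divX := fun j => by
        conv_lhs => rw [← X_mul_divX_add (φ j), key φ hφ j, C_0, add_zero]
      have h0 : ∑ j, aeval x (φ j).divX * y j = 0 := by
        refine (mul_eq_zero.mp ?_).resolve_left hx0
        rw [Finset.mul_sum, ← hφ]
        refine Finset.sum_congr rfl fun j _ => ?_
        conv_rhs => rw [hdiv j, map_mul, aeval_X]
        ring
      simpa [coeff_divX] using ih (fun j => (φ j).divX) h0 i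
  refine Fintype.linearIndependent_iff.mpr fun c hc i => ?_
  choose r s hrs using fun j => (mem_adjoin_simple_iff K (α := x) (c j : F)).mp (c j).2
  set s' : ι → K[X] := fun j => if s j = 0 then 1 else s j with hs'
  have hs'0 : ∀ j, s' j ≠ 0 := fun j => by by_cases h : s j = 0 <;> simp [hs', h]
  have hne : ∀ j, aeval x (s' j) ≠ 0 := fun j h => hs'0 j (transcendental_iff.mp hx _ h)
  set r' : ι → K[X] := fun j => if s j = 0 then 0 else r j with hr'
  have hc' : ∀ j, (c j : F) = aeval x (r' j) / aeval x (s' j) := fun j => by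
    by_cases h : s j = 0 <;> simp [hs', hr', h, hrs j]
  set φ : ι → K[X] := fun j => r' j * ∏ k ∈ Finset.univ.erase j, s' k with hφdef
  have hφ : ∀ j, aeval x (φ j) = (c j : F) * aeval x (∏ k, s' k) := fun j => by
    rw [hc' j, hφdef, ← Finset.mul_prod_erase _ _ (Finset.mem_univ j), map_mul, map_mul]
    field_simp [hne j]
  have hrel : ∑ j, aeval x (φ j) * y j = 0 := by
    calc ∑ j, aeval x (φ j) * y j = aeval x (∏ k, s' k) * ∑ j, c j • y j := by
          rw [Finset.mul_sum]
          refine Finset.sum_congr rfl fun j _ => ?_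
          rw [hφ j, IntermediateField.smul_def, smul_eq_mul]
          ring
      _ = 0 := by rw [hc, mul_zero]
  have : φ i = 0 := Polynomial.ext fun k => by simpa using all k φ hrel i
  have h0 := hφ i
  rw [this, map_zero, eq_comm, mul_eq_zero, map_prod] at h0
  exact Subtype.ext (h0.resolve_right (Finset.prod_ne_zero_iff.mpr fun k _ => hne k))

section ValuationSubring

variable (A : ValuationSubring F) (hK : ∀ a : K, algebraMap K F a ∈ A)

include hK

theorem valuation_algebraMap {c : K} (hc : c ≠ 0) : A.valuation (algebraMap K F c) = 1 := by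
  refine le_antisymm ((A.valuation_le_one_iff _).mpr (hK c)) ?_
  have := (A.valuation_le_one_iff _).mpr (hK c⁻¹)
  rwa [map_inv₀, map_inv₀, inv_le_one₀ (zero_lt_iff.mpr ((Valuation.ne_zero_iff _).mpr
    ((_root_.map_ne_zero _).mpr hc)))] at this

theorem aeval_mem_of_mem {x : F} (hx : x ∈ A) (p : K[X]) : aeval x p ∈ A := by
  induction p using Polynomial.induction_on' with
  | add p q hp hq => simpa using add_mem hp hq
  | monomial n a => simpa using mul_mem (hK a) (pow_mem hx n)

theorem transcendental_of_valuation_lt_one [IsAlgClosed K] {x : F} (hx0 : x ≠ 0)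
    (hx : A.valuation x < 1) : Transcendental K x := by
  refine (mem_range_or_transcendental x).resolve_left ?_
  rintro ⟨c, rfl⟩
  exact hx.ne (valuation_algebraMap A hK (by simpa using hx0))

/-- The chain lemma: a strictly increasing chain of nonunits above `x` has length at most
`[F : K(x)]`. -/
theorem chain_le_finrank [IsAlgClosed K] [IsFunctionField K F] {k : ℕ} {x : F} (hx0 : x ≠ 0)
    (hx : A.valuation x < 1) (y : Fin k → F) (hy : ∀ i, A.valuation (y i) < 1)
    (hxy : ∀ i, A.valuation x ≤ A.valuation (y i))
    (hmono : ∀ i j, i < j → A.valuation (y i) < A.valuation (y j)) :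
    k ≤ Module.finrank K⟮x⟯ F := by
  classical
  have hxt := transcendental_of_valuation_lt_one A hK hx0 hx
  have := finiteDimensional_adjoin_of_transcendental hxt
  have hxA : x ∈ A := (A.valuation_le_one_iff x).mp hx.le
  have hpos : 0 < A.valuation x := zero_lt_iff.mpr ((Valuation.ne_zero_iff _).mpr hx0)
  suffices LinearIndependent K⟮x⟯ y by simpa using this.fintype_card_le_finrank
  refine linearIndependent_adjoin hxt y fun φ hφ i => ?_
  by_contra hi
  obtain ⟨j, hj, hmax⟩ := Finset.exists_max_image
    (Finset.univ.filter fun j => (φ j).coeff 0 ≠ 0) id ⟨i, by simpa using hi⟩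
  rw [Finset.mem_filter] at hj
  have hunit : A.valuation (aeval x (φ j)) = 1 := by
    conv_lhs => rw [← X_mul_divX_add (φ j), map_add, map_mul, aeval_X, aeval_C]
    rw [Valuation.map_add_eq_of_lt_right _ ?_, valuation_algebraMap A hK hj.2]
    rw [valuation_algebraMap A hK hj.2, map_mul]
    exact mul_lt_one_of_lt_of_le hx
      ((A.valuation_le_one_iff _).mpr (aeval_mem_of_mem A hK hxA _))
  have hlt : ∀ l ∈ Finset.univ.erase j,
      A.valuation (aeval x (φ l) * y l) < A.valuation (y j) := by
    intro l hl
    have hle := (A.valuation_le_one_iff _).mpr (aeval_mem_of_mem A hK hxA (φ l))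
    rcases lt_or_gt_of_ne (Finset.ne_of_mem_erase hl) with h | h
    · rw [map_mul]
      exact (mul_le_of_le_one_left' hle).trans_lt (hmono l j h)
    · have hc0 : (φ l).coeff 0 = 0 := by
        by_contra hne
        exact absurd (hmax l (by simpa using hne)) (not_le.mpr h)
      rw [← X_mul_divX_add (φ l), hc0, C_0, add_zero, map_mul, map_mul, aeval_X, map_mul]
      have hd := (A.valuation_le_one_iff _).mpr (aeval_mem_of_mem A hK hxA (φ l).divX)
      calc A.valuation x * A.valuation (aeval x (φ l).divX) * A.valuation (y l)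
          ≤ A.valuation x * A.valuation (y l) :=
            mul_le_mul' (mul_le_of_le_one_right' hd) le_rfl
        _ < A.valuation x * 1 := mul_lt_mul_of_pos_left (hy l) hpos
        _ = A.valuation x := mul_one _
        _ ≤ A.valuation (y j) := hxy j
  have hsum : A.valuation (∑ l ∈ Finset.univ.erase j, aeval x (φ l) * y l) < A.valuation (y j) :=
    Valuation.map_sum_lt _ (hpos.trans_le (hxy j)).ne' hlt
  have hj' : A.valuation (aeval x (φ j) * y j) = A.valuation (y j) := by
    rw [map_mul, hunit, one_mul]
  rw [← Finset.add_sum_erase _ _ (Finset.mem_univ j), add_eq_zero_iff_eq_neg] at hφ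
  rw [hφ, Valuation.map_neg] at hj'
  exact hsum.ne hj'

theorem exists_max_nonunit [IsAlgClosed K] [IsFunctionField K F] (hA : A ≠ ⊤) :
    ∃ π : F, π ≠ 0 ∧ A.valuation π < 1 ∧
      ∀ z, A.valuation z < 1 → A.valuation z ≤ A.valuation π := by
  by_contra hcon
  push Not at hcon
  obtain ⟨g, hg⟩ : ∃ g : F, g ∉ A := by
    by_contra h
    push Not at h
    exact hA (eq_top_iff.mpr fun z _ => h z)
  have hg0 : g ≠ 0 := fun h => hg (h ▸ zero_mem A)
  set x := g⁻¹
  have hx0 : x ≠ 0 := inv_ne_zero hg0
  have hx : A.valuation x < 1 := by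
    rw [map_inv₀]
    exact inv_lt_one_of_one_lt₀ (lt_of_not_ge fun h => hg ((A.valuation_le_one_iff g).mp h))
  let T := {z : F // z ≠ 0 ∧ A.valuation z < 1 ∧ A.valuation x ≤ A.valuation z}
  have step : ∀ z : T, ∃ z' : T, A.valuation z.1 < A.valuation z'.1 := fun z => by
    obtain ⟨z', h1, h2⟩ := hcon z.1 z.2.1 z.2.2.1
    refine ⟨⟨z', ?_, h1, z.2.2.2.trans h2.le⟩, h2⟩
    rintro rfl
    simp at h2
  choose succ hsucc using step
  let seq : ℕ → T := fun m => succ^[m] ⟨x, hx0, hx, le_rfl⟩
  have hmono : StrictMono fun m => A.valuation (seq m).1 := strictMono_nat_of_lt_succ fun m => by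
    simp only [seq, Function.iterate_succ_apply']
    exact hsucc _
  have := chain_le_finrank A hK hx0 hx (fun i : Fin (Module.finrank K⟮x⟯ F + 1) => (seq i).1)
    (fun i => (seq i).2.2.1) (fun i => (seq i).2.2.2) (fun i j h => hmono h)
  omega

/-- A proper valuation ring containing the constants is a principal ideal ring. -/
theorem isPrincipalIdealRing_of_ne_top [IsAlgClosed K] [IsFunctionField K F] (hA : A ≠ ⊤) :
    IsPrincipalIdealRing A := by
  obtain ⟨π, hπ0, hπ1, hπ⟩ := exists_max_nonunit A hK hA
  have hπA : π ∈ A := (A.valuation_le_one_iff π).mp hπ1.le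
  have hπpos : 0 < A.valuation π := zero_lt_iff.mpr ((Valuation.ne_zero_iff _).mpr hπ0)
  have hpow : ∀ a : F, a ≠ 0 → A.valuation a ≤ 1 → ∃ k : ℕ, A.valuation a = A.valuation π ^ k := by
    intro a ha0 ha
    by_contra hno
    push Not at hno
    have hlt : ∀ k : ℕ, A.valuation a < A.valuation π ^ k := by
      intro k
      induction k with
      | zero => simpa using lt_of_le_of_ne ha (by simpa using hno 0)
      | succ k ih =>
        refine lt_of_le_of_ne ?_ (hno (k + 1))
        have h1 : A.valuation (a / π ^ k) < 1 := by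
          rw [map_div₀, map_pow, div_lt_one₀ (pow_pos hπpos k)]
          exact ih
        have h2 := hπ _ h1
        rw [map_div₀, map_pow, div_le_iff₀ (pow_pos hπpos k)] at h2
        rwa [pow_succ']
    set n := Module.finrank K⟮a⟯ F
    have ha1 : A.valuation a < 1 := by simpa using hlt 0
    have := chain_le_finrank A hK ha0 ha1 (fun i : Fin (n + 1) => π ^ (n + 1 - (i : ℕ)))
      (fun i => by rw [map_pow]; exact pow_lt_one₀ zero_le hπ1 (by omega))
      (fun i => by rw [map_pow]; exact (hlt _).le)
      (fun i j hij => by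
        rw [map_pow, map_pow]
        exact pow_lt_pow_right_of_lt_one₀ hπpos hπ1 (by omega))
    omega
  refine (IsDiscreteValuationRing.ofHasUnitMulPowIrreducibleFactorization
    ⟨⟨π, hπA⟩, ?_, ?_⟩).toIsPrincipalIdealRing
  · refine ⟨fun hu => ?_, fun {a b} hab => ?_⟩
    · exact hπ1.ne ((A.valuation_eq_one_iff ⟨π, hπA⟩).mp hu)
    · by_contra hcon
      push Not at hcon
      have ha : A.valuation (a : F) < 1 :=
        lt_of_le_of_ne (A.valuation_le_one a) fun h => hcon.1 ((A.valuation_eq_one_iff a).mpr h)
      have hb : A.valuation (b : F) < 1 :=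
        lt_of_le_of_ne (A.valuation_le_one b) fun h => hcon.2 ((A.valuation_eq_one_iff b).mpr h)
      have h : A.valuation π = A.valuation (a : F) * A.valuation (b : F) := by
        rw [← map_mul, show π = (a : F) * b from congrArg Subtype.val hab]
      have : A.valuation π < A.valuation π := by
        calc A.valuation π = A.valuation (a : F) * A.valuation (b : F) := h
          _ ≤ A.valuation π * A.valuation (b : F) := mul_le_mul' (hπ _ ha) le_rfl
          _ < A.valuation π * 1 := mul_lt_mul_of_pos_left hb hπpos
          _ = _ := mul_one _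
      exact this.false
  · intro a ha
    have ha0 : (a : F) ≠ 0 := by simpa using ha
    obtain ⟨k, hk⟩ := hpow a ha0 (A.valuation_le_one a)
    refine ⟨k, ?_⟩
    have hu1 : A.valuation ((a : F) / π ^ k) = 1 := by
      rw [map_div₀, map_pow, ← hk, div_self ((Valuation.ne_zero_iff _).mpr ha0)]
    have humem := (A.valuation_le_one_iff _).mp hu1.le
    refine ⟨((A.valuation_eq_one_iff ⟨_, humem⟩).mpr hu1).unit, Subtype.ext ?_⟩
    simp only [IsUnit.unit_spec]
    push_cast
    field_simp

/-- Every proper valuation ring containing the constants is a place. -/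
def placeOfValuationSubring [IsAlgClosed K] [IsFunctionField K F] (hA : A ≠ ⊤) : Place K F :=
  ⟨A, hK, hA, isPrincipalIdealRing_of_ne_top A hK hA⟩

@[simp]
theorem placeOfValuationSubring_toValuationSubring [IsAlgClosed K] [IsFunctionField K F]
    (hA : A ≠ ⊤) : (placeOfValuationSubring A hK hA).toValuationSubring = A :=
  rfl

end ValuationSubring

variable [IsAlgClosed K] [IsFunctionField K F]

/-- Every transcendental element has a zero. -/
theorem exists_place_ord_pos {x : F} (hx : Transcendental K x) :
    ∃ v : Place K F, 0 < v.ord x := by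
  let B := Algebra.adjoin K ({x} : Set F)
  have hxB : x ∈ B := Algebra.subset_adjoin (Set.mem_singleton x)
  let I : Ideal B.toSubring := Ideal.span {⟨x, hxB⟩}
  have hI : I ≠ ⊤ := by
    intro htop
    obtain ⟨b, hb⟩ := Ideal.mem_span_singleton'.mp ((Ideal.eq_top_iff_one I).mp htop)
    have hb' : (b : F) * x = 1 := congrArg Subtype.val hb
    have hbB : (b : F) ∈ Algebra.adjoin K ({x} : Set F) := b.2
    rw [Algebra.adjoin_singleton_eq_range_aeval] at hbB
    obtain ⟨p, hp⟩ := hbB
    have h0 : aeval x (p * X - 1) = 0 := by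
      have hp' : aeval x p = (b : F) := hp
      simp [hp', hb']
    have := congrArg (fun q => q.coeff 0) (transcendental_iff.mp hx _ h0)
    simp at this
  obtain ⟨A, hBA, hIA⟩ := Ideal.image_subset_nonunits_valuationSubring I hI
  have hK : ∀ a, algebraMap K F a ∈ A := fun a => hBA (B.algebraMap_mem a)
  have hxv : A.valuation x < 1 := hIA ⟨⟨x, hxB⟩, Ideal.mem_span_singleton_self _, rfl⟩
  have hx0 : x ≠ 0 := by rintro rfl; exact hx isAlgebraic_zero
  have hA : A ≠ ⊤ := by
    intro htop
    have h1 : x⁻¹ ∈ A := by rw [htop]; trivial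
    have h2 := (A.valuation_le_one_iff _).mpr h1
    rw [map_inv₀, inv_le_one₀ (zero_lt_iff.mpr ((Valuation.ne_zero_iff _).mpr hx0))] at h2
    exact absurd h2 (not_le.mpr hxv)
  refine ⟨placeOfValuationSubring A hK hA, ?_⟩
  set v := placeOfValuationSubring A hK hA
  have h1 : 0 ≤ v.ord x :=
    (mem_iff_ord_nonneg v).mp ((A.valuation_le_one_iff x).mp hxv.le)
  refine lt_of_le_of_ne h1 fun h => ?_
  have h2 : x⁻¹ ∈ A := (mem_iff_ord_nonneg v).mpr (by rw [v.ord_inv, ← h]; simp)
  have h3 := (A.valuation_le_one_iff _).mpr h2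
  rw [map_inv₀, inv_le_one₀ (zero_lt_iff.mpr ((Valuation.ne_zero_iff _).mpr hx0))] at h3
  exact absurd h3 (not_le.mpr hxv)

/-- Every transcendental element has a pole. -/
theorem exists_place_ord_neg {x : F} (hx : Transcendental K x) :
    ∃ v : Place K F, v.ord x < 0 := by
  obtain ⟨v, hv⟩ := exists_place_ord_pos (transcendental_inv hx)
  exact ⟨v, by rw [v.ord_inv] at hv; omega⟩

/-- A function without poles is constant. -/
theorem mem_range_of_ord_nonneg {f : F} (h : ∀ v : Place K F, 0 ≤ v.ord f) :
    f ∈ Set.range (algebraMap K F) :=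
  (mem_range_or_transcendental f).resolve_right fun ht => by
    obtain ⟨v, hv⟩ := exists_place_ord_neg ht
    exact absurd (h v) (not_le.mpr hv)

variable (v : Place K F)

/-- An element of the valuation ring is a root modulo the maximal ideal of a nonzero polynomial. -/
theorem exists_ord_pos_relation {z : F} (hz : 0 ≤ v.ord z) :
    ∃ p : K[X], p ≠ 0 ∧ (aeval z p = 0 ∨ 0 < v.ord (aeval z p)) := by
  classical
  obtain ⟨t, ht0, ht⟩ := exists_ord_eq_one v
  have htt : Transcendental K t := transcendental_of_ord_ne_zero v (by omega)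
  have := finiteDimensional_adjoin_of_transcendental htt
  set n := Module.finrank K⟮t⟯ F
  by_contra hcon
  push Not at hcon
  have : LinearIndependent K⟮t⟯ fun i : Fin (n + 1) => z ^ (i : ℕ) := by
    refine linearIndependent_adjoin htt _ fun φ hφ i => ?_
    by_contra hi
    set p : K[X] := ∑ j : Fin (n + 1), monomial (j : ℕ) ((φ j).coeff 0) with hpdef
    have hp : p ≠ 0 := by
      intro h0
      have := congrArg (fun q => q.coeff (i : ℕ)) h0
      simp [hpdef, coeff_monomial, Fin.val_inj, hi] at this
    obtain ⟨hne, hle⟩ := hcon p hp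
    have hdecomp : aeval z p = -(t * ∑ j, aeval t (φ j).divX * z ^ (j : ℕ)) := by
      rw [eq_neg_iff_add_eq_zero, ← hφ, hpdef, map_sum, Finset.mul_sum, ← Finset.sum_add_distrib]
      refine Finset.sum_congr rfl fun j _ => ?_
      conv_rhs => rw [← X_mul_divX_add (φ j)]
      simp only [aeval_monomial, map_add, map_mul, aeval_X, aeval_C]
      ring
    have hmem : ∑ j, aeval t (φ j).divX * z ^ (j : ℕ) ∈ v.toValuationSubring :=
      sum_mem fun j _ => mul_mem
        (aeval_mem_of_mem _ v.algebraMap_mem' ((mem_iff_ord_nonneg v).mpr (by omega)) _)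
        (pow_mem ((mem_iff_ord_nonneg v).mpr hz) _)
    rw [mem_iff_ord_nonneg] at hmem
    rw [hdecomp, ord_neg, v.ord_mul ht0 ?_] at hle
    · omega
    · intro h0
      rw [hdecomp, h0] at hne
      simp at hne
  have := this.fintype_card_le_finrank
  simp [n] at this

/-- Every function regular at `v` has a value there. -/
theorem exists_const {f : F} (hf : 0 ≤ v.ord f) :
    ∃ c : K, f - algebraMap K F c = 0 ∨ 0 < v.ord (f - algebraMap K F c) := by
  obtain ⟨p, hp0, hp⟩ := exists_ord_pos_relation v hf
  by_contra hcon
  push Not at hcon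
  have key : ∀ s : Multiset K, (s.map fun c => f - algebraMap K F c).prod ≠ 0 ∧
      v.ord ((s.map fun c => f - algebraMap K F c).prod) ≤ 0 := by
    intro s
    induction s using Multiset.induction_on with
    | empty => simp
    | cons c s ih =>
      rw [Multiset.map_cons, Multiset.prod_cons]
      refine ⟨mul_ne_zero (hcon c).1 ih.1, ?_⟩
      rw [v.ord_mul (hcon c).1 ih.1]
      linarith [(hcon c).2, ih.2]
  have heq : aeval f p = algebraMap K F p.leadingCoeff *
      (p.roots.map fun c => f - algebraMap K F c).prod := by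
    conv_lhs => rw [(IsAlgClosed.splits p).eq_prod_roots]
    simp [map_multiset_prod, Multiset.map_map]
  have hne : aeval f p ≠ 0 := by
    rw [heq]
    exact mul_ne_zero ((_root_.map_ne_zero _).mpr (leadingCoeff_ne_zero.mpr hp0)) (key _).1
  have := hp.resolve_left hne
  rw [heq, ord_algebraMap_mul v (leadingCoeff_ne_zero.mpr hp0)] at this
  linarith [(key p.roots).2]

omit [IsAlgClosed K] [IsFunctionField K F] in
/-- The value of a function at a place is unique. -/
theorem const_unique {f : F} {c d : K}
    (hc : f - algebraMap K F c = 0 ∨ 0 < v.ord (f - algebraMap K F c))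
    (hd : f - algebraMap K F d = 0 ∨ 0 < v.ord (f - algebraMap K F d)) : c = d := by
  by_contra hne
  have h1 : f - algebraMap K F c ∈ poleLe v (-1) :=
    (mem_poleLe v).mpr (hc.imp id fun h => by omega)
  have h2 : f - algebraMap K F d ∈ poleLe v (-1) :=
    (mem_poleLe v).mpr (hd.imp id fun h => by omega)
  have h3 := sub_mem h2 h1
  rw [sub_sub_sub_cancel_left, ← map_sub, mem_poleLe_of_ne v
    ((_root_.map_ne_zero _).mpr (sub_ne_zero.mpr hne)), ord_algebraMap] at h3
  omega

/-- The residue field of a place is the field of constants. -/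
theorem algebraMap_residueField_bijective :
    Function.Bijective (algebraMap K v.ResidueField) := by
  refine ⟨(algebraMap K v.ResidueField).injective, fun z => ?_⟩
  obtain ⟨⟨f, hf⟩, rfl⟩ := IsLocalRing.residue_surjective z
  obtain ⟨c, hc⟩ := exists_const v ((mem_iff_ord_nonneg v).mp hf)
  refine ⟨c, ?_⟩
  show IsLocalRing.residue _ (algebraMap K v.toValuationSubring c) = _
  refine sub_eq_zero.mp ?_
  rw [← map_sub, IsLocalRing.residue_eq_zero_iff, IsLocalRing.mem_maximalIdeal, mem_nonunits_iff,
    ← v.adicValuation_coe_eq_one_iff]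
  intro h1
  have : ((algebraMap K v.toValuationSubring c - ⟨f, hf⟩ : v.toValuationSubring) : F)
      = -(f - algebraMap K F c) := by push_cast; rw [Place.coe_algebraMap]; ring
  rw [this, Valuation.map_neg] at h1
  rcases hc with hc | hc
  · rw [hc, map_zero] at h1
    exact zero_ne_one h1
  · rw [v.adicValuation_eq_exp_neg_ord (fun h => by simp [h] at hc), ← exp_zero, exp_inj] at h1
    omega

instance finite_residueField : Module.Finite K v.ResidueField :=
  Module.Finite.of_surjective (Algebra.linearMap K v.ResidueField)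
    (algebraMap_residueField_bijective v).2

/-- Places have degree one. -/
theorem place_deg_eq_one : v.deg = 1 := v.deg_eq_one_of_isAlgClosed_of_finite

theorem degree_eq_sum (D : Divisor K F) : Divisor.degree D = D.sum fun _ n => n := by
  simp [Divisor.degree, Finsupp.liftAddHom_apply, place_deg_eq_one]

end Fermat.Agent.FF

end
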