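import Mathlib
import Fermat.Agent.FF.Places

/-!
# The spaces `L(D)`

Monotonicity and finite dimension of `L(D)`, and the growth by at most one dimension per place,
whence `l(D) ≤ deg D + 1` for effective `D`.
-/

noncomputable section

open AlgebraicCurve WithZero

namespace Fermat.Agent.FF

variable {K F : Type*} [Field K] [Field F] [Algebra K F]

theorem mem_rrSpace_iff {D : Divisor K F} {f : F} :
    f ∈ riemannRochSpace D ↔ ∀ v : Place K F, f ∈ poleLe v (D v) :=
  Iff.rfl

theorem mem_rrSpace_of_ord {D : Divisor K F} {f : F} (hf : f ≠ 0) :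
    f ∈ riemannRochSpace D ↔ ∀ v : Place K F, -D v ≤ v.ord f := by
  simp [mem_riemannRochSpace_iff, hf]

theorem rrSpace_mono {D E : Divisor K F} (h : D ≤ E) : riemannRochSpace D ≤ riemannRochSpace E :=
  fun _ hf v => poleLe_mono v (h v) (hf v)

/-- The dimension `l(D)`. -/
def ell (D : Divisor K F) : ℕ := Module.finrank K (riemannRochSpace D)

/-- Induction: from `D` one reaches every larger divisor adding places one at a time. -/
theorem divisor_induction_up {P : Divisor K F → Prop} {D : Divisor K F} (base : P D)
    (step : ∀ (E : Divisor K F) (v : Place K F), D ≤ E → P E → P (E + Finsupp.single v 1)) :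
    ∀ E, D ≤ E → P E := by
  classical
  suffices ∀ (n : ℕ) (E : Divisor K F), D ≤ E → (E - D).sum (fun _ k => k.toNat) = n → P E from
    fun E h => this _ E h rfl
  intro n
  induction n using Nat.strong_induction_on with
  | _ n ih =>
    intro E hE hn
    by_cases h : E = D
    · exact h ▸ base
    obtain ⟨v, hv⟩ : ∃ v, D v < E v := by
      by_contra hcon
      push Not at hcon
      exact h (Finsupp.ext fun v => le_antisymm (hcon v) (hE v))
    set E' := E - Finsupp.single v 1 with hE'
    have hle : D ≤ E' := fun w => by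
      rcases eq_or_ne w v with rfl | hw
      · simp [hE']; omega
      · simpa [hE', hw] using hE w
    have hsum : ∀ G : Divisor K F, D ≤ G → ∀ s : Finset (Place K F), (G - D).support ⊆ s →
        (G - D).sum (fun _ k => k.toNat) = ∑ w ∈ s, (G w - D w).toNat := fun G _ s hs => by
      rw [Finsupp.sum_of_support_subset _ hs _ (by simp)]
      simp
    have hlt : (E' - D).sum (fun _ k => k.toNat) < n := by
      rw [← hn, hsum E' hle ((E' - D).support ∪ (E - D).support) Finset.subset_union_left,
        hsum E hE ((E' - D).support ∪ (E - D).support) Finset.subset_union_right]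
      refine Finset.sum_lt_sum (fun w _ => Int.toNat_le_toNat ?_) ⟨v, ?_, ?_⟩
      · rcases eq_or_ne w v with rfl | hw
        · simp [hE']
        · simp [hE', hw]
      · refine Finset.mem_union_right _ (Finsupp.mem_support_iff.mpr ?_)
        simp only [Finsupp.coe_sub, Pi.sub_apply]
        omega
      · simp [hE']; omega
    have := step E' v hle (ih _ hlt E' hle rfl)
    rwa [hE', sub_add_cancel] at this

theorem divisor_le_add_single (D : Divisor K F) (v : Place K F) :
    D ≤ D + Finsupp.single v 1 :=
  le_add_of_nonneg_right (Finsupp.single_nonneg.mpr zero_le_one)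

theorem add_single_apply_self (D : Divisor K F) (v : Place K F) :
    (D + Finsupp.single v 1 : Divisor K F) v = D v + 1 := by simp

theorem add_single_apply_ne (D : Divisor K F) {v w : Place K F} (h : w ≠ v) :
    (D + Finsupp.single v 1 : Divisor K F) w = D w := by simp [h]

variable [IsAlgClosed K] [IsFunctionField K F]

/-- Leading coefficient at `v`: `poleLe v (n+1) = K u ⊕ poleLe v n` for any `u` of exact order. -/
theorem exists_smul_sub_mem (v : Place K F) {n : ℤ} {u f : F} (hu0 : u ≠ 0)
    (hu : v.ord u = -(n + 1)) (hf : f ∈ poleLe v (n + 1)) :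
    ∃ c : K, f - c • u ∈ poleLe v n := by
  rcases eq_or_ne f 0 with rfl | hf0
  · exact ⟨0, by simp⟩
  rw [mem_poleLe_of_ne v hf0] at hf
  have h : 0 ≤ v.ord (f / u) := by rw [ord_div v hf0 hu0, hu]; omega
  obtain ⟨c, hc⟩ := exists_const v h
  refine ⟨c, (mem_poleLe v).mpr ?_⟩
  have heq : f - c • u = (f / u - algebraMap K F c) * u := by
    rw [Algebra.smul_def]; field_simp
  rw [heq]
  rcases eq_or_ne (f / u - algebraMap K F c) 0 with h0 | h0
  · exact Or.inl (by rw [h0, zero_mul])
  · right
    rw [v.ord_mul h0 hu0, hu]
    have := hc.resolve_left h0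
    omega

omit [IsAlgClosed K] [IsFunctionField K F] in
theorem not_mem_poleLe_of_ord (v : Place K F) {n : ℤ} {u : F} (hu0 : u ≠ 0)
    (hu : v.ord u = -(n + 1)) : u ∉ poleLe v n := by
  rw [mem_poleLe_of_ne v hu0, hu]; omega

/-- Adding a place enlarges `L` by at most one vector. -/
theorem rrSpace_step (D : Divisor K F) (v : Place K F) :
    riemannRochSpace (D + Finsupp.single v 1) = riemannRochSpace D ∨
      ∃ f : F, f ≠ 0 ∧ v.ord f = -(D v + 1) ∧ f ∉ riemannRochSpace D ∧
        riemannRochSpace (D + Finsupp.single v 1) = riemannRochSpace D ⊔ K ∙ f := by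
  by_cases h : riemannRochSpace (D + Finsupp.single v 1) ≤ riemannRochSpace D
  · exact Or.inl (le_antisymm h (rrSpace_mono (divisor_le_add_single D v)))
  right
  obtain ⟨f, hf, hfn⟩ := SetLike.not_le_iff_exists.mp h
  have hf0 : f ≠ 0 := by rintro rfl; exact hfn (zero_mem _)
  have hfv : f ∉ poleLe v (D v) := fun hv => hfn fun w => by
    rcases eq_or_ne w v with rfl | hw
    · exact hv
    · exact add_single_apply_ne D hw ▸ hf w
  have hford : v.ord f = -(D v + 1) := by
    have h1 := (mem_poleLe_of_ne v hf0).mp (add_single_apply_self D v ▸ hf v :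
      f ∈ poleLe v (D v + 1))
    rw [mem_poleLe_of_ne v hf0] at hfv
    omega
  refine ⟨f, hf0, hford, hfn, le_antisymm (fun g hg => ?_) ?_⟩
  · obtain ⟨c, hc⟩ := exists_smul_sub_mem v hf0 hford
      (add_single_apply_self D v ▸ hg v : g ∈ poleLe v (D v + 1))
    rw [← sub_add_cancel g (c • f)]
    refine Submodule.add_mem_sup (fun w => ?_) (Submodule.smul_mem _ c
        (Submodule.mem_span_singleton_self f))
    rcases eq_or_ne w v with rfl | hw
    · exact hc
    · have h1 : g ∈ poleLe w (D w) := add_single_apply_ne D hw ▸ hg w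
      have h2 : f ∈ poleLe w (D w) := add_single_apply_ne D hw ▸ hf w
      exact sub_mem h1 (Submodule.smul_mem _ c h2)
  · exact sup_le (rrSpace_mono (divisor_le_add_single D v))
      ((Submodule.span_singleton_le_iff_mem _ _).mpr hf)

theorem degree_add_single (D : Divisor K F) (v : Place K F) :
    Divisor.degree (D + Finsupp.single v 1) = Divisor.degree D + 1 := by
  simp [place_deg_eq_one]

theorem degree_mono {D E : Divisor K F} (h : D ≤ E) : Divisor.degree D ≤ Divisor.degree E := by
  refine divisor_induction_up (P := fun E => Divisor.degree D ≤ Divisor.degree E) le_rfl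
    (fun E v _ hE => ?_) E h
  rw [degree_add_single]; omega

theorem degree_nonneg {D : Divisor K F} (h : 0 ≤ D) : 0 ≤ Divisor.degree D := by
  simpa using degree_mono h

theorem rrSpace_zero : riemannRochSpace (0 : Divisor K F) = K ∙ (1 : F) := by
  refine le_antisymm (fun f hf => ?_) ((Submodule.span_singleton_le_iff_mem _ _).mpr ?_)
  · have hord : ∀ v : Place K F, 0 ≤ v.ord f := fun v => by
      rw [← mem_iff_ord_nonneg, ← poleLe_zero_eq]
      exact hf v
    obtain ⟨c, rfl⟩ := mem_range_of_ord_nonneg hord
    exact Submodule.mem_span_singleton.mpr ⟨c, by rw [Algebra.smul_def, mul_one]⟩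
  · intro v; simp

/-- The positive part of a divisor, an effective divisor above it. -/
def posDiv (D : Divisor K F) : Divisor K F := D.mapRange (fun n => max n 0) (by simp)

omit [IsAlgClosed K] [IsFunctionField K F] in
@[simp]
theorem posDiv_apply (D : Divisor K F) (v : Place K F) : posDiv D v = max (D v) 0 := by
  simp [posDiv]

omit [IsAlgClosed K] [IsFunctionField K F] in
theorem le_posDiv (D : Divisor K F) : D ≤ posDiv D := fun v => by simp

omit [IsAlgClosed K] [IsFunctionField K F] in
theorem posDiv_nonneg (D : Divisor K F) : 0 ≤ posDiv D := fun v => by simp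

omit [IsAlgClosed K] [IsFunctionField K F] in
theorem posDiv_sub_posDiv_neg (D : Divisor K F) : posDiv D - posDiv (-D) = D := by
  ext v
  simp only [Finsupp.coe_sub, Pi.sub_apply, posDiv_apply, Finsupp.coe_neg, Pi.neg_apply]
  omega

theorem finite_rrSpace_of_nonneg {D : Divisor K F} (h : 0 ≤ D) :
    FiniteDimensional K (riemannRochSpace D) := by
  refine divisor_induction_up (P := fun E => FiniteDimensional K (riemannRochSpace E)) ?_
    (fun E v _ hE => ?_) D h
  · rw [rrSpace_zero]; infer_instance
  · rcases rrSpace_step E v with h | ⟨f, -, -, -, h⟩ <;> rw [h]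
    · exact hE
    · infer_instance

instance finite_rrSpace (D : Divisor K F) : FiniteDimensional K (riemannRochSpace D) :=
  haveI := finite_rrSpace_of_nonneg (posDiv_nonneg D)
  Submodule.finiteDimensional_of_le (rrSpace_mono (le_posDiv D))

theorem ell_mono {D E : Divisor K F} (h : D ≤ E) : ell D ≤ ell E :=
  Submodule.finrank_mono (rrSpace_mono h)

theorem ell_zero : ell (0 : Divisor K F) = 1 := by
  rw [ell, rrSpace_zero]
  exact finrank_span_singleton one_ne_zero

omit [IsAlgClosed K] in
theorem finrank_sup_span_singleton {M : Type*} [AddCommGroup M] [Module K M] (p : Submodule K M)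
    [FiniteDimensional K p] {f : M} (hf : f ∉ p) :
    Module.finrank K ↥(p ⊔ K ∙ f) = Module.finrank K p + 1 := by
  have hf0 : f ≠ 0 := fun h => hf (h ▸ zero_mem p)
  have := Submodule.finrank_sup_add_finrank_inf_eq p (K ∙ f)
  rw [(Submodule.disjoint_span_singleton' hf0).mpr hf |>.eq_bot, finrank_bot, add_zero,
    finrank_span_singleton hf0] at this
  exact this

theorem ell_step_le (D : Divisor K F) (v : Place K F) :
    ell (D + Finsupp.single v 1) ≤ ell D + 1 := by
  rcases rrSpace_step D v with h | ⟨f, -, -, hf, h⟩
  · rw [ell, h]; exact Nat.le_succ _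
  · rw [ell, h, finrank_sup_span_singleton _ hf]; rfl

/-- `deg D - l(D)` is monotone. -/
theorem degree_sub_ell_mono {D E : Divisor K F} (h : D ≤ E) :
    Divisor.degree D - ell D ≤ Divisor.degree E - ell E := by
  refine divisor_induction_up
    (P := fun E => Divisor.degree D - ell D ≤ Divisor.degree E - ell E) le_rfl
    (fun E v _ hE => ?_) E h
  have := ell_step_le E v
  rw [degree_add_single]
  omega

theorem ell_le_degree_add_one {D : Divisor K F} (h : 0 ≤ D) :
    (ell D : ℤ) ≤ Divisor.degree D + 1 := by
  have := degree_sub_ell_mono h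
  rw [ell_zero, map_zero] at this
  omega

end Fermat.Agent.FF

end
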