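import Mathlib
import Fermat.Agent.FF.Approx
import Fermat.Agent.FF.LSpace

/-!
# Principal divisors have degree zero; degree of the zero divisor is the field degree

The classical bound `∑ ord ≤ [F : K(x)]` and the spaces `L(r (x)_∞)` give `deg (x)_∞ = [F : K(x)]`,
hence the principal divisors of a function field and the product formula.
-/

noncomputable section

open IntermediateField AlgebraicCurve WithZero Polynomial

namespace Fermat.Agent.FF

variable {K F : Type*} [Field K] [Field F] [Algebra K F] [IsAlgClosed K] [IsFunctionField K F]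

omit [IsAlgClosed K] in
/-- Any finite set of zeros of `x` has total order at most `[F : K(x)]`. -/
theorem sum_ord_le_finrank {x : F} (hx : Transcendental K x) (S : Finset (Place K F))
    (hS : ∀ v ∈ S, 0 < v.ord x) :
    ∑ v ∈ S, (v.ord x).toNat ≤ Module.finrank K⟮x⟯ F := by
  classical
  have := finiteDimensional_adjoin_of_transcendental hx
  let ι := Σ v : S, Fin (v.1.ord x).toNat
  have hx0 : x ≠ 0 := by rintro rfl; exact hx isAlgebraic_zero
  have ht : ∀ i : ι, ∃ t : F, t ≠ 0 ∧
      ∀ w ∈ S, w.ord t = if w = i.1.1 then (i.2 : ℤ) else w.ord x := fun i => exists_ord_eq S _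
  choose t ht0 ht using ht
  suffices LinearIndependent K⟮x⟯ t by
    have h := this.fintype_card_le_finrank
    rw [Fintype.card_sigma] at h
    simp only [Fintype.card_fin] at h
    rwa [Finset.sum_coe_sort S fun v => (v.ord x).toNat] at h
  refine linearIndependent_adjoin hx t fun φ hφ => ?_
  -- the constant terms give a combination divisible by `x` at all places of `S`
  have hmem : ∀ w ∈ S, ∑ i, (φ i).coeff 0 • t i ∈ poleLe w (-w.ord x) := by
    intro w hw
    have hxw : x ∈ w.toValuationSubring := (mem_iff_ord_nonneg w).mpr (hS w hw).le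
    have heq : ∑ i, (φ i).coeff 0 • t i = -(x * ∑ i, aeval x (φ i).divX * t i) := by
      rw [eq_neg_iff_add_eq_zero, ← hφ, Finset.mul_sum, ← Finset.sum_add_distrib]
      refine Finset.sum_congr rfl fun i _ => ?_
      conv_rhs => rw [← X_mul_divX_add (φ i)]
      simp only [map_add, map_mul, aeval_X, aeval_C, Algebra.smul_def]
      ring
    rw [heq]
    refine neg_mem ?_
    rw [show -w.ord x = -w.ord x + 0 from (add_zero _).symm]
    refine mul_mem_poleLe w ((mem_poleLe w).mpr (Or.inr (by omega))) (sum_mem fun i _ => ?_)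
    rw [poleLe_zero_eq]
    refine mul_mem (aeval_mem_of_mem _ w.algebraMap_mem' hxw _) ?_
    rw [mem_iff_ord_nonneg, ht i w hw]
    split_ifs
    · omega
    · exact (hS w hw).le
  by_contra hcon
  push Not at hcon
  obtain ⟨i₀, hi₀⟩ := hcon
  obtain ⟨i, hi, hmin⟩ := Finset.exists_min_image
    (Finset.univ.filter fun i : ι => i.1 = i₀.1 ∧ (φ i).coeff 0 ≠ 0) (fun i => (i.2 : ℕ))
    ⟨i₀, by simpa using hi₀⟩
  rw [Finset.mem_filter] at hi
  obtain ⟨-, hi1, hi2⟩ := hi
  obtain ⟨⟨v, hv⟩, j⟩ := i
  have hjlt : (j : ℤ) < v.ord x := by have := j.2; simp only at this; omega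
  have hrest : ∑ l ∈ Finset.univ.erase (⟨⟨v, hv⟩, j⟩ : ι), (φ l).coeff 0 • t l
      ∈ poleLe v (-((j : ℤ) + 1)) := by
    refine sum_mem fun l hl => ?_
    by_cases hc : (φ l).coeff 0 = 0
    · rw [hc, zero_smul]; exact zero_mem _
    refine Submodule.smul_mem _ _ ((mem_poleLe v).mpr (Or.inr ?_))
    rw [neg_neg, ht l v hv]
    split_ifs with hvl
    · obtain ⟨⟨w, hw⟩, k⟩ := l
      obtain rfl : v = w := hvl
      have h1 := hmin ⟨⟨v, hv⟩, k⟩ (by simp [hc, ← hi1])
      have h2 : k ≠ j := fun h => (Finset.ne_of_mem_erase hl) (by rw [h])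
      have h3 : (k : ℕ) ≠ (j : ℕ) := fun h => h2 (Fin.ext h)
      simp only at h1 ⊢
      omega
    · omega
  have htot := hmem v hv
  rw [← Finset.add_sum_erase _ _ (Finset.mem_univ (⟨⟨v, hv⟩, j⟩ : ι))] at htot
  have hbad := sub_mem (poleLe_mono v (by omega : -v.ord x ≤ -((j : ℤ) + 1)) htot) hrest
  rw [add_sub_cancel_right, Submodule.smul_mem_iff _ hi2, mem_poleLe_of_ne v (ht0 _),
    ht _ v hv] at hbad
  simp at hbad

theorem finite_ord_pos (f : F) : {v : Place K F | 0 < v.ord f}.Finite := by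
  rcases mem_range_or_transcendental (K := K) f with ⟨c, rfl⟩ | hf
  · simp [ord_algebraMap]
  by_contra hinf
  obtain ⟨S, hS, hcard⟩ :=
    Set.Infinite.exists_subset_card_eq hinf (Module.finrank K⟮f⟯ F + 1)
  have h := sum_ord_le_finrank hf S fun v hv => hS hv
  have h1 : S.card • 1 ≤ ∑ v ∈ S, (v.ord f).toNat :=
    Finset.card_nsmul_le_sum S _ 1 fun v hv => by
      have : 0 < v.ord f := hS hv
      omega
  simp at h1
  omega

theorem finite_ord_ne_zero (f : F) : {v : Place K F | v.ord f ≠ 0}.Finite := by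
  refine ((finite_ord_pos (K := K) f).union (finite_ord_pos (K := K) f⁻¹)).subset fun v hv => ?_
  simp only [Set.mem_union, Set.mem_ofPred_eq, Place.ord_inv] at hv ⊢
  omega

/-- The divisor of an element (zero for `f = 0`). -/
def divOf (f : F) : Divisor K F :=
  Finsupp.ofSupportFinite (fun v => v.ord f) (finite_ord_ne_zero f)

@[simp]
theorem divOf_apply (f : F) (v : Place K F) : divOf f v = v.ord f := rfl

theorem divOf_mul {f g : F} (hf : f ≠ 0) (hg : g ≠ 0) :
    divOf (K := K) (f * g) = divOf f + divOf g :=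
  Finsupp.ext fun v => by simp [v.ord_mul hf hg]

theorem divOf_inv (f : F) : divOf (K := K) f⁻¹ = -divOf f :=
  Finsupp.ext fun v => by simp [v.ord_inv]

/-- The zero divisor of `f`. -/
def zeroDiv (f : F) : Divisor K F := posDiv (divOf f)

/-- The pole divisor of `f`. -/
def poleDiv (f : F) : Divisor K F := posDiv (-divOf f)

@[simp]
theorem zeroDiv_apply (f : F) (v : Place K F) : zeroDiv f v = max (v.ord f) 0 := by
  simp [zeroDiv]

@[simp]
theorem poleDiv_apply (f : F) (v : Place K F) : poleDiv f v = max (-v.ord f) 0 := by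
  simp [poleDiv]

theorem poleDiv_eq_zeroDiv_inv (f : F) : poleDiv (K := K) f = zeroDiv f⁻¹ := by
  rw [poleDiv, zeroDiv, divOf_inv]

theorem zeroDiv_sub_poleDiv (f : F) : zeroDiv (K := K) f - poleDiv f = divOf f :=
  posDiv_sub_posDiv_neg _

theorem degree_zeroDiv_le {x : F} (hx : Transcendental K x) :
    Divisor.degree (zeroDiv (K := K) x) ≤ Module.finrank K⟮x⟯ F := by
  classical
  have h := sum_ord_le_finrank hx (zeroDiv (K := K) x).support fun v hv => by
    rw [Finsupp.mem_support_iff, zeroDiv_apply] at hv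
    omega
  rw [degree_eq_sum, Finsupp.sum]
  refine le_of_eq_of_le ?_ (Int.ofNat_le.mpr h)
  push_cast
  refine Finset.sum_congr rfl fun v _ => ?_
  rw [zeroDiv_apply]
  omega

theorem degree_poleDiv_le {x : F} (hx : Transcendental K x) :
    Divisor.degree (poleDiv (K := K) x) ≤ Module.finrank K⟮x⟯ F := by
  rw [poleDiv_eq_zeroDiv_inv, ← finrank_adjoin_inv]
  exact degree_zeroDiv_le (transcendental_inv hx)

/-- For a fixed `C ≥ 0` and all `r`: `l(r (x)_∞ + C) ≥ [F : K(x)] (r + 1)`. -/
theorem exists_bound_ell {x : F} (hx : Transcendental K x) :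
    ∃ C : Divisor K F, 0 ≤ C ∧ ∀ r : ℕ,
      Module.finrank K⟮x⟯ F * (r + 1) ≤ ell ((r : ℤ) • poleDiv x + C) := by
  classical
  have := finiteDimensional_adjoin_of_transcendental hx
  let b := Module.finBasis K⟮x⟯ F
  refine ⟨∑ j, poleDiv (b j), Finset.sum_nonneg fun j _ => posDiv_nonneg _, fun r => ?_⟩
  let g : Fin (r + 1) × Fin (Module.finrank K⟮x⟯ F) → F := fun p => x ^ (p.1 : ℕ) * b p.2
  have hgt : Transcendental K (AdjoinSimple.gen K x) := fun h =>
    hx (by simpa using h.algHom (K⟮x⟯).val)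
  have hpow : LinearIndependent K fun i : Fin (r + 1) => (AdjoinSimple.gen K x) ^ (i : ℕ) :=
    (linearIndependent_pow_of_transcendental hgt).comp _ Fin.val_injective
  have hg : LinearIndependent K g := by
    refine Fintype.linearIndependent_iff.mpr fun a ha p => ?_
    have hc : ∑ j, (∑ i : Fin (r + 1), a (i, j) • AdjoinSimple.gen K x ^ (i : ℕ)) • b j = 0 := by
      rw [← ha, Fintype.sum_prod_type, Finset.sum_comm]
      refine Finset.sum_congr rfl fun j _ => ?_
      rw [Finset.sum_smul]
      refine Finset.sum_congr rfl fun i _ => ?_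
      rw [smul_assoc]
      rfl
    exact Fintype.linearIndependent_iff.mp hpow (fun i => a (i, p.2))
      (Fintype.linearIndependent_iff.mp b.linearIndependent _ hc p.2) p.1
  have hmem : ∀ p, g p ∈ riemannRochSpace ((r : ℤ) • poleDiv x + ∑ j, poleDiv (K := K) (b j)) := by
    intro p v
    have h1 : x ^ (p.1 : ℕ) ∈ poleLe v ((r : ℤ) * poleDiv (K := K) x v) := by
      refine (mem_poleLe v).mpr (Or.inr ?_)
      rw [ord_pow, poleDiv_apply]
      have hpr : ((p.1 : ℕ) : ℤ) ≤ r := by have := p.1.2; omega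
      have h2 : ((p.1 : ℕ) : ℤ) * max (-v.ord x) 0 ≤ (r : ℤ) * max (-v.ord x) 0 :=
        mul_le_mul_of_nonneg_right hpr (le_max_right _ _)
      have h3 : ((p.1 : ℕ) : ℤ) * -v.ord x ≤ ((p.1 : ℕ) : ℤ) * max (-v.ord x) 0 :=
        mul_le_mul_of_nonneg_left (le_max_left _ _) (by omega)
      rw [mul_neg] at h3
      omega
    have h2 : b p.2 ∈ poleLe v ((∑ j, poleDiv (K := K) (b j)) v) := by
      refine (mem_poleLe v).mpr (Or.inr ?_)
      rw [Finset.sum_apply']
      have := Finset.single_le_sum (f := fun j => poleDiv (K := K) (b j) v)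
        (fun j _ => by simp) (Finset.mem_univ p.2)
      simp only [poleDiv_apply] at this ⊢
      omega
    have := mul_mem_poleLe v h1 h2
    rw [mem_poleLe_iff_adicValuation] at this
    simpa [g] using this
  have hh : LinearIndependent K fun p => (⟨g p, hmem p⟩ :
      riemannRochSpace ((r : ℤ) • poleDiv x + ∑ j, poleDiv (K := K) (b j))) :=
    LinearIndependent.of_comp (Submodule.subtype _) hg
  have := hh.fintype_card_le_finrank
  simpa [ell, mul_comm] using this

/-- The degree of the pole divisor is `[F : K(x)]`. -/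
theorem degree_poleDiv {x : F} (hx : Transcendental K x) :
    Divisor.degree (poleDiv (K := K) x) = Module.finrank K⟮x⟯ F := by
  refine le_antisymm (degree_poleDiv_le hx) ?_
  obtain ⟨C, hC, h⟩ := exists_bound_ell (K := K) hx
  by_contra hlt
  rw [not_le] at hlt
  set n := Module.finrank K⟮x⟯ F with hn
  obtain ⟨r, hr⟩ : ∃ r : ℕ, Divisor.degree C + 1 ≤ r := ⟨(Divisor.degree C + 1).toNat, by omega⟩
  have hnn : 0 ≤ (r : ℤ) • poleDiv x + C := by
    intro v
    simp only [Finsupp.coe_zero, Pi.zero_apply, Finsupp.coe_add, Finsupp.coe_smul, Pi.add_apply,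
      Pi.smul_apply, smul_eq_mul, poleDiv_apply]
    have h1 : (0 : ℤ) ≤ (r : ℤ) * max (-v.ord x) 0 := mul_nonneg (by omega) (le_max_right _ _)
    have h2 : (0 : ℤ) ≤ C v := by simpa using hC v
    omega
  have h1 := (Int.ofNat_le.mpr (h r)).trans (ell_le_degree_add_one hnn)
  rw [map_add, map_zsmul, smul_eq_mul] at h1
  push_cast at h1
  have hpos : 0 < n := by
    have := finiteDimensional_adjoin_of_transcendental hx
    exact Module.finrank_pos
  have h2 : (r : ℤ) * Divisor.degree (poleDiv (K := K) x) ≤ (r : ℤ) * (n - 1) :=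
    mul_le_mul_of_nonneg_left (by omega) (by omega)
  rw [mul_add, mul_one] at h1
  rw [mul_sub, mul_one, mul_comm] at h2
  have : (n : ℤ) * r = r * n := mul_comm _ _
  nlinarith

/-- The degree of the zero divisor is `[F : K(x)]`. -/
theorem degree_zeroDiv {x : F} (hx : Transcendental K x) :
    Divisor.degree (zeroDiv (K := K) x) = Module.finrank K⟮x⟯ F := by
  rw [← inv_inv x, ← poleDiv_eq_zeroDiv_inv, degree_poleDiv (transcendental_inv hx),
    finrank_adjoin_inv, inv_inv]

/-- For every constant `c`, the zeros of `x - c` have total order `[F : K(x)]`. -/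
theorem degree_zeroDiv_sub_const {x : F} (hx : Transcendental K x) (c : K) :
    Divisor.degree (zeroDiv (K := K) (x - algebraMap K F c)) = Module.finrank K⟮x⟯ F := by
  rw [degree_zeroDiv (transcendental_sub_const hx c), adjoin_sub_const_eq]

/-- Product formula: principal divisors have degree zero. -/
theorem degree_divOf (f : F) : Divisor.degree (divOf (K := K) f) = 0 := by
  rcases mem_range_or_transcendental (K := K) f with ⟨c, rfl⟩ | hf
  · have : divOf (K := K) (algebraMap K F c) = 0 := Finsupp.ext fun v => by simp [ord_algebraMap]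
    rw [this, map_zero]
  · rw [← zeroDiv_sub_poleDiv, map_sub, degree_zeroDiv hf, degree_poleDiv hf, sub_self]

/-- Principal divisors exist. -/
instance hasPrincipalDivisors : HasPrincipalDivisors K F :=
  ⟨fun f _ => ⟨divOf f, divOf_apply f, degree_divOf f⟩⟩

theorem divOf_mem_principal {f : F} (hf : f ≠ 0) :
    divOf (K := K) f ∈ Divisor.principal (K := K) (F := F) :=
  ⟨f, hf, divOf_apply f⟩

/-- The principal divisors are the `divOf f`, `f ≠ 0`. -/
theorem isPrincipal_iff {D : Divisor K F} :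
    D.IsPrincipal ↔ ∃ f : F, f ≠ 0 ∧ D = divOf f :=
  ⟨fun ⟨f, hf, h⟩ => ⟨f, hf, Finsupp.ext h⟩, fun ⟨f, hf, h⟩ => ⟨f, hf, fun _ => h ▸ rfl⟩⟩

/-- Only nonzero constants have trivial divisor. -/
theorem divOf_eq_zero_iff {f : F} (hf : f ≠ 0) :
    divOf (K := K) f = 0 ↔ ∃ c : K, c ≠ 0 ∧ f = algebraMap K F c := by
  refine ⟨fun h => ?_, fun ⟨c, _, hc⟩ => hc ▸ Finsupp.ext fun v => by simp [ord_algebraMap]⟩
  obtain ⟨c, rfl⟩ := mem_range_of_ord_nonneg (K := K) (f := f) fun v =>
    (DFunLike.congr_fun h v).ge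
  exact ⟨c, fun h0 => hf (by simp [h0]), rfl⟩

end Fermat.Agent.FF

end
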