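import Mathlib
import Fermat.Agent.FF.Degree

/-!
# Riemann–Roch with repartitions

Riemann's inequality and `l(D) - dim H¹(D) = deg D + 1 - g`, where `H¹(D) = A / (A(D) + F)` is
the quotient of repartitions and `g = genusFF K F`.
-/

noncomputable section

open IntermediateField AlgebraicCurve WithZero

namespace Fermat.Agent.FF

variable {K F : Type*} [Field K] [Field F] [Algebra K F] [IsAlgClosed K] [IsFunctionField K F]

section Transport

theorem mul_mem_rrSpace {z f : F} (D : Divisor K F) (hf : f ∈ riemannRochSpace D) :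
    z * f ∈ riemannRochSpace (D - divOf z) := fun v => by
  have h1 : z ∈ poleLe v (-v.ord z) := (mem_poleLe v).mpr (Or.inr (by omega))
  have h := mul_mem_poleLe v h1 (hf v)
  rw [neg_add_eq_sub] at h
  simpa [mem_poleLe_iff_adicValuation] using h

theorem ell_le_ell_sub_divOf {z : F} (hz : z ≠ 0) (D : Divisor K F) :
    ell D ≤ ell (D - divOf z) := by
  let φ : riemannRochSpace D →ₗ[K] riemannRochSpace (D - divOf z) :=
    LinearMap.restrict (LinearMap.mulLeft K z) (fun f hf => mul_mem_rrSpace D hf)
  refine LinearMap.finrank_le_finrank_of_injective (f := φ) fun f g h => Subtype.ext ?_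
  exact mul_left_cancel₀ hz (congrArg Subtype.val h)

theorem ell_sub_divOf {z : F} (hz : z ≠ 0) (D : Divisor K F) : ell (D - divOf z) = ell D := by
  refine le_antisymm ?_ (ell_le_ell_sub_divOf hz D)
  have h := ell_le_ell_sub_divOf (inv_ne_zero hz) (D - divOf z)
  rw [divOf_inv, sub_neg_eq_add, sub_add_cancel] at h
  exact h

/-- Linearly equivalent divisors have the same `ell`. -/
theorem ell_add_divOf {z : F} (hz : z ≠ 0) (D : Divisor K F) : ell (D + divOf z) = ell D := by
  have h := ell_sub_divOf hz (D + divOf z)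
  rw [add_sub_cancel_right] at h
  exact h.symm

omit [IsAlgClosed K] [IsFunctionField K F] in
theorem exists_ne_zero_of_ell_pos {D : Divisor K F} (h : 0 < ell D) :
    ∃ f : F, f ≠ 0 ∧ f ∈ riemannRochSpace D := by
  have hne : riemannRochSpace D ≠ ⊥ := fun hb => by
    rw [ell, hb, finrank_bot] at h
    omega
  obtain ⟨f, hf, hf0⟩ := Submodule.exists_mem_ne_zero_of_ne_bot hne
  exact ⟨f, hf0, hf⟩

theorem neg_divOf_le {D : Divisor K F} {f : F} (hf : f ≠ 0) (h : f ∈ riemannRochSpace D) :
    0 ≤ D + divOf f := fun v => by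
  have := (mem_rrSpace_of_ord hf).mp h v
  simp only [Finsupp.coe_zero, Pi.zero_apply, Finsupp.coe_add, Pi.add_apply, divOf_apply]
  omega

theorem ell_eq_zero_of_degree_neg {D : Divisor K F} (h : Divisor.degree D < 0) : ell D = 0 := by
  by_contra hne
  obtain ⟨f, hf, hfD⟩ := exists_ne_zero_of_ell_pos (Nat.pos_of_ne_zero hne)
  have := degree_nonneg (neg_divOf_le hf hfD)
  rw [map_add, degree_divOf] at this
  omega

theorem ell_le_of_degree_nonneg {D : Divisor K F} (h : 0 ≤ Divisor.degree D) :
    (ell D : ℤ) ≤ Divisor.degree D + 1 := by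
  rcases Nat.eq_zero_or_pos (ell D) with h0 | h0
  · omega
  obtain ⟨f, hf, hfD⟩ := exists_ne_zero_of_ell_pos h0
  have := ell_le_degree_add_one (neg_divOf_le hf hfD)
  rw [ell_add_divOf hf, map_add, degree_divOf, add_zero] at this
  exact this

end Transport

section Bounded

/-- Riemann: `deg D - l(D)` is bounded above. -/
theorem exists_degree_sub_ell_le :
    ∃ γ : ℤ, ∀ D : Divisor K F, Divisor.degree D - ell D ≤ γ := by
  obtain ⟨x, hx, hfin⟩ := IsFunctionField.exists_transcendental (K := K) (F := F)
  have := hfin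
  obtain ⟨C, hC, hbound⟩ := exists_bound_ell (K := K) hx
  set B := poleDiv (K := K) x with hB
  set n := Module.finrank K⟮x⟯ F with hn
  have hdegB : Divisor.degree B = n := degree_poleDiv hx
  have hpos : 0 < n := Module.finrank_pos
  have hγ : ∀ r : ℕ, Divisor.degree ((r : ℤ) • B) - ell ((r : ℤ) • B) ≤ Divisor.degree C - n := by
    intro r
    have h1 := degree_sub_ell_mono
      (le_add_of_nonneg_right hC : (r : ℤ) • B ≤ (r : ℤ) • B + C)
    have h2 : ((n * (r + 1) : ℕ) : ℤ) ≤ ell ((r : ℤ) • B + C) := Int.ofNat_le.mpr (hbound r)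
    rw [map_add, map_zsmul, hdegB, smul_eq_mul] at h1
    rw [map_zsmul, hdegB, smul_eq_mul]
    push_cast at h2
    rw [mul_add, mul_one, mul_comm (n : ℤ)] at h2
    omega
  refine ⟨Divisor.degree C - n, fun D => ?_⟩
  set E := posDiv D
  set r : ℕ := (Divisor.degree C + Divisor.degree E).toNat + 1 with hr
  have hE := degree_nonneg (posDiv_nonneg D)
  have hCd := degree_nonneg hC
  have h3 := hγ r
  have h4 := degree_sub_ell_mono
    (sub_le_self _ (posDiv_nonneg D) : (r : ℤ) • B - E ≤ (r : ℤ) • B)
  rw [map_sub, map_zsmul, hdegB, smul_eq_mul] at h4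
  rw [map_zsmul, hdegB, smul_eq_mul] at h3
  have h5 : (r : ℤ) ≤ (r : ℤ) * n := le_mul_of_one_le_right (by omega) (by omega)
  have hl : 0 < ell ((r : ℤ) • B - E) := by omega
  obtain ⟨z, hz, hzD⟩ := exists_ne_zero_of_ell_pos hl
  have hle : E ≤ (r : ℤ) • B + divOf z := by
    have := neg_divOf_le hz hzD
    rwa [sub_add_eq_add_sub, sub_nonneg] at this
  have h6 := degree_sub_ell_mono ((le_posDiv D).trans hle)
  rw [map_add, degree_divOf, add_zero, ell_add_divOf hz] at h6
  have := hγ r
  omega

/-- A divisor maximizing `deg D - l(D)`. -/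
theorem exists_maxDivisor :
    ∃ A : Divisor K F, ∀ D : Divisor K F, Divisor.degree D - ell D ≤ Divisor.degree A - ell A := by
  obtain ⟨γ, hγ⟩ := exists_degree_sub_ell_le (K := K) (F := F)
  obtain ⟨m, ⟨A, rfl⟩, hm⟩ := Int.exists_greatest_of_bdd
    (P := fun m => ∃ D : Divisor K F, Divisor.degree D - ell D = m)
    ⟨γ, fun m ⟨D, hD⟩ => hD ▸ hγ D⟩ ⟨_, 0, rfl⟩
  exact ⟨A, fun D => hm _ ⟨D, rfl⟩⟩

end Bounded

section H1

omit [IsFunctionField K F] [IsAlgClosed K] in
theorem repartition_const_mem (f : F) :
    algebraMap F ↥(repartitions K F) f ∈ principalRepartitions K F :=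
  mem_principalRepartitions_iff.mpr ⟨f, rfl⟩

theorem mem_repartitions_iff {α : Place K F → F} :
    α ∈ repartitions K F ↔ {v : Place K F | v.ord (α v) < 0}.Finite := by
  refine ⟨fun h => ?_, mem_repartitions_of_finite_ord⟩
  induction h using Algebra.adjoin_induction with
  | mem β hβ =>
    have he : {v : Place K F | v.ord (β v) < 0} = {v | ¬v.adicValuation (β v) ≤ 1} :=
      Set.ext fun v => (Place.not_adicValuation_le_one_iff v).symm
    rw [he]
    exact hβ
  | algebraMap r =>
    refine (finite_ord_ne_zero (K := K) r).subset fun v hv => ?_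
    simp only [Set.mem_ofPred_eq, Pi.algebraMap_apply, Algebra.algebraMap_self, RingHom.id_apply]
      at hv ⊢
    omega
  | add a b _ _ ha hb =>
    refine (ha.union hb).subset fun v hv => ?_
    simp only [Set.mem_ofPred_eq, Set.mem_union, Pi.add_apply] at hv ⊢
    by_contra h
    push Not at h
    have h1 := (mem_iff_ord_nonneg v).mp
      (add_mem ((mem_iff_ord_nonneg v).mpr h.1) ((mem_iff_ord_nonneg v).mpr h.2))
    omega
  | mul a b _ _ ha hb =>
    refine (ha.union hb).subset fun v hv => ?_
    simp only [Set.mem_ofPred_eq, Set.mem_union, Pi.mul_apply] at hv ⊢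
    by_contra h
    push Not at h
    have h1 := (mem_iff_ord_nonneg v).mp
      (mul_mem ((mem_iff_ord_nonneg v).mpr h.1) ((mem_iff_ord_nonneg v).mpr h.2))
    omega

theorem exists_mem_repartitionsOf (α : ↥(repartitions K F)) :
    ∃ D : Divisor K F, 0 ≤ D ∧ α ∈ repartitionsOf D := by
  have hfin := mem_repartitions_iff.mp α.2
  refine ⟨Finsupp.ofSupportFinite (fun v => max (-(v.ord ((α : Place K F → F) v))) 0)
    (hfin.subset fun v hv => ?_), fun v => by simp [Finsupp.ofSupportFinite_coe],
        mem_repartitionsOf_iff.mpr fun v => Or.inr ?_⟩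
  · simp only [Function.mem_support] at hv
    simp only [Set.mem_ofPred_eq]
    omega
  · simp only [Finsupp.ofSupportFinite_coe]
    omega

open Classical in
/-- The repartition with the single component `u` at `v`. -/
def singleRep (v : Place K F) (u : F) : ↥(repartitions K F) :=
  ⟨Function.update 0 v u, mem_repartitions_of_finite_ord <|
    (Set.finite_singleton v).subset fun w hw => by
      by_contra h
      simp [Function.update_of_ne (Set.mem_singleton_iff.not.mp h)] at hw⟩

omit [IsFunctionField K F] [IsAlgClosed K] in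
@[simp]
theorem singleRep_self (v : Place K F) (u : F) : (singleRep v u : Place K F → F) v = u := by
  simp [singleRep]

omit [IsFunctionField K F] [IsAlgClosed K] in
theorem singleRep_of_ne {v w : Place K F} (h : w ≠ v) (u : F) :
    (singleRep v u : Place K F → F) w = 0 := by
  classical
  simp [singleRep, Function.update_of_ne h]

/-- `A(D) + F`. -/
def bigSpace (D : Divisor K F) : Submodule K ↥(repartitions K F) :=
  repartitionsOf D ⊔ principalRepartitions K F

omit [IsFunctionField K F] [IsAlgClosed K] in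
theorem mem_bigSpace {D : Divisor K F} {α : ↥(repartitions K F)} :
    α ∈ bigSpace D ↔ ∃ f : F, ∀ v, (α : Place K F → F) v - f ∈ poleLe v (D v) := by
  rw [bigSpace, Submodule.mem_sup]
  constructor
  · rintro ⟨β, hβ, γ, hγ, rfl⟩
    obtain ⟨f, hf⟩ := mem_principalRepartitions_iff.mp hγ
    refine ⟨f, fun v => ?_⟩
    have : ((β + γ : ↥(repartitions K F)) : Place K F → F) v - f = (β : Place K F → F) v := by
      simp [hf]
    rw [this]
    exact hβ v
  · rintro ⟨f, hf⟩
    exact ⟨α - algebraMap F _ f, fun v => hf v, _, repartition_const_mem f, sub_add_cancel _ _⟩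

omit [IsFunctionField K F] [IsAlgClosed K] in
theorem bigSpace_mono {D E : Divisor K F} (h : D ≤ E) : bigSpace D ≤ bigSpace E :=
  sup_le_sup_right (repartitionsOf_mono h) _

/-- The basic exact sequence, one place at a time. -/
theorem bigSpace_step (D : Divisor K F) (v : Place K F) :
    (ell (D + Finsupp.single v 1) = ell D + 1 ∧ bigSpace (D + Finsupp.single v 1) = bigSpace D) ∨
    (ell (D + Finsupp.single v 1) = ell D ∧ ∃ α ∉ bigSpace D,
      bigSpace (D + Finsupp.single v 1) = bigSpace D ⊔ K ∙ α) := by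
  classical
  obtain ⟨u, hu0, hu⟩ : ∃ u : F, u ≠ 0 ∧ v.ord u = -(D v + 1) := by
    obtain ⟨t, ht0, ht⟩ := exists_ord_eq_one v
    exact ⟨t ^ (-(D v + 1)), zpow_ne_zero _ ht0, by rw [v.ord_zpow, ht, mul_one]⟩
  have hgen : bigSpace (D + Finsupp.single v 1) = bigSpace D ⊔ K ∙ singleRep v u := by
    refine le_antisymm (fun α hα => ?_) (sup_le (bigSpace_mono (divisor_le_add_single D v)) ?_)
    · obtain ⟨f, hf⟩ := mem_bigSpace.mp hα
      obtain ⟨c, hc⟩ := exists_smul_sub_mem v hu0 hu
        (add_single_apply_self D v ▸ hf v : (α : Place K F → F) v - f ∈ poleLe v (D v + 1))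
      rw [← sub_add_cancel α (c • singleRep v u)]
      refine Submodule.add_mem_sup (mem_bigSpace.mpr ⟨f, fun w => ?_⟩)
        (Submodule.smul_mem _ c (Submodule.mem_span_singleton_self _))
      show (α : Place K F → F) w - c • (singleRep v u : Place K F → F) w - f ∈ poleLe w (D w)
      rcases eq_or_ne w v with rfl | hw
      · rwa [singleRep_self, sub_right_comm]
      · rw [singleRep_of_ne hw, smul_zero, sub_zero]
        exact add_single_apply_ne D hw ▸ hf w
    · rw [Submodule.span_singleton_le_iff_mem]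
      refine mem_bigSpace.mpr ⟨0, fun w => ?_⟩
      rcases eq_or_ne w v with rfl | hw
      · rw [singleRep_self, sub_zero, mem_poleLe_of_ne _ hu0, hu, add_single_apply_self]
      · rw [singleRep_of_ne hw, sub_zero]
        exact zero_mem _
  rcases rrSpace_step D v with h | ⟨f, hf0, hford, hfn, h⟩
  · refine Or.inr ⟨by rw [ell, ell, h], singleRep v u, fun hmem => ?_, hgen⟩
    obtain ⟨g, hg⟩ := mem_bigSpace.mp hmem
    have hgL : g ∈ riemannRochSpace (D + Finsupp.single v 1) := fun w => by
      show g ∈ poleLe w _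
      rcases eq_or_ne w v with rfl | hw
      · have h1 := hg w
        rw [singleRep_self] at h1
        have h2 : u ∈ poleLe w (D w + 1) := by rw [mem_poleLe_of_ne _ hu0, hu]
        have := sub_mem h2 (poleLe_mono w (by omega) h1)
        rw [sub_sub_cancel] at this
        rwa [add_single_apply_self]
      · have h1 := hg w
        rw [singleRep_of_ne hw, zero_sub, Submodule.neg_mem_iff] at h1
        rwa [add_single_apply_ne D hw]
    rw [h] at hgL
    have h1 := hg v
    rw [singleRep_self] at h1
    have := add_mem h1 (hgL v : g ∈ poleLe v (D v))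
    rw [sub_add_cancel] at this
    exact not_mem_poleLe_of_ord v hu0 hu this
  · refine Or.inl ⟨by rw [ell, ell, h, finrank_sup_span_singleton _ hfn], ?_⟩
    rw [hgen, sup_eq_left, Submodule.span_singleton_le_iff_mem]
    obtain ⟨c, hc⟩ := exists_smul_sub_mem v hf0 hford
      ((mem_poleLe_of_ne v hu0).mpr (by rw [hu]) : u ∈ poleLe v (D v + 1))
    have hfD : f ∈ riemannRochSpace (D + Finsupp.single v 1) :=
      h ▸ Submodule.mem_sup_right (Submodule.mem_span_singleton_self f)
    refine mem_bigSpace.mpr ⟨c • f, fun w => ?_⟩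
    rcases eq_or_ne w v with rfl | hw
    · rwa [singleRep_self]
    · rw [singleRep_of_ne hw, zero_sub, Submodule.neg_mem_iff]
      exact Submodule.smul_mem _ c (add_single_apply_ne D hw ▸ hfD w)

theorem exists_maxDivisor_bigSpace :
    ∃ A : Divisor K F, bigSpace A = ⊤ ∧
      ∀ D : Divisor K F, Divisor.degree D - ell D ≤ Divisor.degree A - ell A := by
  obtain ⟨A, hA⟩ := exists_maxDivisor (K := K) (F := F)
  refine ⟨A, eq_top_iff.mpr fun α _ => ?_, hA⟩
  obtain ⟨D, hD0, hD⟩ := exists_mem_repartitionsOf α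
  have key : ∀ E, A ≤ E → bigSpace E = bigSpace A ∧
      Divisor.degree E - ell E = Divisor.degree A - ell A :=
    divisor_induction_up ⟨rfl, rfl⟩ fun E v _ ⟨hE, hEd⟩ => by
      have hmax := hA (E + Finsupp.single v 1)
      rw [degree_add_single] at hmax ⊢
      rcases bigSpace_step E v with ⟨h1, h2⟩ | ⟨h1, -⟩
      · exact ⟨h2.trans hE, by omega⟩
      · omega
  have hle : D ≤ posDiv A + D := le_add_of_nonneg_left (posDiv_nonneg A)
  rw [← (key (posDiv A + D) ((le_posDiv A).trans (le_add_of_nonneg_right hD0))).1]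
  exact Submodule.mem_sup_left (repartitionsOf_mono hle hD)

omit [IsAlgClosed K] in
/-- If `p ⊔ K α` has finite codimension and `α ∉ p`, then `p` has codimension one more. -/
theorem finite_quotient_sup_span {M : Type*} [AddCommGroup M] [Module K M] (p : Submodule K M)
    {α : M} (hα : α ∉ p) [hq : Module.Finite K (M ⧸ (p ⊔ K ∙ α))] :
    Module.Finite K (M ⧸ p) ∧
      Module.finrank K (M ⧸ p) = Module.finrank K (M ⧸ (p ⊔ K ∙ α)) + 1 := by
  let q : Submodule K (M ⧸ p) := K ∙ (p.mkQ α)
  have hmap : (p ⊔ K ∙ α).map p.mkQ = q := by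
    rw [Submodule.map_sup, Submodule.map_span, Set.image_singleton, Submodule.mkQ_map_self,
      bot_sup_eq]
  let e := Submodule.quotientQuotientEquivQuotient p (p ⊔ K ∙ α) le_sup_left
  rw [hmap] at e
  have : Module.Finite K ((M ⧸ p) ⧸ q) := Module.Finite.equiv e.symm
  have : Module.Finite K q := Module.Finite.span_singleton K _
  have hfin : Module.Finite K (M ⧸ p) := Module.Finite.of_submodule_quotient q
  refine ⟨hfin, ?_⟩
  have h := Submodule.finrank_quotient_add_finrank q
  have hne : p.mkQ α ≠ 0 := fun h => hα ((Submodule.Quotient.mk_eq_zero p).mp h)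
  rw [e.finrank_eq, finrank_span_singleton hne] at h
  exact h.symm

/-- Adding a place preserves finiteness of `H¹` and the value of `dim H¹(D) - l(D) + deg D`. -/
theorem finite_H1_and_invariant_step (D : Divisor K F) (v : Place K F) :
    (Module.Finite K (H1 (D + Finsupp.single v 1)) ↔ Module.Finite K (H1 D)) ∧
    (Module.Finite K (H1 D) →
      (Module.finrank K (H1 D) : ℤ) - ell D + Divisor.degree D =
        Module.finrank K (H1 (D + Finsupp.single v 1)) - ell (D + Finsupp.single v 1) +
          Divisor.degree (D + Finsupp.single v 1)) := by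
  rw [degree_add_single]
  rcases bigSpace_step D v with ⟨h1, h2⟩ | ⟨h1, α, hα, h2⟩
  · have e : H1 (D + Finsupp.single v 1) ≃ₗ[K] H1 D := Submodule.quotEquivOfEq _ _ h2
    refine ⟨Module.Finite.equiv_iff e, fun _ => ?_⟩
    rw [e.finrank_eq, h1]
    push_cast
    ring
  · have e : H1 (D + Finsupp.single v 1) ≃ₗ[K] _ ⧸ (bigSpace D ⊔ K ∙ α) :=
      Submodule.quotEquivOfEq _ _ h2
    have key : Module.Finite K (↥(repartitions K F) ⧸ (bigSpace D ⊔ K ∙ α)) →
        Module.Finite K (H1 D) ∧ Module.finrank K (H1 D)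
          = Module.finrank K (↥(repartitions K F) ⧸ (bigSpace D ⊔ K ∙ α)) + 1 :=
      fun h => finite_quotient_sup_span (bigSpace D) (α := α) hα (hq := h)
    have hback : Module.Finite K (H1 D) →
        Module.Finite K (↥(repartitions K F) ⧸ (bigSpace D ⊔ K ∙ α)) := fun h =>
      haveI : Module.Finite K (↥(repartitions K F) ⧸ bigSpace D) := h
      Module.Finite.of_surjective _ (Submodule.factor_surjective
        (le_sup_left : bigSpace D ≤ bigSpace D ⊔ K ∙ α))
    refine ⟨⟨fun h => (key ((Module.Finite.equiv_iff e).mp h)).1,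
      fun h => (Module.Finite.equiv_iff e).mpr (hback h)⟩, fun h => ?_⟩
    have hk : Module.finrank K (H1 D) = Module.finrank K (_ ⧸ (bigSpace D ⊔ K ∙ α)) + 1 :=
      (key (hback h)).2
    rw [e.finrank_eq, h1, hk]
    push_cast
    ring

/-- `dim H¹(D) - l(D) + deg D`, which is independent of `D`. -/
def chiInv (D : Divisor K F) : ℤ :=
  (Module.finrank K (H1 D) : ℤ) - ell D + Divisor.degree D

theorem finite_H1_and_invariant {D E : Divisor K F} (h : D ≤ E) :
    (Module.Finite K (H1 E) ↔ Module.Finite K (H1 D)) ∧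
      (Module.Finite K (H1 D) → chiInv D = chiInv E) :=
  divisor_induction_up (P := fun E => (Module.Finite K (H1 E) ↔ Module.Finite K (H1 D)) ∧
    (Module.Finite K (H1 D) → chiInv D = chiInv E)) ⟨Iff.rfl, fun _ => Eq.refl _⟩
    (fun E v _ hE =>
      ⟨(finite_H1_and_invariant_step E v).1.trans hE.1,
        fun hD => (hE.2 hD).trans ((finite_H1_and_invariant_step E v).2 (hE.1.mpr hD))⟩) E h

/-- `H¹(D)` is finite dimensional. -/
instance finite_H1 (D : Divisor K F) : Module.Finite K (H1 D) := by
  obtain ⟨A, hA, -⟩ := exists_maxDivisor_bigSpace (K := K) (F := F)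
  have hS : Subsingleton (H1 A) := Submodule.Quotient.subsingleton_iff.mpr hA
  have hAfin : Module.Finite K (H1 A) :=
    @Module.Finite.of_finite K (H1 A) _ _ _ (@Finite.of_subsingleton _ hS)
  have h1 : Module.Finite K (H1 (D ⊔ A)) :=
    (finite_H1_and_invariant (le_sup_right : A ≤ D ⊔ A)).1.mpr hAfin
  exact (finite_H1_and_invariant le_sup_left).1.mp h1

theorem chiInv_eq (D E : Divisor K F) : chiInv D = chiInv E :=
  ((finite_H1_and_invariant (le_sup_left : D ≤ D ⊔ E)).2 (finite_H1 D)).trans
    ((finite_H1_and_invariant (le_sup_right : E ≤ D ⊔ E)).2 (finite_H1 E)).symm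

/-- Riemann–Roch: `l(D) - dim H¹(D) = deg D + 1 - g`. -/
theorem riemann_roch (D : Divisor K F) :
    (ell D : ℤ) - Module.finrank K (H1 D) = Divisor.degree D + 1 - genusFF K F := by
  have := chiInv_eq D 0
  simp only [chiInv] at this
  rw [ell_zero, map_zero, Nat.cast_one] at this
  rw [genusFF]
  omega

/-- Riemann's inequality. -/
theorem riemann_inequality (D : Divisor K F) :
    Divisor.degree D + 1 - genusFF K F ≤ ell D := by
  have := riemann_roch D
  omega

theorem exists_ne_zero_mem_of_genusFF_le {D : Divisor K F}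
    (h : (genusFF K F : ℤ) ≤ Divisor.degree D) :
    ∃ f : F, f ≠ 0 ∧ f ∈ riemannRochSpace D := by
  refine exists_ne_zero_of_ell_pos ?_
  have := riemann_inequality D
  omega

/-- `H¹` vanishes in large degree. -/
theorem exists_degree_bound :
    ∃ c : ℤ, ∀ D : Divisor K F, c ≤ Divisor.degree D → Module.finrank K (H1 D) = 0 := by
  obtain ⟨A, hA, hmax⟩ := exists_maxDivisor_bigSpace (K := K) (F := F)
  refine ⟨Divisor.degree A + genusFF K F, fun D hD => ?_⟩
  have hA0 : Module.finrank K (H1 A) = 0 := by
    have : Subsingleton (H1 A) := Submodule.Quotient.subsingleton_iff.mpr hA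
    exact Module.finrank_zero_of_subsingleton
  obtain ⟨z, hz, hzL⟩ := exists_ne_zero_mem_of_genusFF_le (D := D - A) (by rw [map_sub]; omega)
  have hle : A ≤ D + divOf z := by
    have := neg_divOf_le hz hzL
    rwa [sub_add_eq_add_sub, sub_nonneg] at this
  have h1 := degree_sub_ell_mono hle
  rw [map_add, degree_divOf, add_zero, ell_add_divOf hz] at h1
  have := chiInv_eq D A
  simp only [chiInv] at this
  have := hmax D
  omega

end H1

end Fermat.Agent.FF

end
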