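import Mathlib
import Fermat.Agent.FF.RiemannRoch

/-!
# Weil differentials and duality

Weil differentials are the functionals on repartitions killing some `A(D) + F`. They form a
one-dimensional `F`-space, which gives duality and the full Riemann–Roch theorem.
-/

noncomputable section

open AlgebraicCurve WithZero

namespace Fermat.Agent.FF

variable {K F : Type*} [Field K] [Field F] [Algebra K F]

/-- Multiplication of repartitions by `x`, as a `K`-linear map. -/
def mulRep (x : F) : ↥(repartitions K F) →ₗ[K] ↥(repartitions K F) where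
  toFun α := x • α
  map_add' := smul_add x
  map_smul' c α := smul_comm x c α

@[simp]
theorem mulRep_apply (x : F) (α : ↥(repartitions K F)) (v : Place K F) :
    (mulRep x α : Place K F → F) v = x * (α : Place K F → F) v := rfl

/-- `x • ω`, for a functional `ω` on repartitions. -/
def weilSMul (x : F) (ω : Module.Dual K ↥(repartitions K F)) :
    Module.Dual K ↥(repartitions K F) :=
  ω.comp (mulRep x)

theorem weilSMul_apply (x : F) (ω : Module.Dual K ↥(repartitions K F))
    (α : ↥(repartitions K F)) : weilSMul x ω α = ω (x • α) := rfl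

theorem weilSMul_weilSMul (x y : F) (ω : Module.Dual K ↥(repartitions K F)) :
    weilSMul x (weilSMul y ω) = weilSMul (y * x) ω := by
  ext α; simp [weilSMul_apply, mul_smul]

@[simp]
theorem weilSMul_one (ω : Module.Dual K ↥(repartitions K F)) : weilSMul 1 ω = ω := by
  ext α; simp [weilSMul_apply]

theorem weilSMul_zero (ω : Module.Dual K ↥(repartitions K F)) : weilSMul 0 ω = 0 := by
  ext α; simp [weilSMul_apply]

theorem weilSMul_add (x y : F) (ω : Module.Dual K ↥(repartitions K F)) :
    weilSMul (x + y) ω = weilSMul x ω + weilSMul y ω := by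
  ext α; simp [weilSMul_apply, add_smul]

theorem weilSMul_smul (c : K) (x : F) (ω : Module.Dual K ↥(repartitions K F)) :
    weilSMul (c • x) ω = c • weilSMul x ω := by
  ext α; simp [weilSMul_apply, smul_assoc]

theorem weilSMul_eq_zero {x : F} {ω : Module.Dual K ↥(repartitions K F)} (hω : ω ≠ 0)
    (h : weilSMul x ω = 0) : x = 0 := by
  by_contra hx
  refine hω (LinearMap.ext fun α => ?_)
  have := LinearMap.congr_fun h (x⁻¹ • α)
  rw [weilSMul_apply, smul_inv_smul₀ hx] at this
  exact this

/-- The functionals killing `A(D) + F`. -/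
def omegaSpace (D : Divisor K F) : Submodule K (Module.Dual K ↥(repartitions K F)) :=
  (bigSpace D).dualAnnihilator

theorem mem_omegaSpace {D : Divisor K F} {ω : Module.Dual K ↥(repartitions K F)} :
    ω ∈ omegaSpace D ↔ (∀ α ∈ repartitionsOf D, ω α = 0) ∧
      ∀ α ∈ principalRepartitions K F, ω α = 0 := by
  simp only [omegaSpace, bigSpace, Submodule.dualAnnihilator_sup_eq, Submodule.mem_inf,
    Submodule.mem_dualAnnihilator]

variable (K F) in
/-- The Weil differentials. -/
def WeilDifferential : Submodule K (Module.Dual K ↥(repartitions K F)) where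
  carrier := {ω | ∃ D : Divisor K F, ω ∈ omegaSpace D}
  zero_mem' := ⟨0, zero_mem _⟩
  add_mem' := by
    rintro ω η ⟨D, hD⟩ ⟨E, hE⟩
    exact ⟨D ⊓ E, add_mem (Submodule.dualAnnihilator_anti (bigSpace_mono inf_le_left) hD)
      (Submodule.dualAnnihilator_anti (bigSpace_mono inf_le_right) hE)⟩
  smul_mem' := by
    rintro c ω ⟨D, hD⟩
    exact ⟨D, Submodule.smul_mem _ c hD⟩

theorem finrank_omegaSpace (D : Divisor K F) :
    Module.finrank K (omegaSpace D) = Module.finrank K (H1 D) :=
  (Submodule.dualQuotEquivDualAnnihilator (bigSpace D)).finrank_eq.symm.trans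
    Subspace.dual_finrank_eq

variable [IsAlgClosed K] [IsFunctionField K F]

instance finite_omegaSpace (D : Divisor K F) : Module.Finite K (omegaSpace D) :=
  haveI : Module.Finite K (↥(repartitions K F) ⧸ bigSpace D) := finite_H1 D
  Module.Finite.equiv (Submodule.dualQuotEquivDualAnnihilator (bigSpace D))

theorem smul_mem_repartitionsOf {x : F} (D : Divisor K F) {α : ↥(repartitions K F)}
    (hα : α ∈ repartitionsOf D) : x • α ∈ repartitionsOf (D - divOf x) := fun v => by
  have h1 : x ∈ poleLe v (-v.ord x) := (mem_poleLe v).mpr (Or.inr (by omega))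
  have h := mul_mem_poleLe v h1 (hα v)
  rw [neg_add_eq_sub, mem_poleLe_iff_adicValuation] at h
  simpa using h

theorem weilSMul_mem_omegaSpace {x : F} {D : Divisor K F}
    {ω : Module.Dual K ↥(repartitions K F)} (hω : ω ∈ omegaSpace D) :
    weilSMul x ω ∈ omegaSpace (D + divOf x) := by
  rw [mem_omegaSpace] at hω ⊢
  refine ⟨fun α hα => ?_, fun α hα => ?_⟩
  · refine hω.1 _ ?_
    have := smul_mem_repartitionsOf (x := x) (D + divOf x) hα
    rwa [add_sub_cancel_right] at this
  · obtain ⟨f, hf⟩ := mem_principalRepartitions_iff.mp hα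
    exact hω.2 _ (mem_principalRepartitions_iff.mpr ⟨x * f, funext fun v => by
      show x * (α : Place K F → F) v = x * f
      rw [hf]⟩)

theorem weilSMul_mem {x : F} {ω : Module.Dual K ↥(repartitions K F)}
    (hω : ω ∈ WeilDifferential K F) : weilSMul x ω ∈ WeilDifferential K F := by
  obtain ⟨D, hD⟩ := hω
  exact ⟨_, weilSMul_mem_omegaSpace hD⟩

omit [IsAlgClosed K] [IsFunctionField K F] in
theorem omegaSpace_anti {D E : Divisor K F} (h : D ≤ E) : omegaSpace E ≤ omegaSpace D :=
  Submodule.dualAnnihilator_anti (bigSpace_mono h)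

/-- The map `L(D + B) → Ω(-B)`, `f ↦ f ω`. -/
def toOmega {ω : Module.Dual K ↥(repartitions K F)} {D : Divisor K F} (hω : ω ∈ omegaSpace D)
    (B : Divisor K F) : riemannRochSpace (D + B) →ₗ[K] omegaSpace (-B) where
  toFun f := ⟨weilSMul (f : F) ω, by
    rcases eq_or_ne (f : F) 0 with h0 | h0
    · rw [h0, weilSMul_zero]; exact zero_mem _
    · refine omegaSpace_anti ?_ (weilSMul_mem_omegaSpace hω)
      have := neg_divOf_le h0 f.2
      rw [add_right_comm] at this
      exact neg_le_iff_add_nonneg.mpr this⟩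
  map_add' f g := Subtype.ext (weilSMul_add _ _ ω)
  map_smul' c f := Subtype.ext (weilSMul_smul c _ ω)

theorem toOmega_injective {ω : Module.Dual K ↥(repartitions K F)} {D : Divisor K F}
    (hω : ω ∈ omegaSpace D) (h0 : ω ≠ 0) (B : Divisor K F) :
    Function.Injective (toOmega hω B) :=
  (injective_iff_map_eq_zero _).mpr fun _ hf =>
    Subtype.ext (weilSMul_eq_zero h0 (congrArg Subtype.val hf))

/-- A function field has a place. -/
theorem exists_place : Nonempty (Place K F) := by
  obtain ⟨x, hx, -⟩ := IsFunctionField.exists_transcendental (K := K) (F := F)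
  exact ⟨(exists_place_ord_pos hx).choose⟩

/-- Weil differentials form a one-dimensional `F`-space. -/
theorem weil_exists_smul {ω η : Module.Dual K ↥(repartitions K F)}
    (hω : ω ∈ WeilDifferential K F) (hη : η ∈ WeilDifferential K F) (hω0 : ω ≠ 0) :
    ∃ x : F, η = weilSMul x ω := by
  by_contra hcon
  push Not at hcon
  have hη0 : η ≠ 0 := fun h => hcon 0 (by rw [h, weilSMul_zero])
  obtain ⟨D₁, hD₁⟩ := hω
  obtain ⟨D₂, hD₂⟩ := hη
  obtain ⟨P⟩ := exists_place (K := K) (F := F)
  set g : ℤ := (genusFF K F : ℤ) with hg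
  set m : ℕ := (3 * g - Divisor.degree D₁ - Divisor.degree D₂).toNat + 1 with hm
  set B : Divisor K F := Finsupp.single P (m : ℤ) with hB
  have hdegB : Divisor.degree B = m := by simp [hB, place_deg_eq_one]
  set U := LinearMap.range (toOmega hD₁ B)
  set V := LinearMap.range (toOmega hD₂ B)
  have hUV : U ⊓ V = ⊥ := by
    rw [eq_bot_iff]
    rintro _ ⟨⟨f, rfl⟩, k, hk⟩
    have hk' : weilSMul (k : F) η = weilSMul (f : F) ω := congrArg Subtype.val hk
    rcases eq_or_ne (k : F) 0 with h0 | h0
    · rw [h0, weilSMul_zero] at hk'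
      exact (Submodule.mem_bot K).mpr (Subtype.ext hk'.symm)
    · refine absurd ?_ (hcon ((f : F) * (k : F)⁻¹))
      have := congrArg (weilSMul (k : F)⁻¹) hk'
      rwa [weilSMul_weilSMul, weilSMul_weilSMul, mul_inv_cancel₀ h0, weilSMul_one] at this
  have hinj : Function.Injective ((toOmega hD₁ B).coprod (toOmega hD₂ B)) := by
    refine (injective_iff_map_eq_zero _).mpr fun ⟨f, k⟩ hfk => ?_
    rw [LinearMap.coprod_apply] at hfk
    have hmem : toOmega hD₁ B f ∈ U ⊓ V := by
      refine ⟨⟨f, rfl⟩, ⟨-k, ?_⟩⟩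
      rw [map_neg]
      exact (eq_neg_of_add_eq_zero_left hfk).symm
    rw [hUV, Submodule.mem_bot] at hmem
    rw [hmem, zero_add] at hfk
    exact Prod.ext (toOmega_injective hD₁ hω0 B (hmem.trans (map_zero _).symm))
      (toOmega_injective hD₂ hη0 B (hfk.trans (map_zero _).symm))
  have h2 := LinearMap.finrank_le_finrank_of_injective hinj
  rw [Module.finrank_prod, finrank_omegaSpace] at h2
  have h3 := riemann_roch (-B)
  have h4 := riemann_inequality (D₁ + B)
  have h5 := riemann_inequality (D₂ + B)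
  have h6 : ell (-B) = 0 := ell_eq_zero_of_degree_neg (by rw [map_neg, hdegB]; omega)
  rw [map_neg, hdegB, h6] at h3
  rw [map_add, hdegB] at h4 h5
  rw [ell] at h4 h5
  omega

/-- Weil differentials exist. -/
theorem exists_weilDifferential :
    ∃ ω : Module.Dual K ↥(repartitions K F), ω ∈ WeilDifferential K F ∧ ω ≠ 0 := by
  obtain ⟨P⟩ := exists_place (K := K) (F := F)
  set D : Divisor K F := Finsupp.single P (-2) with hD
  have hdeg : Divisor.degree D = -2 := by simp [hD, place_deg_eq_one]
  have h := riemann_roch D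
  rw [hdeg, ell_eq_zero_of_degree_neg (by omega)] at h
  have hne : omegaSpace D ≠ ⊥ := fun hb => by
    have := finrank_omegaSpace D
    rw [hb, finrank_bot] at this
    omega
  obtain ⟨ω, hω, hω0⟩ := Submodule.exists_mem_ne_zero_of_ne_bot hne
  exact ⟨ω, ⟨D, hω⟩, hω0⟩

theorem eq_of_le_of_degree_le {D E : Divisor K F} (h : D ≤ E)
    (hdeg : Divisor.degree E ≤ Divisor.degree D) : D = E := by
  by_contra hne
  obtain ⟨v, hv⟩ : ∃ v, D v < E v := by
    by_contra hcon
    push Not at hcon
    exact hne (Finsupp.ext fun v => le_antisymm (h v) (hcon v))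
  have hle : D + Finsupp.single v 1 ≤ E := fun w => by
    rcases eq_or_ne w v with rfl | hw
    · simp; omega
    · simpa [hw] using h w
  have := degree_mono hle
  rw [degree_add_single] at this
  omega

/-- A nonzero Weil differential has a greatest divisor `W` with `ω` killing `A(W) + F`. -/
theorem exists_greatest {ω : Module.Dual K ↥(repartitions K F)}
    (hω : ω ∈ WeilDifferential K F) (hω0 : ω ≠ 0) :
    ∃ W : Divisor K F, ω ∈ omegaSpace W ∧ ∀ D, ω ∈ omegaSpace D → D ≤ W := by
  classical
  obtain ⟨c, hc⟩ := exists_degree_bound (K := K) (F := F)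
  have hbdd : ∀ D, ω ∈ omegaSpace D → Divisor.degree D ≤ c := fun D hD => by
    by_contra hlt
    have h := (finrank_omegaSpace D).trans (hc D (by omega))
    exact hω0 ((Submodule.eq_bot_iff _).mp (Submodule.finrank_eq_zero.mp h) ω hD)
  obtain ⟨D₀, hD₀⟩ := hω
  obtain ⟨m, ⟨W, hW, rfl⟩, hm⟩ := Int.exists_greatest_of_bdd
    (P := fun m => ∃ D : Divisor K F, ω ∈ omegaSpace D ∧ Divisor.degree D = m)
    ⟨c, fun m ⟨D, hD, hDm⟩ => hDm ▸ hbdd D hD⟩ ⟨_, D₀, hD₀, rfl⟩
  refine ⟨W, hW, fun D hD => ?_⟩
  have hsup : ω ∈ omegaSpace (W ⊔ D) := by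
    rw [mem_omegaSpace] at hW hD ⊢
    refine ⟨fun α hα => ?_, hW.2⟩
    let β : Place K F → F := fun v => if D v ≤ W v then (α : Place K F → F) v else 0
    have hβ : ∀ v, v.adicValuation (β v) ≤ exp (W v) := fun v => by
      by_cases h : D v ≤ W v
      · simp only [β, if_pos h]
        have := hα v
        rwa [Finsupp.sup_apply, sup_eq_left.mpr h] at this
      · simp [β, if_neg h]
    let β' : ↥(repartitions K F) := ⟨β, mem_repartitions_of_forall_le_exp W β hβ⟩
    have hγ : α - β' ∈ repartitionsOf D := fun v => by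
      show v.adicValuation ((α : Place K F → F) v - β v) ≤ exp (D v)
      by_cases h : D v ≤ W v
      · simp [β, if_pos h]
      · simp only [β, if_neg h, sub_zero]
        have := hα v
        rwa [Finsupp.sup_apply, sup_eq_right.mpr (by omega)] at this
    rw [← sub_add_cancel α β', map_add, hD.1 _ hγ, hW.1 β' hβ, add_zero]
  have := eq_of_le_of_degree_le (le_sup_left : W ≤ W ⊔ D) (hm _ ⟨_, hsup, rfl⟩)
  exact le_sup_right.trans this.ge

open Classical in
/-- The divisor of a Weil differential: the greatest `D` with `ω` killing `A(D) + F`. -/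
def weilDiv (ω : Module.Dual K ↥(repartitions K F)) : Divisor K F :=
  if h : ω ∈ WeilDifferential K F ∧ ω ≠ 0 then (exists_greatest h.1 h.2).choose else 0

theorem mem_omegaSpace_weilDiv {ω : Module.Dual K ↥(repartitions K F)}
    (hω : ω ∈ WeilDifferential K F) (hω0 : ω ≠ 0) : ω ∈ omegaSpace (weilDiv ω) := by
  rw [weilDiv, dif_pos ⟨hω, hω0⟩]
  exact (exists_greatest hω hω0).choose_spec.1

theorem le_weilDiv {ω : Module.Dual K ↥(repartitions K F)}
    (hω : ω ∈ WeilDifferential K F) (hω0 : ω ≠ 0) {D : Divisor K F} (hD : ω ∈ omegaSpace D) :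
    D ≤ weilDiv ω := by
  rw [weilDiv, dif_pos ⟨hω, hω0⟩]
  exact (exists_greatest hω hω0).choose_spec.2 D hD

theorem weilDiv_eq {ω : Module.Dual K ↥(repartitions K F)} (hω0 : ω ≠ 0) {W : Divisor K F}
    (hW : ω ∈ omegaSpace W) (hmax : ∀ D, ω ∈ omegaSpace D → D ≤ W) : weilDiv ω = W :=
  le_antisymm (hmax _ (mem_omegaSpace_weilDiv ⟨W, hW⟩ hω0)) (le_weilDiv ⟨W, hW⟩ hω0 hW)

theorem weilDiv_weilSMul {ω : Module.Dual K ↥(repartitions K F)}
    (hω : ω ∈ WeilDifferential K F) (hω0 : ω ≠ 0) {x : F} (hx : x ≠ 0) :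
    weilDiv (weilSMul x ω) = weilDiv ω + divOf x := by
  refine weilDiv_eq (fun h => hx (weilSMul_eq_zero hω0 h))
    (weilSMul_mem_omegaSpace (mem_omegaSpace_weilDiv hω hω0)) fun D hD => ?_
  have h := weilSMul_mem_omegaSpace (x := x⁻¹) hD
  rw [weilSMul_weilSMul, mul_inv_cancel₀ hx, weilSMul_one, divOf_inv, ← sub_eq_add_neg] at h
  exact sub_le_iff_le_add.mp (le_weilDiv hω hω0 h)

/-- A Weil differential does not kill a pole one step beyond its divisor. -/
theorem apply_singleRep_ne_zero {η : Module.Dual K ↥(repartitions K F)}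
    (hη : η ∈ WeilDifferential K F) (hη0 : η ≠ 0) (w : Place K F) {u : F} (hu0 : u ≠ 0)
    (hu : w.ord u = -(weilDiv η w + 1)) : η (singleRep w u) ≠ 0 := fun h0 => by
  obtain ⟨hη1, hη2⟩ := mem_omegaSpace.mp (mem_omegaSpace_weilDiv hη hη0)
  have hmem : η ∈ omegaSpace (weilDiv η + Finsupp.single w 1) := by
    refine mem_omegaSpace.mpr ⟨fun α hα => ?_, hη2⟩
    obtain ⟨c, hc⟩ := exists_smul_sub_mem w hu0 hu
      (add_single_apply_self (weilDiv η) w ▸ (hα w : (α : Place K F → F) w ∈ poleLe w _))
    have h1 : α - c • singleRep w u ∈ repartitionsOf (weilDiv η) := fun v => by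
      show (α : Place K F → F) v - c • (singleRep w _ : Place K F → F) v ∈ poleLe v (weilDiv η v)
      rcases eq_or_ne v w with rfl | hne
      · rwa [singleRep_self]
      · rw [singleRep_of_ne hne, smul_zero, sub_zero]
        exact add_single_apply_ne (weilDiv η) hne ▸ (hα v : (α : Place K F → F) v ∈ poleLe v _)
    have := hη1 _ h1
    rwa [map_sub, map_smul, h0, smul_zero, sub_zero] at this
  have := le_weilDiv hη hη0 hmem w
  simp at this

/-- Duality: `dim H¹(D) = l(W - D)`. -/
theorem finrank_H1_eq {ω : Module.Dual K ↥(repartitions K F)}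
    (hω : ω ∈ WeilDifferential K F) (hω0 : ω ≠ 0) (D : Divisor K F) :
    Module.finrank K (H1 D) = ell (weilDiv ω - D) := by
  have hW := mem_omegaSpace_weilDiv hω hω0
  let φ := toOmega hW (-D)
  have hsurj : Function.Surjective φ := by
    rintro ⟨η, hη⟩
    rw [neg_neg] at hη
    obtain ⟨x, rfl⟩ := weil_exists_smul hω ⟨D, hη⟩ hω0
    refine ⟨⟨x, ?_⟩, Subtype.ext rfl⟩
    rcases eq_or_ne x 0 with rfl | hx
    · exact zero_mem _
    have hle := le_weilDiv (weilSMul_mem hω) (fun h => hx (weilSMul_eq_zero hω0 h)) hη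
    rw [weilDiv_weilSMul hω hω0 hx] at hle
    rw [mem_rrSpace_of_ord hx]
    intro v
    have := hle v
    simp only [Finsupp.coe_add, Finsupp.coe_neg, Pi.add_apply, Pi.neg_apply, divOf_apply] at this ⊢
    omega
  have h := (LinearEquiv.ofBijective φ ⟨toOmega_injective hW hω0 _, hsurj⟩).finrank_eq
  rw [finrank_omegaSpace, neg_neg] at h
  rw [← h, ell, sub_eq_add_neg]

theorem ell_weilDiv {ω : Module.Dual K ↥(repartitions K F)}
    (hω : ω ∈ WeilDifferential K F) (hω0 : ω ≠ 0) : ell (weilDiv ω) = genusFF K F := by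
  have := finrank_H1_eq hω hω0 0
  rw [sub_zero] at this
  rw [genusFF, this]

/-- The divisor of a Weil differential has degree `2g - 2`. -/
theorem degree_weilDiv {ω : Module.Dual K ↥(repartitions K F)}
    (hω : ω ∈ WeilDifferential K F) (hω0 : ω ≠ 0) :
    Divisor.degree (weilDiv ω) = 2 * (genusFF K F : ℤ) - 2 := by
  have h := riemann_roch (weilDiv ω)
  rw [finrank_H1_eq hω hω0, sub_self, ell_zero, ell_weilDiv hω hω0] at h
  push_cast at h
  omega

/-- Full Riemann–Roch. -/
theorem exists_riemann_roch :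
    ∃ W : Divisor K F, Divisor.degree W = 2 * (genusFF K F : ℤ) - 2 ∧ ell W = genusFF K F ∧
      (∀ D, Module.finrank K (H1 D) = ell (W - D)) ∧
      ∀ D, (ell D : ℤ) - ell (W - D) = Divisor.degree D + 1 - genusFF K F := by
  obtain ⟨ω, hω, hω0⟩ := exists_weilDifferential (K := K) (F := F)
  exact ⟨weilDiv ω, degree_weilDiv hω hω0, ell_weilDiv hω hω0, finrank_H1_eq hω hω0,
    fun D => finrank_H1_eq hω hω0 D ▸ riemann_roch D⟩

theorem finrank_H1_eq_zero_of_large_degree {D : Divisor K F}
    (h : 2 * (genusFF K F : ℤ) - 1 ≤ Divisor.degree D) : Module.finrank K (H1 D) = 0 := by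
  obtain ⟨W, hW, -, hdual, -⟩ := exists_riemann_roch (K := K) (F := F)
  rw [hdual]
  exact ell_eq_zero_of_degree_neg (by rw [map_sub, hW]; omega)

/-- Riemann–Roch in degree `≥ 2g - 1`. -/
theorem ell_eq_of_large_degree {D : Divisor K F}
    (h : 2 * (genusFF K F : ℤ) - 1 ≤ Divisor.degree D) :
    (ell D : ℤ) = Divisor.degree D + 1 - genusFF K F := by
  have := riemann_roch D
  rw [finrank_H1_eq_zero_of_large_degree h] at this
  omega

end Fermat.Agent.FF

end
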