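import Mathlib
import Fermat.Prelude.Def_AlgebraicCurve_DivisorPushPull
import Fermat.Agent.FF.Duality

/-!
# Finite extensions of function fields: fundamental identity and norm formula

For a finite extension of function fields we prove `∑ e = [F' : F]` over every place and
`ord_v (N f) = ∑ ord_w f`, as required for pushing forward divisors along maps of curves.
-/

noncomputable section

open IntermediateField AlgebraicCurve WithZero Polynomial

namespace Fermat.Agent.FF

variable {K F F' : Type*} [Field K] [Field F] [Field F'] [Algebra K F] [Algebra K F']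
  [Algebra F F'] [IsScalarTower K F F'] [FiniteDimensional F F']

omit [FiniteDimensional F F'] in
theorem transcendental_algebraMap {t : F} (ht : Transcendental K t) :
    Transcendental K (algebraMap F F' t) := fun h =>
  ht ((isAlgebraic_algebraMap_iff (algebraMap F F').injective).mp h)

theorem finrank_adjoin_algebraMap (t : F) :
    Module.finrank K⟮algebraMap F F' t⟯ F' = Module.finrank K⟮t⟯ F * Module.finrank F F' := by
  rw [Module.finrank_mul_finrank]
  have hmap : K⟮t⟯.map (IsScalarTower.toAlgHom K F F') = K⟮algebraMap F F' t⟯ := by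
    rw [IntermediateField.adjoin_map, Set.image_singleton]
    rfl
  let e : K⟮t⟯ ≃ₐ[K] K⟮algebraMap F F' t⟯ :=
    (IntermediateField.equivMap K⟮t⟯ (IsScalarTower.toAlgHom K F F')).trans
      (IntermediateField.equivOfEq hmap)
  exact (Algebra.finrank_eq_of_equiv_equiv e.toRingEquiv (RingEquiv.refl F') rfl).symm

variable (F F') in
/-- A finite extension of a function field is a function field. -/
theorem isFunctionField_of_finite_extension [IsFunctionField K F] : IsFunctionField K F' := by
  obtain ⟨t, ht, hfin⟩ := IsFunctionField.exists_transcendental (K := K) (F := F)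
  have := hfin
  refine ⟨⟨algebraMap F F' t, transcendental_algebraMap ht, ?_⟩⟩
  have : FiniteDimensional K⟮t⟯ F' := Module.Finite.trans F F'
  refine Module.finite_of_finrank_pos ?_
  rw [finrank_adjoin_algebraMap]
  exact Nat.mul_pos Module.finrank_pos Module.finrank_pos

variable [IsAlgClosed K] [IsFunctionField K F] [IsFunctionField K F'] [Algebra.IsIntegral F F']

omit [FiniteDimensional F F'] in
theorem inertiaDeg_eq_one (w : Place K F') : w.inertiaDeg F = 1 := by
  have h := w.deg_restrict_mul_inertiaDeg (F := F)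
  rwa [place_deg_eq_one, place_deg_eq_one, one_mul] at h

/-- A function with a single zero at `v`. -/
theorem exists_only_zero (v : Place K F) :
    ∃ (t : F) (N : ℕ), 0 < N ∧ Transcendental K t ∧ zeroDiv t = Finsupp.single v (N : ℤ) := by
  classical
  set N : ℕ := 2 * genusFF K F + 1 with hN
  have hdeg : ∀ m : ℤ, Divisor.degree (Finsupp.single v m : Divisor K F) = m := fun m => by
    simp [place_deg_eq_one]
  have h1 := ell_eq_of_large_degree (D := (Finsupp.single v (N : ℤ) : Divisor K F))
    (by rw [hdeg]; omega)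
  have h2 := ell_eq_of_large_degree (D := (Finsupp.single v ((N : ℤ) - 1) : Divisor K F))
    (by rw [hdeg]; omega)
  rw [hdeg] at h1 h2
  have hle : ¬ riemannRochSpace (Finsupp.single v (N : ℤ) : Divisor K F) ≤
      riemannRochSpace (Finsupp.single v ((N : ℤ) - 1)) := fun h => by
    have := Submodule.finrank_mono h
    simp only [ell] at h1 h2
    omega
  obtain ⟨f, hf, hfn⟩ := SetLike.not_le_iff_exists.mp hle
  have hf0 : f ≠ 0 := by rintro rfl; exact hfn (zero_mem _)
  rw [mem_rrSpace_of_ord hf0] at hf hfn
  push Not at hfn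
  obtain ⟨w, hw⟩ := hfn
  have hwv : w = v := by
    by_contra hne
    have := hf w
    rw [Finsupp.single_eq_of_ne hne] at this hw
    omega
  subst hwv
  have hford : w.ord f = -(N : ℤ) := by
    have := hf w
    rw [Finsupp.single_eq_same] at this hw
    omega
  refine ⟨f⁻¹, N, by omega, transcendental_of_ord_ne_zero w (by rw [w.ord_inv]; omega), ?_⟩
  ext u
  rw [zeroDiv_apply, u.ord_inv]
  rcases eq_or_ne u w with rfl | hu
  · rw [Finsupp.single_eq_same, hford]; omega
  · have := hf u
    rw [Finsupp.single_eq_of_ne hu] at this ⊢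
    omega

/-- The fundamental identity `Σ e = [F' : F]`. -/
theorem sum_ramificationIndex (v : Place K F) :
    ∑ w ∈ v.fiber F', w.ramificationIndex F = Module.finrank F F' := by
  classical
  obtain ⟨t, N, hN, ht, hdiv⟩ := exists_only_zero v
  have hFN : (Module.finrank K⟮t⟯ F : ℤ) = N := by
    rw [← degree_zeroDiv ht, hdiv, Divisor.degree_single, place_deg_eq_one, Nat.cast_one, mul_one]
  have hzero : zeroDiv (K := K) (algebraMap F F' t) =
      ∑ w ∈ v.fiber F', Finsupp.single w ((w.ramificationIndex F : ℤ) * N) := by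
    ext w
    rw [zeroDiv_apply, Place.ord_restrict (F := F) w, Finset.sum_apply']
    have hpos : (0 : ℤ) ≤ w.ramificationIndex F := Int.natCast_nonneg _
    have hval := DFunLike.congr_fun hdiv (w.restrict F)
    rw [zeroDiv_apply] at hval
    have hm : max ((w.ramificationIndex F : ℤ) * (w.restrict F).ord t) 0 =
        (w.ramificationIndex F : ℤ) * max ((w.restrict F).ord t) 0 := by
      rw [mul_max_of_nonneg _ _ hpos, mul_zero]
    rw [hm, hval]
    by_cases hw : w.restrict F = v
    · rw [hw, Finsupp.single_eq_same, Finset.sum_eq_single w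
        (fun b _ hb => Finsupp.single_eq_of_ne' hb)
        (fun h => absurd (Place.mem_fiber.mpr hw) h), Finsupp.single_eq_same]
    · rw [Finsupp.single_eq_of_ne hw, mul_zero, Finset.sum_eq_zero]
      intro b hb
      exact Finsupp.single_eq_of_ne fun h => hw (h ▸ Place.mem_fiber.mp hb)
  have h := degree_zeroDiv (K := K) (transcendental_algebraMap (F' := F') ht)
  rw [hzero, map_sum, finrank_adjoin_algebraMap] at h
  simp only [Divisor.degree_single, place_deg_eq_one, Nat.cast_one, mul_one] at h
  push_cast at h
  rw [← Finset.sum_mul, hFN, mul_comm (N : ℤ)] at h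
  exact_mod_cast mul_right_cancel₀ (by omega : (N : ℤ) ≠ 0) h

/-- The Prelude's fundamental identity holds for finite extensions of function fields. -/
instance fundamentalIdentity : FundamentalIdentity K F F' :=
  ⟨fun v => by
    simp only [place_deg_eq_one, Nat.cast_one, mul_one]
    exact_mod_cast sum_ramificationIndex v⟩

omit [FiniteDimensional F F'] [IsFunctionField K F] in
/-- Elements regular at all places over `v` are integral over `O_v`. -/
theorem isIntegral_of_forall_ord_nonneg (v : Place K F) {f : F'}
    (hf : ∀ w ∈ v.fiber F', 0 ≤ w.ord f) : IsIntegral v.toValuationSubring f := by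
  by_contra hno
  let R : Subring F' := (integralClosure v.toValuationSubring F').toSubring
  have : IsIntegrallyClosedIn R F' := Subring.isIntegrallyClosedIn_iff.mpr fun {r} hr =>
    isIntegral_trans (R := v.toValuationSubring)
      (A := integralClosure v.toValuationSubring F') r hr
  obtain ⟨V, hV, hfV⟩ := R.exists_le_valuationSubring_of_isIntegrallyClosedIn (x := f) hno
  have hsub : ∀ a : F, a ∈ v.toValuationSubring → algebraMap F F' a ∈ V := fun a ha =>
    hV ((integralClosure v.toValuationSubring F').algebraMap_mem ⟨a, ha⟩)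
  have hK : ∀ c : K, algebraMap K F' c ∈ V := fun c => by
    rw [IsScalarTower.algebraMap_apply K F F']
    exact hsub _ (v.algebraMap_mem' c)
  have htop : V ≠ ⊤ := fun h => hfV (h ▸ ValuationSubring.mem_top f)
  let w : Place K F' := placeOfValuationSubring V hK htop
  have hw : w.restrict F = v :=
    (eq_of_toValuationSubring_le fun a ha => (w.mem_restrict_iff (F := F)).mpr (hsub a ha)).symm
  exact hfV ((mem_iff_ord_nonneg w).mpr (hf w (Place.mem_fiber.mpr hw)))

omit [IsFunctionField K F] in
/-- The norm of a function regular over `v` is regular at `v`; if in addition it has a zero over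
`v`, so does its norm. -/
theorem ord_norm_nonneg_and_pos (v : Place K F) {f : F'} (hf0 : f ≠ 0)
    (hf : ∀ w ∈ v.fiber F', 0 ≤ w.ord f) :
    0 ≤ v.ord (Algebra.norm F f) ∧
      ((∃ w ∈ v.fiber F', 0 < w.ord f) → 0 < v.ord (Algebra.norm F f)) := by
  have hint := isIntegral_of_forall_ord_nonneg v hf
  have hintF : IsIntegral F f := IsIntegral.of_finite F f
  set P := minpoly v.toValuationSubring f with hP
  have hmin : minpoly F f = P.map (algebraMap v.toValuationSubring F) :=
    minpoly.isIntegrallyClosed_eq_field_fractions' F hint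
  set a₀ : F := ((P.coeff 0 : v.toValuationSubring) : F) with ha₀
  have hc : (minpoly F f).coeff 0 = a₀ := by rw [hmin, coeff_map]; rfl
  have ha0 : a₀ ≠ 0 := hc ▸ minpoly.coeff_zero_ne_zero hintF hf0
  have ha : 0 ≤ v.ord a₀ := (mem_iff_ord_nonneg v).mp (P.coeff 0).2
  set m := Module.finrank F⟮f⟯ F' with hm
  have hmpos : 0 < m := Module.finrank_pos
  have hnorm : v.ord (Algebra.norm F f) = m * v.ord a₀ := by
    rw [Algebra.norm_eq_norm_adjoin F f, ← adjoin.powerBasis_gen hintF,
      Algebra.PowerBasis.norm_gen_eq_coeff_zero_minpoly, adjoin.powerBasis_gen hintF,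
      minpoly_gen, hc, ord_pow]
    congr 1
    rw [show ((-1 : F) ^ (adjoin.powerBasis hintF).dim) * a₀
        = algebraMap K F ((-1) ^ (adjoin.powerBasis hintF).dim) * a₀ by simp,
      ord_algebraMap_mul v (by simp)]
  refine ⟨hnorm ▸ mul_nonneg (by omega) ha, fun ⟨w, hw, hpos⟩ => ?_⟩
  rw [hnorm]
  refine mul_pos (by omega) (lt_of_le_of_ne ha fun h0 => ?_)
  have hzero : w.ord (algebraMap F F' a₀) = 0 := by
    rw [w.ord_restrict (F := F), Place.mem_fiber.mp hw, ← h0, mul_zero]
  have hev : aeval f P = 0 := minpoly.aeval _ f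
  rw [← X_mul_divX_add P, map_add, map_mul, aeval_X, aeval_C, add_eq_zero_iff_eq_neg'] at hev
  have hev' : algebraMap F F' a₀ = -(f * aeval f P.divX) := hev
  have hmem : aeval f P.divX ∈ w.toValuationSubring := by
    refine Polynomial.aeval_eq_sum_range (R := v.toValuationSubring) f ▸ sum_mem fun i _ => ?_
    rw [Algebra.smul_def]
    refine mul_mem ?_ (pow_mem ((mem_iff_ord_nonneg w).mpr (hf w hw)) i)
    exact (w.mem_restrict_iff (F := F)).mp ((Place.mem_fiber.mp hw).symm ▸ (P.divX.coeff i).2)
  rw [mem_iff_ord_nonneg] at hmem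
  have hne : aeval f P.divX ≠ 0 := fun h => by
    rw [h, mul_zero, neg_zero] at hev'
    exact ha0 (by simpa using hev')
  rw [hev', ord_neg, w.ord_mul hf0 hne] at hzero
  omega

omit [Algebra K F'] [IsScalarTower K F F'] [IsAlgClosed K] [IsFunctionField K F]
    [IsFunctionField K F'] in
theorem ord_norm_mul (v : Place K F) {f g : F'} (hf : f ≠ 0) (hg : g ≠ 0) :
    v.ord (Algebra.norm F (f * g)) = v.ord (Algebra.norm F f) + v.ord (Algebra.norm F g) := by
  rw [map_mul, v.ord_mul (Algebra.norm_ne_zero_iff.mpr hf) (Algebra.norm_ne_zero_iff.mpr hg)]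

omit [Algebra K F'] [IsScalarTower K F F'] [IsAlgClosed K] [IsFunctionField K F]
    [IsFunctionField K F'] in
theorem ord_norm_inv (v : Place K F) {f : F'} (hf : f ≠ 0) :
    v.ord (Algebra.norm F f⁻¹) = -v.ord (Algebra.norm F f) := by
  have h := ord_norm_mul v hf (inv_ne_zero hf)
  rw [mul_inv_cancel₀ hf, map_one, v.ord_one] at h
  omega

omit [IsFunctionField K F] in
theorem ord_norm_eq_of_fiber (v : Place K F) {f g : F'} (hf : f ≠ 0) (hg : g ≠ 0)
    (h : ∀ w ∈ v.fiber F', w.ord f = w.ord g) :
    v.ord (Algebra.norm F f) = v.ord (Algebra.norm F g) := by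
  have hd : f * g⁻¹ ≠ 0 := mul_ne_zero hf (inv_ne_zero hg)
  have h0 : ∀ w ∈ v.fiber F', w.ord (f * g⁻¹) = 0 := fun w hw => by
    rw [w.ord_mul hf (inv_ne_zero hg), w.ord_inv, h w hw]; ring
  have h1 := (ord_norm_nonneg_and_pos v hd fun w hw => (h0 w hw).ge).1
  have h2 := (ord_norm_nonneg_and_pos v (inv_ne_zero hd) fun w hw => by
    rw [w.ord_inv, h0 w hw]; simp).1
  rw [ord_norm_inv v hd] at h2
  rw [ord_norm_mul v hf (inv_ne_zero hg), ord_norm_inv v hg] at h1 h2
  omega

/-- `ord_v (N f) = Σ_{w | v} ord_w f`. -/
theorem ord_norm (v : Place K F) {f : F'} (hf : f ≠ 0) :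
    v.ord (Algebra.norm F f) = ∑ w ∈ v.fiber F', w.ord f := by
  classical
  set S := v.fiber F'
  choose t ht0 ht using fun w : Place K F' => exists_ord_eq S (fun u => if u = w then 1 else 0)
  set c : Place K F' → ℤ := fun w => v.ord (Algebra.norm F (t w)) with hc
  have hprodne : ∀ (n : Place K F' → ℤ) (T : Finset (Place K F')),
      ∏ w ∈ T, t w ^ n w ≠ 0 := fun n T =>
    Finset.prod_ne_zero_iff.mpr fun w _ => zpow_ne_zero _ (ht0 w)
  have hordz : ∀ (z : F') (k : ℤ), z ≠ 0 →
      v.ord (Algebra.norm F (z ^ k)) = k * v.ord (Algebra.norm F z) := fun z k hz => by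
    cases k with
    | ofNat n => rw [Int.ofNat_eq_natCast, zpow_natCast, map_pow, ord_pow]
    | negSucc n =>
      rw [zpow_negSucc, ord_norm_inv v (pow_ne_zero _ hz), map_pow, ord_pow, Int.negSucc_eq]
      push_cast
      ring
  have key : ∀ g : F', g ≠ 0 → v.ord (Algebra.norm F g) = ∑ w ∈ S, w.ord g * c w := by
    intro g hg
    have hval : ∀ (T : Finset (Place K F')),
        v.ord (Algebra.norm F (∏ w ∈ T, t w ^ w.ord g)) = ∑ w ∈ T, w.ord g * c w := by
      intro T
      induction T using Finset.induction with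
      | empty => simp
      | @insert a T ha ih =>
        rw [Finset.prod_insert ha, Finset.sum_insert ha,
          ord_norm_mul v (zpow_ne_zero _ (ht0 a)) (hprodne _ T), ih, hordz _ _ (ht0 a)]
    have hordu : ∀ u ∈ S, ∀ T : Finset (Place K F'),
        u.ord (∏ w ∈ T, t w ^ w.ord g) = if u ∈ T then u.ord g else 0 := by
      intro u hu T
      induction T using Finset.induction with
      | empty => simp
      | @insert a T ha ih =>
        rw [Finset.prod_insert ha, u.ord_mul (zpow_ne_zero _ (ht0 a)) (hprodne _ T), ih,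
          u.ord_zpow, ht a u hu]
        rcases eq_or_ne u a with rfl | hua
        · simp [ha]
        · simp [hua]
    rw [← hval S]
    exact ord_norm_eq_of_fiber v hg (hprodne _ S) fun u hu => by rw [hordu u hu S, if_pos hu]
  have hc1 : ∀ w ∈ S, 1 ≤ c w := fun w hw => by
    have h := (ord_norm_nonneg_and_pos v (ht0 w) fun u hu => by
      rw [ht w u hu]; split_ifs <;> omega).2 ⟨w, hw, by rw [ht w w hw, if_pos rfl]; exact one_pos⟩
    simp only [hc]
    omega
  have hc_eq : ∀ w ∈ S, c w = 1 := by
    obtain ⟨π, hπ0, hπ⟩ := exists_ord_eq_one v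
    have h := key (algebraMap F F' π) ((_root_.map_ne_zero _).mpr hπ0)
    rw [Algebra.norm_algebraMap, ord_pow, hπ, mul_one] at h
    have hsum : ∑ w ∈ S, (w.ramificationIndex F : ℤ) * c w =
        ∑ w ∈ S, (w.ramificationIndex F : ℤ) * 1 := by
      rw [← Finset.sum_congr rfl (fun w hw => by
        rw [w.ord_restrict (F := F), Place.mem_fiber.mp hw, hπ, mul_one] :
          ∀ w ∈ S, w.ord (algebraMap F F' π) * c w = (w.ramificationIndex F : ℤ) * c w), ← h]
      simp only [mul_one]
      exact_mod_cast (sum_ramificationIndex v).symm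
    intro w hw
    have := (Finset.sum_eq_sum_iff_of_le (fun u hu => mul_le_mul_of_nonneg_left (hc1 u hu)
      (Int.natCast_nonneg _))).mp hsum.symm w hw
    exact (mul_left_cancel₀ (by exact_mod_cast (w.ramificationIndex_pos (F := F)).ne') this).symm
  rw [key f hf]
  exact Finset.sum_congr rfl fun w hw => by rw [hc_eq w hw, mul_one]

/-- Pushing forward a principal divisor gives the divisor of the norm. -/
theorem pushforwardNormFormula : Divisor.PushforwardNormFormula K F F' := by
  classical
  intro f hf D hD v
  rw [Divisor.pushforward_apply, ord_norm v hf, ← Finset.sum_filter]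
  simp only [inertiaDeg_eq_one, Nat.cast_one, mul_one, hD]
  refine Finset.sum_subset (fun w hw => Place.mem_fiber.mpr (Finset.mem_filter.mp hw).2) ?_
  intro w hw hn
  rw [Finset.mem_filter, not_and] at hn
  by_contra hne
  exact hn (Finsupp.mem_support_iff.mpr (by rwa [hD])) (Place.mem_fiber.mp hw)

end Fermat.Agent.FF

end
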