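import Mathlib
import Fermat.Prelude.Def_AlgebraicCurve_IsCurveOver
import Fermat.Agent.FF.Degree

/-!
# Kähler differentials of a function field and `IsCurveOver`

For a separating element `x` the differentials are free on `dx`. In characteristic zero this makes
every function field an `IsCurveOver`, the setting of the Prelude's curve theory.
-/

noncomputable section

open IntermediateField AlgebraicCurve Polynomial KaehlerDifferential TensorProduct

namespace Fermat.Agent.FF

variable {K F : Type*} [Field K] [Field F] [Algebra K F]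

/-- For `F` separable over `K(x)`, `Ω[F/K]` is free on `dx`. -/
theorem exists_kaehlerEquiv {x : F} (hx : Transcendental K x) [Algebra.IsSeparable K⟮x⟯ F] :
    ∃ e : F ≃ₗ[F] Ω[F⁄K], e 1 = D K F x := by
  let : Algebra K[X] K⟮x⟯ := (aeval (AdjoinSimple.gen K x)).toRingHom.toAlgebra
  let : Algebra K[X] F := (aeval x).toRingHom.toAlgebra
  have : IsScalarTower K K[X] F := IsScalarTower.of_algebraMap_eq fun c => by
    simp [RingHom.algebraMap_toAlgebra]
  have : IsScalarTower K[X] K⟮x⟯ F := IsScalarTower.of_algebraMap_eq fun p => by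
    show aeval x p = algebraMap K⟮x⟯ F (aeval (AdjoinSimple.gen K x) p)
    rw [← aeval_algebraMap_apply, AdjoinSimple.algebraMap_gen]
  let e₀ : RatFunc K ≃ₐ[K[X]] K⟮x⟯ :=
    AlgEquiv.ofRingEquiv (f := (RatFunc.algEquivOfTranscendental x hx).toRingEquiv) fun p =>
      RatFunc.algEquivOfTranscendental_algebraMap x hx p
  have : IsLocalization (nonZeroDivisors K[X]) K⟮x⟯ :=
    IsLocalization.isLocalization_of_algEquiv (nonZeroDivisors K[X]) e₀
  have : Algebra.FormallyEtale K[X] K⟮x⟯ :=
    Algebra.FormallyEtale.of_isLocalization (nonZeroDivisors K[X])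
  have : Algebra.FormallyEtale K⟮x⟯ F := Algebra.FormallyEtale.of_isSeparable K⟮x⟯ F
  have : Algebra.FormallyEtale K[X] F := Algebra.FormallyEtale.comp K[X] K⟮x⟯ F
  let e₁ : F ⊗[K[X]] Ω[K[X]⁄K] ≃ₗ[F] F :=
    (AlgebraTensorModule.congr (LinearEquiv.refl F F) (polynomialEquiv K)).trans
      (AlgebraTensorModule.rid K[X] F F)
  refine ⟨e₁.symm.trans (tensorKaehlerEquivOfFormallyEtale K K[X] F), ?_⟩
  have h1 : e₁ (1 ⊗ₜ D K K[X] X) = 1 := by simp [e₁]
  rw [LinearEquiv.trans_apply, ← h1, LinearEquiv.symm_apply_apply,
    tensorKaehlerEquivOfFormallyEtale_apply, mapBaseChange_tmul, one_smul, map_D]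
  congr 1
  show aeval x (X : K[X]) = x
  simp

theorem kaehler_free_rank_one {x : F} (hx : Transcendental K x) [Algebra.IsSeparable K⟮x⟯ F] :
    Module.Free F Ω[F⁄K] ∧ Module.finrank F Ω[F⁄K] = 1 := by
  obtain ⟨e, -⟩ := exists_kaehlerEquiv hx
  exact ⟨Module.Free.of_equiv e, e.finrank_eq.symm.trans (Module.finrank_self F)⟩

/-- `dx` generates the differentials for a separating transcendental `x`. -/
theorem span_D_eq_top {x : F} (hx : Transcendental K x) [Algebra.IsSeparable K⟮x⟯ F] :
    Submodule.span F {D K F x} = ⊤ := by
  obtain ⟨e, he⟩ := exists_kaehlerEquiv hx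
  refine eq_top_iff.mpr fun ω _ => Submodule.mem_span_singleton.mpr ⟨e.symm ω, ?_⟩
  rw [← he, ← map_smul, smul_eq_mul, mul_one, LinearEquiv.apply_symm_apply]

theorem D_ne_zero {x : F} (hx : Transcendental K x) [Algebra.IsSeparable K⟮x⟯ F] :
    D K F x ≠ 0 := by
  obtain ⟨e, he⟩ := exists_kaehlerEquiv hx
  rw [← he]
  simp

/-- In characteristic zero every transcendental element is separating. -/
theorem isSeparable_adjoin [CharZero K] [IsFunctionField K F] {x : F} (hx : Transcendental K x) :
    Algebra.IsSeparable K⟮x⟯ F :=
  haveI := finiteDimensional_adjoin_of_transcendental hx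
  haveI : CharZero K⟮x⟯ := charZero_of_injective_algebraMap (algebraMap K K⟮x⟯).injective
  inferInstance

theorem isCurveOver_of_separable [IsAlgClosed K] [IsFunctionField K F] {x : F}
    (hx : Transcendental K x) [Algebra.IsSeparable K⟮x⟯ F] : IsCurveOver K F where
  toHasPrincipalDivisors := hasPrincipalDivisors
  finiteResidue v := finite_residueField v
  kaehler_free_rank_one := kaehler_free_rank_one hx

/-- In characteristic zero a function field is a curve in the sense of the Prelude. -/
instance isCurveOver [IsAlgClosed K] [CharZero K] [IsFunctionField K F] : IsCurveOver K F := by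
  obtain ⟨x, hx, -⟩ := IsFunctionField.exists_transcendental (K := K) (F := F)
  have := isSeparable_adjoin hx
  exact isCurveOver_of_separable hx

theorem finiteDimensional_of_adjoin_top (E : IntermediateField K F) (S : Set F) (hS : S.Finite)
    (htop : IntermediateField.adjoin K S = ⊤) (halg : ∀ s ∈ S, IsAlgebraic E s) :
    FiniteDimensional E F := by
  have hSt : IntermediateField.adjoin E S = ⊤ := by
    refine eq_top_iff.mpr fun z _ => ?_
    have hle : IntermediateField.adjoin K S ≤ (IntermediateField.adjoin E S).restrictScalars K :=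
      IntermediateField.adjoin_le_iff.mpr fun s hs => IntermediateField.subset_adjoin E S hs
    rw [htop] at hle
    exact hle IntermediateField.mem_top
  have : Finite S := hS.to_subtype
  have : FiniteDimensional E (IntermediateField.adjoin E S) :=
    IntermediateField.finiteDimensional_adjoin fun s hs => (halg s hs).isIntegral
  exact Module.Finite.of_surjective (IntermediateField.adjoin E S).val.toLinearMap
    fun z => ⟨⟨z, hSt ▸ IntermediateField.mem_top⟩, rfl⟩

/-- Criterion: generated by finitely many elements algebraic over `K(x)`. -/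
theorem isFunctionField_of_adjoin {x : F} (hx : Transcendental K x) (S : Set F) (hS : S.Finite)
    (htop : IntermediateField.adjoin K S = ⊤) (halg : ∀ s ∈ S, IsAlgebraic K⟮x⟯ s) :
    IsFunctionField K F :=
  ⟨⟨x, hx, finiteDimensional_of_adjoin_top _ S hS htop halg⟩⟩

/-- The same for an intermediate field given by generators in a bigger field. -/
theorem isFunctionField_adjoin {L : Type*} [Field L] [Algebra K L] {x : L} (hx : Transcendental K x)
    (S : Set L) (hS : S.Finite) (hxS : x ∈ IntermediateField.adjoin K S)
    (halg : ∀ s ∈ S, IsAlgebraic K⟮x⟯ s) :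
    IsFunctionField K (IntermediateField.adjoin K S) := by
  set E := IntermediateField.adjoin K S with hE
  let x' : E := ⟨x, hxS⟩
  have hx' : Transcendental K x' := fun h => hx (h.algHom E.val)
  refine isFunctionField_of_adjoin hx' ((Subtype.val : E → L) ⁻¹' S)
    (hS.preimage Subtype.val_injective.injOn) ?_ fun s hs => ?_
  · apply (IntermediateField.map_injective E.val)
    rw [IntermediateField.adjoin_map, ← AlgHom.fieldRange_eq_map, IntermediateField.fieldRange_val,
      hE]
    congr 1
    refine Set.Subset.antisymm ?_ fun s hs =>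
      ⟨⟨s, IntermediateField.subset_adjoin K S hs⟩, hs, rfl⟩
    rintro _ ⟨t, ht, rfl⟩
    exact ht
  · obtain ⟨p, hp0, hp⟩ := halg (s : L) hs
    have hmap : K⟮x'⟯.map E.val = K⟮x⟯ := by
      rw [IntermediateField.adjoin_map, Set.image_singleton]; rfl
    let e : K⟮x⟯ ≃ₐ[K] K⟮x'⟯ :=
      ((IntermediateField.equivMap K⟮x'⟯ E.val).trans (IntermediateField.equivOfEq hmap)).symm
    refine ⟨p.map e.toRingEquiv.toRingHom, fun h0 => hp0
      ((Polynomial.map_eq_zero_iff e.toRingEquiv.toRingHom.injective).mp h0), ?_⟩
    apply E.val.injective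
    rw [map_zero, aeval_def, eval₂_map]
    show E.val.toRingHom _ = 0
    rw [hom_eval₂]
    rw [← hp, aeval_def]
    congr 1
    refine RingHom.ext fun z => ?_
    have h := congrArg Subtype.val (e.symm_apply_apply z)
    exact h

/-- A curve over an algebraically closed field of characteristic zero which is essentially of
finite type is a function field. -/
theorem isFunctionField_of_isCurveOver [CharZero K] [IsCurveOver K F]
    [Algebra.EssFiniteType K F] : IsFunctionField K F := by
  obtain ⟨s, hs⟩ := exists_isTranscendenceBasis K F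
  have := hs.isAlgebraic_field
  rw [Subtype.range_coe] at *
  have : CharZero F := charZero_of_injective_algebraMap (algebraMap K F).injective
  let E := IntermediateField.adjoin K s
  have : CharZero E := charZero_of_injective_algebraMap (algebraMap K E).injective
  have halgE : Algebra.IsAlgebraic E F := by assumption
  have : Algebra.IsSeparable E F := inferInstance
  have : Algebra.FormallyEtale E F := Algebra.FormallyEtale.of_isSeparable E F
  let : Algebra (MvPolynomial s K) E :=
    (MvPolynomial.aeval fun i : s => (⟨i, IntermediateField.subset_adjoin K s i.2⟩ : E)).toAlgebra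
  let : Algebra (MvPolynomial s K) F :=
    (MvPolynomial.aeval fun i : s => (i : F)).toAlgebra
  have : IsScalarTower K (MvPolynomial s K) F := IsScalarTower.of_algebraMap_eq fun c => by
    simp [RingHom.algebraMap_toAlgebra]
  have : IsScalarTower (MvPolynomial s K) E F := IsScalarTower.of_algebraMap_eq fun p => by
    show MvPolynomial.aeval (fun i : s => (i : F)) p = E.val (MvPolynomial.aeval _ p)
    rw [MvPolynomial.comp_aeval_apply]
    rfl
  have hinj : Function.Injective (algebraMap (MvPolynomial s K) E) := by
    intro a b h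
    apply hs.1
    have := congrArg (algebraMap E F) h
    rw [← IsScalarTower.algebraMap_apply, ← IsScalarTower.algebraMap_apply] at this
    exact this
  have : IsFractionRing (MvPolynomial s K) E := by
    have : FaithfulSMul (MvPolynomial s K) E := (faithfulSMul_iff_algebraMap_injective _ _).mpr hinj
    refine IsFractionRing.of_field _ _ fun z => ?_
    obtain ⟨r, t, h⟩ := (IntermediateField.mem_adjoin_range_iff K (fun i : s => (i : F)) (z : F)).mp
      (by rw [Subtype.range_coe]; exact z.2)
    refine ⟨r, t, Subtype.ext ?_⟩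
    rw [h]
    show _ = (algebraMap E F) (algebraMap _ E r / algebraMap _ E t)
    rw [map_div₀, ← IsScalarTower.algebraMap_apply, ← IsScalarTower.algebraMap_apply]
    rfl
  have : Algebra.FormallyEtale (MvPolynomial s K) E :=
    Algebra.FormallyEtale.of_isLocalization (nonZeroDivisors (MvPolynomial s K))
  have : Algebra.FormallyEtale (MvPolynomial s K) F :=
    Algebra.FormallyEtale.comp (MvPolynomial s K) E F
  let b : Module.Basis s F Ω[F⁄K] :=
    ((mvPolynomialBasis K s).baseChange F).map
      (tensorKaehlerEquivOfFormallyEtale K (MvPolynomial s K) F)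
  have hrank := b.mk_eq_rank''
  rw [← Module.finrank_eq_rank', IsCurveOver.finrank_kaehler] at hrank
  obtain ⟨hsub, ⟨x⟩⟩ := Cardinal.eq_one_iff_unique.mp (by exact_mod_cast hrank :
    Cardinal.mk s = 1)
  have hsx : s = {(x : F)} := Set.eq_singleton_iff_unique_mem.mpr
    ⟨x.2, fun y hy => congrArg Subtype.val (hsub.elim ⟨y, hy⟩ x)⟩
  refine ⟨⟨(x : F), hs.1.transcendental x, ?_⟩⟩
  have : Algebra.IsAlgebraic K⟮(x : F)⟯ F := hsx ▸ halgE
  have : Algebra.EssFiniteType K⟮(x : F)⟯ F := Algebra.EssFiniteType.of_comp K K⟮(x : F)⟯ F
  exact Algebra.finite_of_essFiniteType_of_isAlgebraic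

end Fermat.Agent.FF

end
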