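import Mathlib
import Fermat.Prelude.Def_ModularCurve_ArithmeticGalois
import Fermat.Prelude.Def_ModularCurve_X0ModL
import Fermat.Agent.FF.Curve
import Fermat.Agent.MF.Degree

/-!
# Modular function fields are function fields, in every characteristic

`K(j(q^d) : d ∣ N)` is finite over `K(j(q))` because of an integral modular relation that stays
non-trivial modulo every prime. This puts the modular curves under the theory of this directory.
-/

noncomputable section

open IntermediateField AlgebraicCurve Polynomial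
open ModularCurve (coeffMap jqModC jqNModC qExpand modularFunctionFieldFullC divisorExpansionsC
  laurentBaseChange modularFunctionFieldFull)

namespace Fermat.Agent.FF

theorem coeffMap_intCast {R : Type*} [CommRing R] (f : ℤ →+* R) (z : ℤ) :
    coeffMap f (z : LaurentSeries ℤ) = (z : LaurentSeries R) :=
  map_intCast _ _

/-- An integral relation between `j(q)` and `j(q^d)`, not divisible by any prime. -/
theorem exists_int_relation (d : ℕ) [NeZero d] :
    ∃ (T : Finset (ℕ × ℕ)) (g : ℕ × ℕ → ℤ), T.gcd g = 1 ∧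
      ∑ p ∈ T, (g p : LaurentSeries ℤ) * jqModC ℤ ^ p.2 * jqNModC ℤ d ^ p.1 = 0 := by
  classical
  obtain ⟨n, r, hr, hr0⟩ : ∃ (n : ℕ) (r : Fin n → ℚ[X]),
      ∑ b, aeval (jqModC ℚ) (r b) * jqNModC ℚ d ^ (b : ℕ) = 0 ∧ r ≠ 0 := by
    by_contra! h
    exact MF.not_indep_succ ℚ d fun r hr => h _ r hr
  set m := (Finset.univ.sup fun b => (r b).natDegree) + 1 with hm
  let cf : ℕ × ℕ → ℚ := fun p => if h : p.1 < n then (r ⟨p.1, h⟩).coeff p.2 else 0
  set T := Finset.range n ×ˢ Finset.range m with hT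
  obtain ⟨D, hD⟩ := IsLocalization.exist_integer_multiples (nonZeroDivisors ℤ) T cf
  choose g0 hg0 using hD
  let g1 : ℕ × ℕ → ℤ := fun p => if h : p ∈ T then g0 p h else 0
  have hg1 : ∀ p ∈ T, (g1 p : ℚ) = ((D : ℤ) : ℚ) * cf p := fun p hp => by
    simp only [g1, dif_pos hp]
    simpa [Algebra.smul_def] using hg0 p hp
  have hne : ∃ p ∈ T, g1 p ≠ 0 := by
    obtain ⟨b, hb⟩ := Function.ne_iff.mp hr0
    obtain ⟨i, hi⟩ : ∃ i, (r b).coeff i ≠ 0 := by
      by_contra! h
      exact hb (Polynomial.ext fun i => by simpa using h i)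
    have him : i < m := Nat.lt_succ_of_le ((le_natDegree_of_ne_zero hi).trans
      (Finset.le_sup (f := fun b => (r b).natDegree) (Finset.mem_univ b)))
    have hp : ((b : ℕ), i) ∈ T :=
      Finset.mem_product.mpr ⟨Finset.mem_range.mpr b.2, Finset.mem_range.mpr him⟩
    refine ⟨((b : ℕ), i), hp, fun h0 => ?_⟩
    have h1 := hg1 _ hp
    rw [h0, Int.cast_zero] at h1
    rw [show cf ((b : ℕ), i) = (r b).coeff i from dif_pos b.2] at h1
    rcases mul_eq_zero.mp h1.symm with h2 | h2
    · exact nonZeroDivisors.coe_ne_zero D (by exact_mod_cast h2)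
    · exact hi h2
  have hrel : ∑ p ∈ T, (g1 p : LaurentSeries ℚ) * jqModC ℚ ^ p.2 * jqNModC ℚ d ^ p.1 = 0 := by
    calc ∑ p ∈ T, (g1 p : LaurentSeries ℚ) * jqModC ℚ ^ p.2 * jqNModC ℚ d ^ p.1
        = ∑ p ∈ T, algebraMap ℚ (LaurentSeries ℚ) ((D : ℤ) : ℚ) *
            (algebraMap ℚ (LaurentSeries ℚ) (cf p) * jqModC ℚ ^ p.2 * jqNModC ℚ d ^ p.1) := by
          refine Finset.sum_congr rfl fun p hp => ?_
          rw [show (g1 p : LaurentSeries ℚ) = algebraMap ℚ (LaurentSeries ℚ) (g1 p : ℚ) from
            (map_intCast _ _).symm, hg1 p hp, map_mul]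
          ring
      _ = 0 := by
          rw [← Finset.mul_sum, hT, Finset.sum_product, Finset.sum_range]
          simp only [cf, Fin.is_lt, dif_pos, Fin.eta]
          rw [← mul_zero (algebraMap ℚ (LaurentSeries ℚ) ((D : ℤ) : ℚ))]
          congr 1
          refine Eq.trans ?_ hr
          refine Finset.sum_congr rfl fun b _ => ?_
          rw [aeval_eq_sum_range' (Nat.lt_succ_of_le
            (Finset.le_sup (f := fun b => (r b).natDegree) (Finset.mem_univ b))), Finset.sum_mul]
          exact Finset.sum_congr rfl fun i _ => by rw [Algebra.smul_def]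
  obtain ⟨p₀, hp₀, hp₀'⟩ := hne
  obtain ⟨g, hg, hgcd⟩ := Finset.extract_gcd g1 ⟨p₀, hp₀⟩
  refine ⟨T, g, hgcd, ?_⟩
  have hG : T.gcd g1 ≠ 0 := fun h => hp₀' (Finset.gcd_eq_zero_iff.mp h p₀ hp₀)
  refine MF.coeffMap_injective (f := Int.castRingHom ℚ) Int.cast_injective ?_
  simp only [map_sum, map_mul, map_pow, map_zero, coeffMap_intCast, ModularCurve.coeffMap_jqModC,
    ModularCurve.coeffMap_jqNModC]
  have hGne : ((T.gcd g1 : ℤ) : LaurentSeries ℚ) ≠ 0 := by
    rw [show ((T.gcd g1 : ℤ) : LaurentSeries ℚ) = algebraMap ℚ _ ((T.gcd g1 : ℤ) : ℚ) from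
      (map_intCast _ _).symm, ne_eq, map_eq_zero]
    exact_mod_cast hG
  refine (mul_eq_zero.mp ?_).resolve_left hGne
  rw [Finset.mul_sum, ← hrel]
  refine Finset.sum_congr rfl fun p hp => ?_
  conv_rhs => rw [hg p hp]
  push_cast
  ring

variable (K : Type*) [Field K]

theorem aeval_jqModC_coeff_eq_zero {q : K[X]} (h : aeval (jqModC K) q = 0) (i : ℕ) :
    q.coeff i = 0 := by
  by_contra hne
  exact MF.aeval_jqModC_ne_zero (fun h0 => hne (by simp [h0])) h

/-- `j(q^d)` is algebraic over `K(j(q))`, in any characteristic. -/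
theorem isAlgebraic_jqNModC (d : ℕ) [NeZero d] :
    IsAlgebraic K⟮jqModC K⟯ (jqNModC K d) := by
  classical
  obtain ⟨T, g, hgcd, hrel⟩ := exists_int_relation d
  have hK := congrArg (coeffMap (Int.castRingHom K)) hrel
  simp only [map_sum, map_mul, map_pow, map_zero, coeffMap_intCast, ModularCurve.coeffMap_jqModC,
    ModularCurve.coeffMap_jqNModC] at hK
  let P : (K⟮jqModC K⟯)[X] :=
    ∑ p ∈ T, C ((g p : K⟮jqModC K⟯) * AdjoinSimple.gen K (jqModC K) ^ p.2) * X ^ p.1
  refine ⟨P, fun hP => ?_, ?_⟩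
  · have key : ∀ p ∈ T, (g p : K) = 0 := by
      intro p hp
      have hq : aeval (jqModC K)
          (∑ p' ∈ T.filter (fun p' => p'.1 = p.1), monomial p'.2 (g p' : K)) = 0 := by
        have h := congrArg (fun s : (K⟮jqModC K⟯)[X] =>
          algebraMap K⟮jqModC K⟯ (LaurentSeries K) (s.coeff p.1)) hP
        simp only [P, finsetSum_coeff, coeff_C_mul_X_pow] at h
        simp only [coeff_zero, map_zero, map_sum,
          apply_ite (algebraMap K⟮jqModC K⟯ (LaurentSeries K)), map_mul, map_pow, map_intCast,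
          AdjoinSimple.algebraMap_gen] at h
        rw [map_sum, Finset.sum_filter]
        refine Eq.trans (Finset.sum_congr rfl fun p' _ => ?_) h
        by_cases hp' : p'.1 = p.1
        · rw [if_pos hp', if_pos hp'.symm, aeval_monomial, map_intCast]
        · rw [if_neg hp', if_neg (Ne.symm hp')]
      have hc := aeval_jqModC_coeff_eq_zero K hq p.2
      rw [finsetSum_coeff, Finset.sum_eq_single (M := K) p (fun q hq' hne => ?_) (fun h => ?_)]
        at hc
      · simpa [coeff_monomial] using hc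
      · rw [coeff_monomial, if_neg]
        exact fun h => hne (Prod.ext (Finset.mem_filter.mp hq').2 h)
      · exact absurd (Finset.mem_filter.mpr ⟨hp, rfl⟩ : p ∈ T.filter (fun p' => p'.1 = p.1)) h
    have hdvd : ∀ p ∈ T, ((ringChar K : ℕ) : ℤ) ∣ g p := fun p hp =>
      (CharP.intCast_eq_zero_iff K (ringChar K) _).mp (key p hp)
    have h1 : ((ringChar K : ℕ) : ℤ) ∣ 1 := hgcd ▸ Finset.dvd_gcd hdvd
    exact CharP.char_ne_one K (ringChar K) (Nat.eq_one_of_dvd_one (Int.natCast_dvd_natCast.mp h1))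
  · simp only [P, map_sum, map_mul, map_pow, aeval_C, aeval_X, map_intCast,
      AdjoinSimple.algebraMap_gen]
    exact hK

theorem finite_divisorExpansionsC (N : ℕ) [NeZero N] : (divisorExpansionsC K N).Finite := by
  refine (Set.finite_range fun d : {d : ℕ // d ∈ N.divisors} =>
    haveI : NeZero d.1 := ⟨fun h => by simpa [h] using d.2⟩
    qExpand K d.1 (jqModC K)).subset ?_
  rintro _ ⟨d, hd, hdN, rfl⟩
  exact ⟨⟨d, Nat.mem_divisors.mpr ⟨hdN, NeZero.ne N⟩⟩, rfl⟩

theorem isAlgebraic_of_mem_divisorExpansionsC {N : ℕ} {x : LaurentSeries K}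
    (hx : x ∈ divisorExpansionsC K N) : IsAlgebraic K⟮jqModC K⟯ x := by
  obtain ⟨d, hd, -, rfl⟩ := hx
  exact isAlgebraic_jqNModC K d

/-- `K(j(q^d) : d ∣ N)` is a function field, for every field `K`. -/
instance isFunctionField_fullC (N : ℕ) [NeZero N] :
    IsFunctionField K (modularFunctionFieldFullC K N) :=
  isFunctionField_adjoin MF.transcendental_jqModC _ (finite_divisorExpansionsC K N)
    (ModularCurve.jqModC_mem_full K N) fun _ hx => isAlgebraic_of_mem_divisorExpansionsC K hx

/-- The base change of the full modular function field is a function field. -/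
instance isFunctionField_laurentBaseChange (L : Type*) [Field L] [Algebra ℚ L] (N : ℕ) [NeZero N] :
    IsFunctionField L (laurentBaseChange L (modularFunctionFieldFull N)) :=
  (MF.laurentBaseChange_full_eq L N).symm ▸ isFunctionField_fullC L N

/-- The modular function field over `ℚ̄` is a function field. -/
instance isFunctionField_bar (N : ℕ) [NeZero N] :
    IsFunctionField (AlgebraicClosure ℚ) (ModularCurve.modularFunctionFieldBar N) :=
  isFunctionField_laurentBaseChange (AlgebraicClosure ℚ) N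

end Fermat.Agent.FF

end
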