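import Fermat.Agent.FF.DiffPlaces
import Fermat.Agent.FF.Duality

/-!
# The cotrace of a Weil differential

If `η` is a Weil differential of `E` with divisor `W₀`, then `η ∘ Tr` induces a Weil differential of
`F` whose divisor is the pullback of `W₀` plus the different.
-/

noncomputable section

open AlgebraicCurve WithZero KaehlerDifferential

namespace Fermat.Agent.FF.Diff

variable {K E F : Type*} [Field K] [Field E] [Field F] [Algebra K E] [Algebra K F] [Algebra E F]
  [IsScalarTower K E F]

variable [Algebra.IsIntegral E F]

variable (E) in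
/-- Repartitions constant on the fibres over `E`. -/
def flatRep : Submodule K ↥(repartitions K F) where
  carrier := {α | ∀ v v' : Place K F, v.restrict E = v'.restrict E →
    (α : Place K F → F) v = (α : Place K F → F) v'}
  zero_mem' _ _ _ := rfl
  add_mem' := fun {a b} ha hb v v' h => by
    show (a : Place K F → F) v + (b : Place K F → F) v =
      (a : Place K F → F) v' + (b : Place K F → F) v'
    rw [ha v v' h, hb v v' h]
  smul_mem' := fun c a ha v v' h => by
    show c • (a : Place K F → F) v = c • (a : Place K F → F) v'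
    rw [ha v v' h]

variable [IsAlgClosed K] [IsFunctionField K E] [IsFunctionField K F] [FiniteDimensional E F]
  [Algebra.IsSeparable E F] [Nontrivial Ω[F⁄K]]
  {s : Place K E → E} (hs : ∀ w : Place K E, w.ord (s w) = 1)
  (hds : ∀ w : Place K E, D K F (algebraMap E F (s w)) ≠ 0)
  (hfd : ∀ w : Place K E,
    FiberData w (w.fiber F) (fun v : Place K F => v.ramificationIndex E))
  {W₀ : Divisor K E} {W : Divisor K F}
  (hW : ∀ v : Place K F, W v = (v.ramificationIndex E : ℤ) * W₀ (v.restrict E) +
    v.ordDifferential (D K F (algebraMap E F (s (v.restrict E)))))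

omit [IsFunctionField K E] [FiniteDimensional E F] [Algebra.IsSeparable E F]
  [Nontrivial Ω[F⁄K]] in
/-- Every repartition is constant on the fibres over `E` modulo `A(W)`. -/
theorem exists_flat_sub_mem (W : Divisor K F) (α : ↥(repartitions K F)) :
    ∃ β : flatRep (K := K) (F := F) E, α - β.1 ∈ repartitionsOf W := by
  classical
  have hfin := FF.mem_repartitions_iff.mp α.2
  have hB := (hfin.union W.support.finite_toSet).image fun v : Place K F => v.restrict E
  choose f hf using fun w : Place K E =>
    approximation (w.fiber F) (α : Place K F → F) (fun v => -W v)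
  let g : Place K E → F := fun w => if w ∈ hB.toFinset then f w else 0
  have hg : (fun v : Place K F => g (v.restrict E)) ∈ repartitions K F := by
    refine FF.mem_repartitions_iff.mpr ?_
    refine (((hB.toFinset.biUnion fun w => w.fiber F)).finite_toSet).subset fun v hv => ?_
    simp only [Set.mem_ofPred_eq] at hv
    simp only [Finset.mem_coe, Finset.mem_biUnion, Place.mem_fiber]
    refine ⟨v.restrict E, ?_, rfl⟩
    by_contra h
    simp only [g, if_neg h, v.ord_zero] at hv
    exact lt_irrefl _ hv
  refine ⟨⟨⟨_, hg⟩, fun v v' h => show g _ = g _ by rw [h]⟩, fun v => ?_⟩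
  show v.adicValuation ((α : Place K F → F) v - g (v.restrict E)) ≤ exp (W v)
  by_cases h : v.restrict E ∈ hB.toFinset
  · simp only [g, if_pos h, Valuation.map_sub_swap]
    simpa using hf (v.restrict E) v (Place.mem_fiber.mpr rfl)
  · simp only [g, if_neg h, sub_zero]
    simp only [Set.Finite.mem_toFinset, Set.mem_image, Set.mem_union, Finset.mem_coe,
      Finsupp.mem_support_iff, Set.mem_ofPred_eq, not_exists, not_and] at h
    have h1 : ¬ ((v.ord ((α : Place K F → F) v) < 0) ∨ W v ≠ 0) := fun h' => h v h' rfl
    simp only [not_or, not_lt, not_not] at h1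
    rw [h1.2, exp_zero, v.adicValuation_le_one_iff]
    exact Or.inr h1.1

include hs hfd in
omit [Algebra.IsSeparable E F] [Nontrivial Ω[F⁄K]] [IsFunctionField K E] [FiniteDimensional E F] in
/-- The valuation of a power of the uniformiser of `w` at a place over `w`. -/
theorem val_scale {v : Place K F} {w : Place K E} (hv : v.restrict E = w) (n : ℤ) :
    v.adicValuation (algebraMap E F (s w ^ n)) = exp (-((v.ramificationIndex E : ℤ) * n)) := by
  rw [(hfd w).val_map v (Place.mem_fiber.mpr hv), map_zpow₀, val_uniformiser (hs w), ← exp_zsmul,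
    ← exp_nsmul]
  congr 1
  simp

include hs hds hfd hW

omit [IsFunctionField K E] in
/-- Elements bounded by `W` on a fibre have trace bounded by `W₀`. -/
theorem val_trace_le {w : Place K E} {z : F}
    (hz : ∀ v : Place K F, v.restrict E = w → v.adicValuation z ≤ exp (W v)) :
    w.adicValuation (Algebra.trace E F z) ≤ exp (W₀ w) := by
  have hs0 := uniformiser_ne_zero (hs w)
  have h := (hfd w).val_trace_le_one (hs w) (hds w) (z := algebraMap E F (s w ^ W₀ w) * z)
    fun v hv => by
      have hv' := Place.mem_fiber.mp hv
      rw [map_mul, val_scale hs hfd hv']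
      refine (mul_le_mul_right (hz v hv') _).trans (le_of_eq ?_)
      rw [← exp_add, hW v, hv']
      congr 1
      ring
  rw [← Algebra.smul_def, map_smul, smul_eq_mul, map_mul, map_zpow₀, val_uniformiser (hs w),
    ← exp_zsmul] at h
  refine le_trans (le_of_eq ?_) ((mul_le_mul_right h (exp (W₀ w))).trans_eq (mul_one _))
  rw [← mul_assoc, ← exp_add]
  simp

omit [IsFunctionField K E] in
/-- A fibre element whose trace has a pole exceeding `W₀` by one. -/
theorem exists_pole_trace (P : Place K F) :
    ∃ z : F, (∀ v : Place K F, v.restrict E = P.restrict E → v ≠ P →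
        v.adicValuation z ≤ exp (W v)) ∧
      P.adicValuation z ≤ exp (W P + 1) ∧
      Algebra.trace E F z = s (P.restrict E) ^ (-(W₀ (P.restrict E) + 1)) := by
  set w := P.restrict E with hw
  have hs0 := uniformiser_ne_zero (hs w)
  obtain ⟨z, hz1, hz2, hz3⟩ :=
    (hfd w).exists_trace_pole (hs w) (hds w) (Place.mem_fiber.mpr (rfl : P.restrict E = w))
  refine ⟨algebraMap E F (s w ^ (-W₀ w)) * z, fun v hv hne => ?_, ?_, ?_⟩
  · rw [map_mul, val_scale hs hfd hv]
    refine (mul_le_mul_right (hz1 v (Place.mem_fiber.mpr hv) hne) _).trans (le_of_eq ?_)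
    rw [← exp_add, hW v, hv]
    congr 1
    ring
  · rw [map_mul, val_scale hs hfd hw.symm]
    refine (mul_le_mul_right hz2 _).trans (le_of_eq ?_)
    rw [← exp_add, hW P, ← hw]
    congr 1
    ring
  · rw [← Algebra.smul_def, map_smul, hz3, smul_eq_mul, neg_add, zpow_add₀ hs0, zpow_neg_one]

open Classical in
/-- The divisor of the cotrace of `η` is `W`. -/
theorem exists_weilDifferential_cotrace {η : Module.Dual K ↥(repartitions K E)}
    (hη : η ∈ WeilDifferential K E) (hη0 : η ≠ 0) (hη₀ : weilDiv η = W₀) :
    ∃ ω : Module.Dual K ↥(repartitions K F),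
      ω ∈ WeilDifferential K F ∧ ω ≠ 0 ∧ weilDiv ω = W := by
  have hfib : ∀ w : Place K E, ∃ v : Place K F, v.restrict E = w := fun w => by
    by_contra hcon
    have hempty : w.fiber F = ∅ := Finset.eq_empty_iff_forall_notMem.mpr fun v hv =>
      hcon ⟨v, Place.mem_fiber.mp hv⟩
    have := (hfd w).sum_e
    rw [hempty, Finset.sum_empty] at this
    have := Module.finrank_pos (R := E) (M := F)
    omega
  choose pick hpick using hfib
  -- the trace of a flat repartition
  have htr : ∀ β : flatRep (K := K) (F := F) E, (fun w : Place K E =>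
      Algebra.trace E F ((β.1 : Place K F → F) (pick w))) ∈ repartitions K E := fun β => by
    refine FF.mem_repartitions_iff.mpr ?_
    have hfin := FF.mem_repartitions_iff.mp β.1.2
    refine (((hfin.union W.support.finite_toSet).image fun v : Place K F => v.restrict E).union
      W₀.support.finite_toSet).subset fun w hw => ?_
    simp only [Set.mem_ofPred_eq] at hw
    by_contra hcon
    simp only [Set.mem_union, Set.mem_image, Finset.mem_coe, Finsupp.mem_support_iff,
      Set.mem_ofPred_eq, not_or, not_exists, not_and, not_not] at hcon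
    obtain ⟨h1, h2⟩ := hcon
    have hv := val_trace_le hs hds hfd hW (w := w) (z := (β.1 : Place K F → F) (pick w))
      fun v hvw => by
        rw [← β.2 v (pick w) (hvw.trans (hpick w).symm)]
        have hWv : W v = 0 := by
          by_contra hne
          exact h1 v (Or.inr hne) hvw
        rw [hWv, exp_zero, v.adicValuation_le_one_iff]
        refine Or.inr (not_lt.mp fun hlt => h1 v (Or.inl hlt) hvw)
    rw [h2, exp_zero] at hv
    exact absurd hw (not_lt.mpr ((FF.mem_iff_ord_nonneg w).mp
      ((FF.mem_iff_adicValuation_le_one w).mpr hv)))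
  let Tr : flatRep (K := K) (F := F) E →ₗ[K] ↥(repartitions K E) :=
    { toFun := fun β => ⟨_, htr β⟩
      map_add' := fun a b => Subtype.ext <| funext fun w =>
        map_add (Algebra.trace E F) ((a.1 : Place K F → F) (pick w))
            ((b.1 : Place K F → F) (pick w))
      map_smul' := fun c a => Subtype.ext <| funext fun w =>
        LinearMap.map_smul_of_tower (Algebra.trace E F) c ((a.1 : Place K F → F) (pick w)) }
  have hTr : ∀ (β : flatRep (K := K) (F := F) E) (w : Place K E),
      (Tr β : Place K E → E) w = Algebra.trace E F ((β.1 : Place K F → F) (pick w)) :=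
    fun _ _ => rfl
  obtain ⟨hη1, hη2⟩ := mem_omegaSpace.mp (hη₀ ▸ mem_omegaSpace_weilDiv hη hη0)
  have hkill : ∀ β : flatRep (K := K) (F := F) E, β.1 ∈ repartitionsOf W → η (Tr β) = 0 :=
    fun β hβ => hη1 _ fun w => by
      rw [hTr]
      refine val_trace_le hs hds hfd hW fun v hv => ?_
      rw [← β.2 v (pick w) (hv.trans (hpick w).symm)]
      exact hβ v
  -- every repartition is flat modulo `A(W)`
  choose sec hsec using exists_flat_sub_mem (E := E) W
  have huniq : ∀ (α : ↥(repartitions K F)) (β : flatRep (K := K) (F := F) E),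
      α - β.1 ∈ repartitionsOf W → η (Tr (sec α)) = η (Tr β) := fun α β hβ => by
    rw [← sub_eq_zero, ← map_sub, ← map_sub]
    refine hkill _ ?_
    have := Submodule.sub_mem _ hβ (hsec α)
    rwa [sub_sub_sub_cancel_left] at this
  let ω : Module.Dual K ↥(repartitions K F) :=
    { toFun := fun α => η (Tr (sec α))
      map_add' := fun a b => by
        rw [huniq (a + b) (sec a + sec b) ?_, map_add, map_add]
        rw [Submodule.coe_add, add_sub_add_comm]
        exact Submodule.add_mem _ (hsec a) (hsec b)
      map_smul' := fun c a => by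
        rw [RingHom.id_apply, huniq (c • a) (c • sec a) ?_, map_smul, map_smul]
        rw [Submodule.coe_smul, ← smul_sub]
        exact Submodule.smul_mem _ c (hsec a) }
  have hω : ∀ α β, α - (β : flatRep (K := K) (F := F) E).1 ∈ repartitionsOf W →
      ω α = η (Tr β) := huniq
  have hωW : ω ∈ omegaSpace W := by
    refine mem_omegaSpace.mpr ⟨fun α hα => ?_, fun α hα => ?_⟩
    · rw [hω α 0 (by simpa using hα), map_zero, map_zero]
    · obtain ⟨f, hf⟩ := mem_principalRepartitions_iff.mp hα
      rw [hω α ⟨α, fun v v' _ => by rw [hf]⟩ (by simp)]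
      exact hη2 _ (mem_principalRepartitions_iff.mpr ⟨Algebra.trace E F f,
        funext fun w => by rw [hTr]; exact congrArg _ (by rw [hf])⟩)
  have hnv : ∀ w : Place K E, η (singleRep w (s w ^ (-(W₀ w + 1)))) ≠ 0 := fun w =>
    apply_singleRep_ne_zero hη hη0 w (zpow_ne_zero _ (uniformiser_ne_zero (hs w)))
      (by rw [hη₀, w.ord_zpow, hs w, mul_one])
  have hmax : ∀ D, ω ∈ omegaSpace D → D ≤ W := fun D hD P => by
    by_contra hlt
    rw [not_le] at hlt
    set w := P.restrict E with hw
    obtain ⟨z, hz1, hz2, hz3⟩ := exists_pole_trace hs hds hfd hW P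
    have hβ : (fun v : Place K F => if v.restrict E = w then z else 0) ∈ repartitions K F := by
      refine FF.mem_repartitions_iff.mpr ((w.fiber F).finite_toSet.subset fun v hv => ?_)
      simp only [Set.mem_ofPred_eq] at hv
      simp only [Finset.mem_coe, Place.mem_fiber]
      by_contra h
      simp [if_neg h] at hv
    let β : flatRep (K := K) (F := F) E :=
      ⟨⟨_, hβ⟩, fun v v' h => show ite _ _ _ = ite _ _ _ by rw [h]⟩
    have hωβ : ω β.1 = η (singleRep w (s w ^ (-(W₀ w + 1)))) := by
      rw [hω β.1 β (by simp)]
      refine congrArg η (Subtype.ext (funext fun u => ?_))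
      rw [hTr]
      show Algebra.trace E F (ite _ _ _) = _
      rw [hpick u]
      rcases eq_or_ne u w with rfl | hne
      · rw [if_pos rfl, singleRep_self, hz3]
      · rw [if_neg hne, map_zero, singleRep_of_ne hne]
    have h1 : β.1 - singleRep P z ∈ repartitionsOf W := fun v => by
      show v.adicValuation (ite _ _ _ - (singleRep P z : Place K F → F) v) ≤ exp (W v)
      rcases eq_or_ne v P with rfl | hne
      · rw [singleRep_self, if_pos hw.symm, sub_self, map_zero]; exact zero_le
      · rw [singleRep_of_ne hne, sub_zero]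
        by_cases hv : v.restrict E = w
        · rw [if_pos hv]; exact hz1 v hv hne
        · rw [if_neg hv, map_zero]; exact zero_le
    have h2 : singleRep P z ∈ repartitionsOf D := fun v => by
      show v.adicValuation ((singleRep P z : Place K F → F) v) ≤ exp (D v)
      rcases eq_or_ne v P with rfl | hne
      · rw [singleRep_self]
        exact hz2.trans (exp_le_exp.mpr (by omega))
      · rw [singleRep_of_ne hne, map_zero]; exact zero_le
    refine hnv w ?_
    rw [← hωβ, ← sub_add_cancel β.1 (singleRep P z), map_add, (mem_omegaSpace.mp hωW).1 _ h1,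
      (mem_omegaSpace.mp hD).1 _ h2, add_zero]
  have hω0 : ω ≠ 0 := fun h => by
    obtain ⟨P⟩ := exists_place (K := K) (F := F)
    have := hmax (W + Finsupp.single P 1) (h ▸ zero_mem _) P
    simp at this
  exact ⟨ω, ⟨W, hωW⟩, hω0, weilDiv_eq hω0 hωW hmax⟩

end Fermat.Agent.FF.Diff
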