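import Fermat.Prelude.Def_AlgebraicCurve_CanonicalDivisor
import Fermat.Agent.FF.DiffCotrace

/-!
# `deg div(ω) = 2g - 2`; the Riemann–Hurwitz count

`g` is `genusFF` (repartitions). Valid in every characteristic given a separating element. The
comparison makes the divisor of a differential canonical, so the Kähler genus of the Prelude
agrees with the repartition genus.
-/

noncomputable section

open IntermediateField AlgebraicCurve WithZero KaehlerDifferential

namespace Fermat.Agent.FF.Diff

variable {K F : Type*} [Field K] [Field F] [Algebra K F] [IsAlgClosed K] [IsFunctionField K F]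

omit [IsFunctionField K F] in
/-- `K(x)` has genus zero. -/
theorem genusFF_adjoin {x : F} (hx : Transcendental K x) : genusFF K K⟮x⟯ = 0 := by
  have := isFunctionField_adjoin_simple hx
  set g := AdjoinSimple.gen K x with hg
  have hgt := transcendental_gen hx
  set m : ℕ := 2 * genusFF K K⟮x⟯ with hm
  set D : Divisor K K⟮x⟯ := (m : ℤ) • poleDiv g with hD
  have hdeg : Divisor.degree D = m := by
    rw [hD, map_zsmul, degree_poleDiv hgt, finrank_adjoin_gen]
    simp
  have hell := ell_eq_of_large_degree (D := D) (by omega)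
  have hpow : ∀ i : Fin (m + 1), g ^ (i : ℕ) ∈ riemannRochSpace D := fun i v => by
    show g ^ (i : ℕ) ∈ poleLe v (D v)
    refine (mem_poleLe v).mpr (Or.inr ?_)
    rw [ord_pow, hD, Finsupp.smul_apply, poleDiv_apply, smul_eq_mul]
    have h1 : ((i : ℕ) : ℤ) ≤ m := by have := i.2; omega
    have h2 : ((i : ℕ) : ℤ) * max (-v.ord g) 0 ≤ (m : ℤ) * max (-v.ord g) 0 :=
      mul_le_mul_of_nonneg_right h1 (le_max_right _ _)
    have h3 : ((i : ℕ) : ℤ) * -v.ord g ≤ ((i : ℕ) : ℤ) * max (-v.ord g) 0 :=
      mul_le_mul_of_nonneg_left (le_max_left _ _) (by omega)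
    rw [mul_neg] at h3
    omega
  have hli : LinearIndependent K fun i : Fin (m + 1) => g ^ (i : ℕ) :=
    (linearIndependent_pow_of_transcendental hgt).comp _ Fin.val_injective
  have hh : LinearIndependent K fun i => (⟨_, hpow i⟩ : riemannRochSpace D) :=
    LinearIndependent.of_comp (Submodule.subtype _) hli
  have hc := hh.fintype_card_le_finrank
  rw [Fintype.card_fin] at hc
  rw [ell] at hell
  omega

omit [IsFunctionField K F] in
/-- A Weil differential of `K(x)` with divisor `-2∞`. -/
theorem exists_weilDifferential_adjoin {x : F} (hx : Transcendental K x)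
    [IsFunctionField K K⟮x⟯] :
    ∃ (winf : Place K K⟮x⟯) (η : Module.Dual K ↥(repartitions K K⟮x⟯)),
      winf.ord (AdjoinSimple.gen K x)⁻¹ = 1 ∧ η ∈ WeilDifferential K K⟮x⟯ ∧ η ≠ 0 ∧
        weilDiv η = Finsupp.single winf (-2) := by
  have hgt := transcendental_gen hx
  obtain ⟨winf, hwinf⟩ := exists_place_ord_pos (transcendental_inv hgt)
  have h1 := (eq_of_zero_of_finrank_one hx (transcendental_inv hgt)
    (by rw [finrank_adjoin_inv]; exact finrank_adjoin_gen) hwinf hwinf).2
  obtain ⟨η, hη, hη0⟩ := exists_weilDifferential (K := K) (F := K⟮x⟯)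
  set A : Divisor K K⟮x⟯ := Finsupp.single winf (-2) - weilDiv η with hA
  have hAdeg : Divisor.degree A = 0 := by
    rw [hA, map_sub, degree_weilDiv hη hη0, genusFF_adjoin hx, Divisor.degree_single,
      place_deg_eq_one]
    simp
  have hell := riemann_inequality A
  rw [hAdeg, genusFF_adjoin hx] at hell
  obtain ⟨f, hf, hfA⟩ := exists_ne_zero_of_ell_pos (show 0 < ell A by omega)
  have hdiv : A + divOf f = 0 := (eq_of_le_of_degree_le (neg_divOf_le hf hfA)
    (by rw [map_zero, map_add, hAdeg, degree_divOf, add_zero])).symm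
  refine ⟨winf, weilSMul f⁻¹ η, h1, weilSMul_mem hη,
    fun h => inv_ne_zero hf (weilSMul_eq_zero hη0 h), ?_⟩
  rw [weilDiv_weilSMul hη hη0 (inv_ne_zero hf), divOf_inv, ← eq_neg_of_add_eq_zero_left hdiv, hA]
  abel

variable [Nontrivial Ω[F⁄K]]

/-- The divisor of `dx` is the divisor of a Weil differential. -/
theorem exists_weilDifferential_D {x : F} (hx : Transcendental K x) [Algebra.IsSeparable K⟮x⟯ F] :
    ∃ ω : Module.Dual K ↥(repartitions K F), ω ∈ WeilDifferential K F ∧ ω ≠ 0 ∧
      ∀ v : Place K F, weilDiv ω v = v.ordDifferential (D K F x) := by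
  classical
  have := isFunctionField_adjoin_simple hx
  have := finiteDimensional_adjoin_of_transcendental hx
  obtain ⟨winf, η, hinf, hη, hη0, hηdiv⟩ := exists_weilDifferential_adjoin hx
  have hDx : D K F x ≠ 0 := D_ne_zero_of_span span_D_of_isSeparable
  set g := AdjoinSimple.gen K x with hg
  have hgt := transcendental_gen hx
  have hsw : ∀ w : Place K K⟮x⟯, w ≠ winf → ∃ c : K, w.ord (g - algebraMap K K⟮x⟯ c) = 1 :=
    fun w hw => (exists_uniformiser_adjoin hx w).resolve_right fun h =>
      hw (eq_of_zero_of_finrank_one hx (transcendental_inv hgt)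
        (by rw [finrank_adjoin_inv]; exact finrank_adjoin_gen) (h.symm ▸ one_pos)
        (hinf.symm ▸ one_pos)).1
  choose c hc using hsw
  let s : Place K K⟮x⟯ → K⟮x⟯ := fun w =>
    if h : w = winf then g⁻¹ else g - algebraMap K K⟮x⟯ (c w h)
  have hs : ∀ w : Place K K⟮x⟯, w.ord (s w) = 1 := fun w => by
    by_cases h : w = winf
    · simp only [s, dif_pos h]; rw [h]; exact hinf
    · simp only [s, dif_neg h]; exact hc w h
  have hx0 : x ≠ 0 := by rintro rfl; exact hx isAlgebraic_zero
  have hDs : ∀ w, D K F (algebraMap K⟮x⟯ F (s w)) =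
      (if w = winf then -(x⁻¹) ^ 2 else 1) • D K F x := fun w => by
    by_cases h : w = winf
    · simp only [s, dif_pos h, if_pos h, map_inv₀, hg, AdjoinSimple.algebraMap_gen,
        Derivation.leibniz_inv, inv_pow, neg_smul]
    · simp only [s, dif_neg h, if_neg h, map_sub, hg, AdjoinSimple.algebraMap_gen, one_smul,
        ← IsScalarTower.algebraMap_apply, Derivation.map_algebraMap, sub_zero]
  have hds : ∀ w, D K F (algebraMap K⟮x⟯ F (s w)) ≠ 0 := fun w => by
    rw [hDs w]
    refine smul_ne_zero ?_ hDx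
    split
    · simpa using hx0
    · exact one_ne_zero
  have hreg := fun v : Place K F => regularPlace x v
  let Wf : Place K F → ℤ := fun v => v.ordDifferential (D K F x)
  set W : Divisor K F :=
    Finsupp.ofSupportFinite Wf (finite_ordDifferential_D_ne_zero hx) with hWdef
  have hWv : ∀ v, W v = v.ordDifferential (D K F x) := fun v => by
    rw [hWdef]; rfl
  have hW : ∀ v : Place K F, W v = (v.ramificationIndex K⟮x⟯ : ℤ) *
      (Finsupp.single winf (-2) : Divisor K K⟮x⟯) (v.restrict K⟮x⟯) +
      v.ordDifferential (D K F (algebraMap K⟮x⟯ F (s (v.restrict K⟮x⟯)))) := fun v => by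
    rw [hWv, hDs]
    by_cases h : v.restrict K⟮x⟯ = winf
    · have hord : v.ord x⁻¹ = v.ramificationIndex K⟮x⟯ := by
        have h1 := v.ord_restrict (F := K⟮x⟯) g⁻¹
        rwa [map_inv₀, hg, AdjoinSimple.algebraMap_gen, ← hg, h, hinf, mul_one] at h1
      rw [if_pos h, h, Finsupp.single_eq_same,
        (hreg v).ordDifferential_smul_of_ne_zero (by simpa using hx0) hDx, ord_neg, ord_pow, hord]
      push_cast
      ring
    · rw [if_neg h, one_smul, Finsupp.single_eq_of_ne h, mul_zero, zero_add]
  obtain ⟨ω, hω, hω0, hωW⟩ := exists_weilDifferential_cotrace hs hds (fiberData hx) hW hη hη0 hηdiv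
  exact ⟨ω, hω, hω0, fun v => hωW ▸ hWv v⟩

/-- Every non-zero differential has a canonical divisor. -/
theorem exists_canonical_divisor {x : F} (hx : Transcendental K x)
    [Algebra.IsSeparable K⟮x⟯ F] {ω : Ω[F⁄K]} (hω : ω ≠ 0) :
    ∃ W : Divisor K F, (∀ v, W v = v.ordDifferential ω) ∧
      Divisor.degree W = 2 * (genusFF K F : ℤ) - 2 ∧ ell W = genusFF K F ∧
      ∀ D : Divisor K F, Module.finrank K (H1 D) = ell (W - D) := by
  obtain ⟨η, hη, hη0, hηv⟩ := exists_weilDifferential_D hx
  obtain ⟨f, rfl⟩ := Submodule.mem_span_singleton.mp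
    ((span_D_of_isSeparable (K := K) (x := x)).symm ▸ (Submodule.mem_top : ω ∈ ⊤))
  have hf : f ≠ 0 := fun h => hω (by rw [h, zero_smul])
  have hDx : D K F x ≠ 0 := D_ne_zero_of_span span_D_of_isSeparable
  refine ⟨weilDiv η + divOf f, fun v => ?_, ?_, ?_, fun E => ?_⟩
  · rw [(regularPlace x v).ordDifferential_smul_of_ne_zero hf hDx, Finsupp.add_apply, hηv,
      divOf_apply, add_comm]
  · rw [map_add, degree_divOf, add_zero, degree_weilDiv hη hη0]
  · rw [ell_add_divOf hf, ell_weilDiv hη hη0]
  · rw [finrank_H1_eq hη hη0 E, add_sub_right_comm, ell_add_divOf hf]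

theorem hasCanonicalDivisor {x : F} (hx : Transcendental K x) [Algebra.IsSeparable K⟮x⟯ F] :
    HasCanonicalDivisor (K := K) (F := F) :=
  ⟨fun _ hω => (exists_canonical_divisor hx hω).imp fun _ h => h.1⟩

/-- The divisor of a non-zero differential has degree `2g - 2`. -/
theorem degree_divDifferential {x : F} (hx : Transcendental K x) [Algebra.IsSeparable K⟮x⟯ F]
    {ω : Ω[F⁄K]} (hω : ω ≠ 0) {W : Divisor K F} (hW : ∀ v, W v = v.ordDifferential ω) :
    Divisor.degree W = 2 * (genusFF K F : ℤ) - 2 := by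
  obtain ⟨W', hW', h, -⟩ := exists_canonical_divisor hx hω
  rwa [show W = W' from Finsupp.ext fun v => by rw [hW, hW']]

/-- The space of regular differentials has dimension `g`. -/
theorem ell_divDifferential {x : F} (hx : Transcendental K x) [Algebra.IsSeparable K⟮x⟯ F]
    {ω : Ω[F⁄K]} (hω : ω ≠ 0) {W : Divisor K F} (hW : ∀ v, W v = v.ordDifferential ω) :
    ell W = genusFF K F := by
  obtain ⟨W', hW', -, h, -⟩ := exists_canonical_divisor hx hω
  rwa [show W = W' from Finsupp.ext fun v => by rw [hW, hW']]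

/-- The Kähler genus is the repartition genus. -/
theorem genus_eq_genusFF' {x : F} (hx : Transcendental K x) [Algebra.IsSeparable K⟮x⟯ F]
    [HasCanonicalDivisor (K := K) (F := F)] : AlgebraicCurve.genus K F = genusFF K F := by
  have hex : ∃ ω : Ω[F⁄K], ω ≠ 0 := exists_ne 0
  rw [AlgebraicCurve.genus, dif_pos hex,
    degree_divDifferential hx hex.choose_spec (canonicalDivisorOf_apply hex.choose_spec)]
  omega

omit [Nontrivial Ω[F⁄K]] in
/-- The finite set of places over a finite set of values of `x` and over `∞`. -/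
theorem exists_fibres (x : F) (S : Finset K) :
    ∃ T : Finset (Place K F), ∀ v, v ∈ T ↔
      v.ord x < 0 ∨ ∃ c ∈ S, 0 < v.ord (x - algebraMap K F c) := by
  have hfin : {v : Place K F | v.ord x < 0 ∨ ∃ c ∈ S, 0 < v.ord (x - algebraMap K F c)}.Finite := by
    refine ((finite_ord_ne_zero (K := K) x).union (Set.Finite.biUnion S.finite_toSet fun c _ =>
      finite_ord_pos (K := K) (x - algebraMap K F c))).subset fun v hv => ?_
    rcases hv with h | ⟨c, hc, h⟩
    · exact Or.inl h.ne
    · exact Or.inr (Set.mem_biUnion (x := c) (Finset.mem_coe.mpr hc) h)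
  exact ⟨hfin.toFinset, fun v => Set.Finite.mem_toFinset _⟩

/-- Riemann–Hurwitz for a tame `x : F → ℙ¹` branched only over `S ∪ {∞}`. -/
theorem two_genus_sub_two_eq_of_tame {x : F} (hx : Transcendental K x)
    [Algebra.IsSeparable K⟮x⟯ F] (S : Finset K) (T : Finset (Place K F))
    (hT : ∀ v, v ∈ T ↔ v.ord x < 0 ∨ ∃ c ∈ S, 0 < v.ord (x - algebraMap K F c))
    (hunr : ∀ v : Place K F, ∀ c ∉ S, 0 < v.ord (x - algebraMap K F c) →
      v.ord (x - algebraMap K F c) = 1)
    (htame : ∀ v ∈ T, ((v.ord x : ℤ) : K) ≠ 0 ∨ 0 ≤ v.ord x)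
    (htame' : ∀ v : Place K F, ∀ c ∈ S, 0 < v.ord (x - algebraMap K F c) →
      ((v.ord (x - algebraMap K F c) : ℤ) : K) ≠ 0) :
    2 * (genusFF K F : ℤ) - 2 =
      ((S.card : ℤ) - 1) * (Module.finrank K⟮x⟯ F : ℤ) - (T.card : ℤ) := by
  classical
  obtain ⟨η, hη, hη0, hηv⟩ := exists_weilDifferential_D hx
  have hW : weilDiv η = (∑ c ∈ S, zeroDiv (K := K) (x - algebraMap K F c)) - poleDiv x -
      ∑ v ∈ T, Finsupp.single v 1 := by
    refine Finsupp.ext fun v => ?_
    have hreg := regularPlace x v
    rw [hηv]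
    simp only [Finsupp.coe_sub, Pi.sub_apply, Finsupp.finsetSum_apply, zeroDiv_apply,
      poleDiv_apply, Finsupp.single_apply, Finset.sum_ite_eq']
    rcases lt_or_ge (v.ord x) 0 with hneg | hpos
    · have hvT : v ∈ T := (hT v).mpr (Or.inl hneg)
      rw [hreg.ordDifferential_D_of_ord_ne ((htame v hvT).resolve_right (not_le.mpr hneg)),
        if_pos hvT, Finset.sum_eq_zero fun c _ => ?_]
      · omega
      · rw [sub_eq_add_neg, ← map_neg, ord_add_eq_of_lt v (fun h => by simp [h] at hneg)
          (Or.inr (by rw [ord_algebraMap]; exact hneg))]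
        omega
    · obtain ⟨c₀, hc₀⟩ := exists_const v hpos
      have hne : x - algebraMap K F c₀ ≠ 0 := fun h =>
        hx (sub_eq_zero.mp h ▸ isAlgebraic_algebraMap c₀)
      have hord := hc₀.resolve_left hne
      have hother : ∀ c : K, c ≠ c₀ → max (v.ord (x - algebraMap K F c)) 0 = 0 := fun c hc => by
        have h1 : x - algebraMap K F c = algebraMap K F (c₀ - c) + (x - algebraMap K F c₀) := by
          rw [map_sub]; ring
        rw [h1, ord_add_eq_of_lt v ((_root_.map_ne_zero _).mpr (sub_ne_zero.mpr hc.symm))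
          (Or.inr (by rwa [ord_algebraMap])), ord_algebraMap]
        simp
      by_cases hS : c₀ ∈ S
      · rw [if_pos ((hT v).mpr (Or.inr ⟨c₀, hS, hord⟩)),
          hreg.ordDifferential_D_sub_algebraMap (htame' v c₀ hS hord),
          Finset.sum_eq_single_of_mem c₀ hS fun c _ hc => hother c hc]
        omega
      · have hone := hunr v c₀ hS hord
        have hvT : v ∉ T := fun h => by
          rcases (hT v).mp h with h | ⟨c, hcS, hc⟩
          · omega
          · have := hother c fun he => hS (he ▸ hcS)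
            omega
        rw [if_neg hvT, hreg.ordDifferential_D_sub_algebraMap (c := c₀) (by simp [hone]), hone,
          Finset.sum_eq_zero fun c hcS => hother c fun he => hS (he ▸ hcS)]
        omega
  have h := degree_weilDiv hη hη0
  rw [hW, map_sub, map_sub, map_sum, map_sum,
    Finset.sum_congr rfl fun c _ => degree_zeroDiv_sub_const hx c, degree_poleDiv hx,
    Finset.sum_congr rfl fun v _ => Divisor.degree_single (K := K) v 1] at h
  simp only [place_deg_eq_one, Finset.sum_const, nsmul_eq_mul, Nat.cast_one, mul_one] at h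
  linarith

section CharZero

variable [CharZero K]

omit [Nontrivial Ω[F⁄K]] [IsAlgClosed K] in
/-- In characteristic zero separating elements exist. -/
theorem exists_separating :
    ∃ x : F, Transcendental K x ∧ Algebra.IsSeparable K⟮x⟯ F := by
  obtain ⟨x, hx, hfin⟩ := IsFunctionField.exists_transcendental (K := K) (F := F)
  have := hfin
  exact ⟨x, hx, inferInstance⟩

theorem regularPlace_charZero (v : Place K F) : RegularPlace v := by
  obtain ⟨x, -, hsep⟩ := exists_separating (K := K) (F := F)
  exact regularPlace x v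

instance hasCanonicalDivisor_charZero : HasCanonicalDivisor (K := K) (F := F) := by
  obtain ⟨x, hx, hsep⟩ := exists_separating (K := K) (F := F)
  exact hasCanonicalDivisor hx

theorem genus_eq_genusFF [HasCanonicalDivisor (K := K) (F := F)] :
    AlgebraicCurve.genus K F = genusFF K F := by
  obtain ⟨x, hx, hsep⟩ := exists_separating (K := K) (F := F)
  exact genus_eq_genusFF' hx

/-- In characteristic zero, `ord (dx)` at a zero of `x - c`. -/
theorem ordDifferential_D_eq_ramification (v : Place K F) {x : F} {c : K}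
    (he : v.ord (x - algebraMap K F c) ≠ 0) :
    v.ordDifferential (D K F x) = v.ord (x - algebraMap K F c) - 1 :=
  (regularPlace_charZero v).ordDifferential_D_sub_algebraMap (Int.cast_ne_zero.mpr he)

/-- Riemann–Hurwitz in characteristic zero, for `x` branched only over `S ∪ {∞}`. -/
theorem two_genus_sub_two_eq {x : F} (hx : Transcendental K x) (S : Finset K)
    (T : Finset (Place K F))
    (hT : ∀ v, v ∈ T ↔ v.ord x < 0 ∨ ∃ c ∈ S, 0 < v.ord (x - algebraMap K F c))
    (hunr : ∀ v : Place K F, ∀ c ∉ S, 0 < v.ord (x - algebraMap K F c) →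
      v.ord (x - algebraMap K F c) = 1) :
    2 * (genusFF K F : ℤ) - 2 =
      ((S.card : ℤ) - 1) * (Module.finrank K⟮x⟯ F : ℤ) - (T.card : ℤ) := by
  have := finiteDimensional_adjoin_of_transcendental hx
  refine two_genus_sub_two_eq_of_tame hx S T hT hunr (fun v _ => ?_)
    fun v c _ h => Int.cast_ne_zero.mpr h.ne'
  rcases lt_or_ge (v.ord x) 0 with h | h
  · exact Or.inl (Int.cast_ne_zero.mpr h.ne)
  · exact Or.inr h

end CharZero

end Fermat.Agent.FF.Diff
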