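import Mathlib.FieldTheory.IntermediateField.Adjoin.Algebra
import Mathlib.FieldTheory.Separable
import Mathlib.RingTheory.Derivation.Basic
import Mathlib.RingTheory.Polynomial.Basic
import Fermat.Prelude.Def_AlgebraicCurve_IsCurveOver
import Fermat.Prelude.Def_AlgebraicCurve_Repartitions
import Fermat.Agent.FF.Basic

/-!
# Differentiating with respect to a uniformiser

If `t` is a uniformiser at a place `v` with constant residue field and `F` is separable over
`K(t)`, the derivation `d/dt` preserves the valuation ring of `v`.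
-/

noncomputable section

open WithZero AlgebraicCurve Polynomial
open scoped IntermediateField

namespace Fermat.Agent.FF.Diff

variable {K F : Type*} [Field K] [Field F] [Algebra K F]

/-- The residue field of the place is the constant field. -/
def ConstResidue (v : Place K F) : Prop :=
  ∀ f : F, v.adicValuation f ≤ 1 →
    ∃ c : K, v.adicValuation (f - algebraMap K F c) ≤ exp (-1 : ℤ)

theorem val_le_one_iff_mem (v : Place K F) {f : F} :
    v.adicValuation f ≤ 1 ↔ f ∈ v.toValuationSubring :=
  (mem_iff_adicValuation_le_one v).symm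

theorem val_eq_exp {v : Place K F} {f : F} (hf : f ≠ 0) :
    v.adicValuation f = exp (-v.ord f) :=
  v.adicValuation_eq_exp_neg_ord hf

theorem val_uniformiser {v : Place K F} {t : F} (ht : v.ord t = 1) :
    v.adicValuation t = exp (-1 : ℤ) := by
  rw [val_eq_exp (by rintro rfl; simp at ht), ht]

theorem uniformiser_ne_zero {v : Place K F} {t : F} (ht : v.ord t = 1) : t ≠ 0 := by
  rintro rfl
  simp at ht

theorem exists_uniformiser (v : Place K F) : ∃ t : F, v.ord t = 1 :=
  (exists_ord_eq_one v).imp fun _ h => h.2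

theorem constResidue_of_deg_eq_one (v : Place K F) (hdeg : v.deg = 1) : ConstResidue v := by
  intro f hf
  have hmem := (val_le_one_iff_mem v).mp hf
  obtain ⟨c, hc⟩ := exists_smul_eq_of_finrank_eq_one hdeg (one_ne_zero (α := v.ResidueField))
    (IsLocalRing.residue _ ⟨f, hmem⟩)
  refine ⟨c, ?_⟩
  have hres : IsLocalRing.residue v.toValuationSubring
      (⟨f, hmem⟩ - algebraMap K v.toValuationSubring c) = 0 := by
    rw [map_sub, ← hc, sub_eq_zero, Algebra.smul_def, mul_one]
    rfl
  rw [IsLocalRing.residue_eq_zero_iff] at hres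
  set a : v.toValuationSubring := ⟨f, hmem⟩ - algebraMap K v.toValuationSubring c with ha
  have hcoe : (a : F) = f - algebraMap K F c := by simp [ha]
  rw [← hcoe]
  rcases eq_or_ne (a : F) 0 with h0 | h0
  · rw [h0]; simp
  · rw [val_eq_exp h0, exp_le_exp, neg_le_neg_iff]
    by_contra hlt
    have h1 : v.adicValuation (a : F) ≤ 1 := v.adicValuation_le_one_of_mem a.2
    rw [val_eq_exp h0, show (1 : ℤᵐ⁰) = exp 0 from exp_zero.symm, exp_le_exp] at h1
    have h2 : v.adicValuation (a : F) = 1 := by
      rw [val_eq_exp h0, show v.ord (a : F) = 0 by omega]; simp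
    exact (IsLocalRing.mem_maximalIdeal _ |>.mp hres) ((v.adicValuation_coe_eq_one_iff a).mp h2)

/-- Elements of the valuation ring are approximated by polynomials in a uniformiser. -/
theorem exists_polynomial_approx {v : Place K F} (hv : ConstResidue v) {t : F} (ht : v.ord t = 1)
    {f : F} (hf : v.adicValuation f ≤ 1) (N : ℕ) :
    ∃ p : K[X], v.adicValuation (f - aeval t p) ≤ exp (-(N : ℤ)) := by
  induction N with
  | zero => exact ⟨0, by simpa using hf⟩
  | succ N ih =>
    obtain ⟨p, hp⟩ := ih
    have ht0 := uniformiser_ne_zero ht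
    set g : F := (f - aeval t p) / t ^ N with hg
    have hgv : v.adicValuation g ≤ 1 := by
      rw [hg, map_div₀, map_pow, val_uniformiser ht, ← exp_nsmul, div_le_one₀ exp_pos]
      simpa using hp
    obtain ⟨c, hc⟩ := hv g hgv
    refine ⟨p + C c * X ^ N, ?_⟩
    have hid : f - aeval t (p + C c * X ^ N) = (g - algebraMap K F c) * t ^ N := by
      simp only [map_add, map_mul, aeval_C, map_pow, aeval_X, hg]
      field_simp
      ring
    rw [hid, map_mul, map_pow, val_uniformiser ht]
    calc v.adicValuation (g - algebraMap K F c) * exp (-1 : ℤ) ^ N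
        ≤ exp (-1 : ℤ) * exp (-1 : ℤ) ^ N := mul_le_mul_left hc _
      _ = exp (-((N + 1 : ℕ) : ℤ)) := by
          rw [← exp_nsmul, ← exp_add]
          congr 1
          simp

theorem val_aeval_le_one {v : Place K F} {t : F} (ht : v.adicValuation t ≤ 1) (p : K[X]) :
    v.adicValuation (aeval t p) ≤ 1 := by
  induction p using Polynomial.induction_on' with
  | add p q hp hq => rw [map_add]; exact (Valuation.map_add _ _ _).trans (max_le hp hq)
  | monomial n a =>
    rw [aeval_monomial, map_mul, map_pow]
    exact mul_le_one' (v.adicValuation_algebraMap_le_one a) (pow_le_one₀ zero_le ht)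

theorem val_algebraMap_eq_one {v : Place K F} {c : K} (hc : c ≠ 0) :
    v.adicValuation (algebraMap K F c) = 1 := by
  refine le_antisymm (v.adicValuation_algebraMap_le_one c) ?_
  have h := v.adicValuation_algebraMap_le_one c⁻¹
  rw [map_inv₀, map_inv₀] at h
  exact (inv_le_one₀ (zero_lt_iff.mpr (v.adicValuation_ne_zero
    (by simpa using hc)))).mp h

/-- A polynomial in a uniformiser vanishing to order `N` is divisible by `X ^ N`. -/
theorem X_pow_dvd_of_val_le {v : Place K F} {t : F} (ht : v.ord t = 1) (N : ℕ) :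
    ∀ R : K[X], v.adicValuation (aeval t R) ≤ exp (-(N : ℤ)) → X ^ N ∣ R := by
  induction N with
  | zero => intro R _; simp
  | succ N ih =>
    intro R hR
    obtain ⟨R₁, hR₁⟩ : X ∣ R := by
      rw [X_dvd_iff]
      by_contra h0
      have hsplit : aeval t R = t * aeval t R.divX + algebraMap K F (R.coeff 0) := by
        conv_lhs => rw [← X_mul_divX_add R]
        rw [map_add, map_mul, aeval_X, aeval_C]
      have h1 : v.adicValuation (t * aeval t R.divX) < 1 := by
        rw [map_mul, val_uniformiser ht]
        calc exp (-1 : ℤ) * v.adicValuation (aeval t R.divX)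
            ≤ exp (-1 : ℤ) * 1 := mul_le_mul_right (val_aeval_le_one
              (by rw [val_uniformiser ht, ← exp_zero, exp_le_exp]; omega) _) _
          _ < 1 := by rw [mul_one]; exact (by rw [← exp_zero, exp_lt_exp]; omega)
      have h2 : v.adicValuation (aeval t R) = 1 := by
        rw [hsplit, Valuation.map_add_eq_of_lt_right, val_algebraMap_eq_one h0]
        rwa [val_algebraMap_eq_one h0]
      rw [h2, ← exp_zero, exp_le_exp] at hR
      omega
    subst hR₁
    rw [pow_succ']
    refine mul_dvd_mul_left X (ih R₁ ?_)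
    rw [map_mul, aeval_X, map_mul, val_uniformiser ht] at hR
    have := mul_le_mul_right hR (exp (1 : ℤ))
    rw [← mul_assoc, ← exp_add, ← exp_add] at this
    simpa [Nat.cast_succ] using this

theorem val_pow_sub_pow_le {v : Place K F} {x y : F} (hx : v.adicValuation x ≤ 1)
    (hy : v.adicValuation y ≤ 1) (n : ℕ) :
    v.adicValuation (x ^ n - y ^ n) ≤ v.adicValuation (x - y) := by
  induction n with
  | zero => simp
  | succ n ih =>
    rw [show x ^ (n + 1) - y ^ (n + 1) = x * (x ^ n - y ^ n) + (x - y) * y ^ n by ring]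
    refine (Valuation.map_add _ _ _).trans (max_le ?_ ?_)
    · rw [map_mul]; exact (mul_le_of_le_one_left' hx).trans ih
    · rw [map_mul, map_pow]; exact mul_le_of_le_one_right' (pow_le_one₀ zero_le hy)

theorem val_eval_sub_eval_le {v : Place K F} {G : F[X]}
    (hG : ∀ i, v.adicValuation (G.coeff i) ≤ 1) {x y : F} (hx : v.adicValuation x ≤ 1)
    (hy : v.adicValuation y ≤ 1) :
    v.adicValuation (G.eval x - G.eval y) ≤ v.adicValuation (x - y) := by
  rw [eval_eq_sum_range, eval_eq_sum_range, ← Finset.sum_sub_distrib]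
  refine Valuation.map_sum_le _ fun i _ => ?_
  rw [← mul_sub, map_mul]
  exact (mul_le_of_le_one_left' (hG i)).trans (val_pow_sub_pow_le hx hy i)

/-- The chain rule for a polynomial with variable coefficients. -/
theorem exists_deriv_eval (D : Derivation K F F) (G : F[X]) :
    ∃ E : F[X], (∀ i, E.coeff i = D (G.coeff i)) ∧
      ∀ z, D (G.eval z) = E.eval z + G.derivative.eval z * D z := by
  induction G using Polynomial.induction_on' with
  | add p q hp hq =>
    obtain ⟨E, hE, hE'⟩ := hp
    obtain ⟨E₂, hE₂, hE₂'⟩ := hq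
    refine ⟨E + E₂, fun i => by simp [hE, hE₂], fun z => ?_⟩
    rw [eval_add, map_add, hE', hE₂', eval_add, derivative_add, eval_add]
    ring
  | monomial n a =>
    refine ⟨monomial n (D a), fun i => ?_, fun z => ?_⟩
    · simp only [coeff_monomial]
      split <;> simp
    · simp only [eval_monomial, derivative_monomial, Derivation.leibniz, Derivation.leibniz_pow,
        smul_eq_mul, nsmul_eq_mul]
      ring

/-- The valuation ring is stable under `d/dt`. -/
theorem val_deriv_le_one_of_root {v : Place K F} (hv : ConstResidue v) {t : F}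
    (ht : v.ord t = 1) {D : Derivation K F F} (hD : D t = 1) {f : F}
    (hf : v.adicValuation f ≤ 1) (G : F[X]) (hG : ∀ i, ∃ a : K[X], aeval t a = G.coeff i)
    (hroot : G.eval f = 0) (hder : G.derivative.eval f ≠ 0) :
    v.adicValuation (D f) ≤ 1 := by
  by_contra hDf
  rw [not_le] at hDf
  have ht1 : v.adicValuation t ≤ 1 := by
    rw [val_uniformiser ht]; exact le_of_lt ((by rw [← exp_zero, exp_lt_exp]; omega))
  have hDpoly : ∀ a : K[X], D (aeval t a) = aeval t (derivative a) := fun a => by
    rw [Derivation.map_aeval, hD, smul_eq_mul, mul_one]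
  have hGv : ∀ i, v.adicValuation (G.coeff i) ≤ 1 := fun i => by
    obtain ⟨a, ha⟩ := hG i
    rw [← ha]
    exact val_aeval_le_one ht1 a
  obtain ⟨E, hEc, hE⟩ := exists_deriv_eval D G
  have hEv : ∀ i, v.adicValuation (E.coeff i) ≤ 1 := fun i => by
    obtain ⟨a, ha⟩ := hG i
    rw [hEc, ← ha, hDpoly]
    exact val_aeval_le_one ht1 _
  have hG'v : ∀ i, v.adicValuation (G.derivative.coeff i) ≤ 1 := fun i => by
    rw [coeff_derivative, map_mul]
    refine mul_le_one' (hGv _) ?_
    rw [show ((i : F) + 1) = algebraMap K F ((i : K) + 1) by simp]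
    exact v.adicValuation_algebraMap_le_one _
  have key : ∀ N : ℕ, v.adicValuation (G.derivative.eval f) * v.adicValuation (D f)
      ≤ exp (-(N : ℤ)) := fun N => by
    obtain ⟨p, hp⟩ := exists_polynomial_approx hv ht hf (N + 1)
    set g := aeval t p with hg
    have hgv : v.adicValuation g ≤ 1 := val_aeval_le_one ht1 p
    have hDg : v.adicValuation (D g) ≤ 1 := by rw [hg, hDpoly]; exact val_aeval_le_one ht1 _
    have hGg : v.adicValuation (G.eval g) ≤ exp (-((N + 1 : ℕ) : ℤ)) := by
      have := val_eval_sub_eval_le hGv hgv hf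
      rw [hroot, sub_zero, Valuation.map_sub_swap] at this
      exact this.trans hp
    obtain ⟨R, hR⟩ : ∃ R : K[X], aeval t R = G.eval g := by
      choose a ha using hG
      refine ⟨∑ i ∈ Finset.range (G.natDegree + 1), a i * p ^ i, ?_⟩
      rw [eval_eq_sum_range, map_sum]
      exact Finset.sum_congr rfl fun i _ => by rw [map_mul, map_pow, ha, hg]
    have hDGg : v.adicValuation (D (G.eval g)) ≤ exp (-(N : ℤ)) := by
      rw [← hR] at hGg ⊢
      obtain ⟨S, hS⟩ := X_pow_dvd_of_val_le ht (N + 1) R hGg
      rw [hDpoly, hS, derivative_mul, derivative_X_pow, Nat.add_sub_cancel,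
        show C ((N + 1 : ℕ) : K) * X ^ N * S + X ^ (N + 1) * derivative S =
          X ^ N * (C ((N + 1 : ℕ) : K) * S + X * derivative S) by ring,
        map_mul (aeval t), map_mul v.adicValuation, map_pow, aeval_X, map_pow,
        val_uniformiser ht, ← exp_nsmul]
      refine (mul_le_of_le_one_right' (val_aeval_le_one ht1 _)).trans ?_
      simp
    rw [← map_mul]
    have hDGf : E.eval f + G.derivative.eval f * D f = 0 := by rw [← hE, hroot, map_zero]
    have hid : G.derivative.eval f * (D f - D g) =
        -(E.eval f - E.eval g) - D (G.eval g)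
          - (G.derivative.eval f - G.derivative.eval g) * D g := by
      rw [hE g]
      linear_combination hDGf
    have hle : exp (-((N + 1 : ℕ) : ℤ)) ≤ exp (-(N : ℤ)) := exp_le_exp.mpr (by omega)
    have hsub : v.adicValuation (G.derivative.eval f * (D f - D g)) ≤ exp (-(N : ℤ)) := by
      rw [hid]
      refine (Valuation.map_sub _ _ _).trans (max_le ((Valuation.map_sub _ _ _).trans
        (max_le ?_ hDGg)) ?_)
      · rw [Valuation.map_neg]
        exact ((val_eval_sub_eval_le hEv hf hgv).trans hp).trans hle
      · rw [map_mul]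
        exact (mul_le_of_le_one_right' hDg).trans
          (((val_eval_sub_eval_le hG'v hf hgv).trans hp).trans hle)
    rw [map_mul] at hsub ⊢
    rwa [Valuation.map_sub_eq_of_lt_left _ (hDg.trans_lt hDf)] at hsub
  have hDf0 : D f ≠ 0 := fun h => by simp [h] at hDf
  have := key ((v.ord (G.derivative.eval f) + v.ord (D f)).natAbs + 1)
  rw [val_eq_exp hder, val_eq_exp hDf0, ← exp_add, exp_le_exp] at this
  omega

/-- An element separable over `K(t)` is a simple root of a polynomial with coefficients
in `K[t]`. -/
theorem exists_root_of_isSeparable {t f : F} (hf : IsSeparable K⟮t⟯ f) :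
    ∃ G : F[X], (∀ i, ∃ a : K[X], aeval t a = G.coeff i) ∧
      G.eval f = 0 ∧ G.derivative.eval f ≠ 0 := by
  classical
  set P : F[X] := (minpoly K⟮t⟯ f).map (algebraMap K⟮t⟯ F) with hP
  have hPc : ∀ i, ∃ a b : K[X], P.coeff i = aeval t a / aeval t b := fun i => by
    rw [hP, coeff_map]
    exact IntermediateField.mem_adjoin_simple_iff K _ |>.mp ((minpoly K⟮t⟯ f).coeff i).2
  choose a b hab using hPc
  set s := P.support with hs
  set c : K[X] := ∏ i ∈ s, (if aeval t (b i) = 0 then 1 else b i) with hc
  refine ⟨C (aeval t c) * P, fun i => ?_, ?_, ?_⟩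
  · rw [coeff_C_mul]
    by_cases hi : i ∈ s
    · by_cases hb : aeval t (b i) = 0
      · exact ⟨0, by simp [hab i, hb]⟩
      · refine ⟨a i * ∏ j ∈ s.erase i, (if aeval t (b j) = 0 then 1 else b j), ?_⟩
        rw [hc, ← Finset.mul_prod_erase _ _ hi, if_neg hb, map_mul, map_mul, hab i]
        field_simp
    · exact ⟨0, by rw [map_zero, Polynomial.notMem_support_iff.mp (hs ▸ hi), mul_zero]⟩
  · rw [eval_mul, hP, eval_map_algebraMap, minpoly.aeval, mul_zero]
  · rw [derivative_C_mul, eval_mul, eval_C, hP, derivative_map, eval_map_algebraMap]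
    refine mul_ne_zero ?_ (Polynomial.Separable.aeval_derivative_ne_zero hf (minpoly.aeval _ _))
    rw [hc, map_prod, Finset.prod_ne_zero_iff]
    intro i _
    split
    · simp
    · assumption

/-- `d/dt` preserves the valuation ring. -/
theorem val_deriv_le_one {v : Place K F} (hv : ConstResidue v) {t : F} (ht : v.ord t = 1)
    [Algebra.IsSeparable K⟮t⟯ F] {D : Derivation K F F} (hD : D t = 1) {f : F}
    (hf : v.adicValuation f ≤ 1) : v.adicValuation (D f) ≤ 1 := by
  obtain ⟨G, h1, h2, h3⟩ :=
    exists_root_of_isSeparable (Algebra.IsSeparable.isSeparable K⟮t⟯ f)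
  exact val_deriv_le_one_of_root hv ht hD hf G h1 h2 h3

end Fermat.Agent.FF.Diff
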