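import Mathlib.FieldTheory.IsAlgClosed.Basic
import Mathlib.FieldTheory.KummerPolynomial
import Mathlib.FieldTheory.PurelyInseparable.Basic
import Mathlib.RingTheory.Kaehler.Basic
import Mathlib.RingTheory.Unramified.Field
import Fermat.Prelude.Def_ModularCurve_CanonicalDivisor

/-!
# Separating elements and derivations

A generator `dt` of the differentials makes `F` separable over `K(t)`. In characteristic `p` the
kernel of such a derivation consists of `p`-th powers, so uniformisers have non-zero differential.
-/

noncomputable section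

open Polynomial AlgebraicCurve KaehlerDifferential
open scoped IntermediateField

namespace Fermat.Agent.FF.Diff

variable {K F : Type*} [Field K] [Field F] [Algebra K F]

/-- `d/dt`, for a generator `dt` of the differentials. -/
theorem exists_derivation [Nontrivial Ω[F⁄K]] {t : F}
    (hspan : Submodule.span F {D K F t} = ⊤) :
    ∃ d : Derivation K F F, d t = 1 ∧ ∀ f, D K F f = d f • D K F t := by
  have hne : D K F t ≠ 0 := by
    intro h0
    rw [h0, Submodule.span_zero_singleton] at hspan
    exact bot_ne_top hspan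
  let e : F ≃ₗ[F] Ω[F⁄K] :=
    LinearEquiv.toSpanNonzeroSingleton F _ _ hne ≪≫ₗ LinearEquiv.ofEq _ _ hspan ≪≫ₗ
      Submodule.topEquiv
  have he : ∀ a : F, e a = a • D K F t := fun a => by simp [e]
  refine ⟨(e.symm.toLinearMap).compDer (D K F), ?_, fun f => ?_⟩
  · show e.symm (D K F t) = 1
    rw [LinearEquiv.symm_apply_eq, he, one_smul]
  · show D K F f = e.symm (D K F f) • D K F t
    rw [← he, LinearEquiv.apply_symm_apply]

/-- If `dt` generates, `F` is separable over `K(t)`. -/
theorem isSeparable_of_span {t : F} [FiniteDimensional K⟮t⟯ F]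
    (hspan : Submodule.span F {D K F t} = ⊤) : Algebra.IsSeparable K⟮t⟯ F := by
  have hsub : Subsingleton Ω[F⁄K⟮t⟯] := by
    constructor
    intro a b
    have hzero : ∀ a : Ω[F⁄K⟮t⟯], a = 0 := fun a => by
      obtain ⟨a, rfl⟩ := KaehlerDifferential.map_surjective K K⟮t⟯ F a
      have ha : a ∈ Submodule.span F {D K F t} := hspan ▸ Submodule.mem_top
      obtain ⟨r, rfl⟩ := Submodule.mem_span_singleton.mp ha
      have h0 : D K⟮t⟯ F t = 0 :=
        Derivation.map_algebraMap (D K⟮t⟯ F) ⟨t, IntermediateField.mem_adjoin_simple_self K t⟩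
      rw [map_smul, KaehlerDifferential.map_D]
      simp [h0]
    rw [hzero a, hzero b]
  have : Algebra.FormallyUnramified K⟮t⟯ F := ⟨hsub⟩
  exact Algebra.FormallyUnramified.isSeparable K⟮t⟯ F

section CharP

variable {x : F} [Algebra.IsSeparable K⟮x⟯ F] (p : ℕ) [hp : Fact p.Prime] [CharP F p]

/-- The subfield of `p`-th powers. -/
def powSubfield : Subfield F := (frobenius F p).fieldRange

theorem mem_powSubfield_iff {z : F} : z ∈ powSubfield (F := F) p ↔ ∃ g : F, g ^ p = z := by
  simp [powSubfield, RingHom.mem_fieldRange, frobenius_def]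

variable (K) in
theorem algebraMap_mem_powSubfield [IsAlgClosed K] (c : K) :
    algebraMap K F c ∈ powSubfield (F := F) p := by
  obtain ⟨d, hd⟩ := IsAlgClosed.exists_pow_nat_eq c hp.out.pos
  exact (mem_powSubfield_iff p).mpr ⟨algebraMap K F d, by rw [← map_pow, hd]⟩

theorem closure_powSubfield_eq_top :
    Subfield.closure (Set.range (algebraMap K⟮x⟯ F) ∪ (powSubfield (F := F) p : Set F)) = ⊤ := by
  set L : IntermediateField K⟮x⟯ F :=
    IntermediateField.adjoin K⟮x⟯ (powSubfield (F := F) p : Set F) with hL
  have : CharP L p := charP_of_injective_ringHom (f := algebraMap L F) (RingHom.injective _) p |>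
    fun _ => (RingHom.charP _ (algebraMap L F).injective p)
  have : ExpChar L p := ExpChar.prime hp.out
  have : Algebra.IsSeparable L F := Algebra.isSeparable_tower_top_of_isSeparable K⟮x⟯ L F
  have : IsPurelyInseparable L F := by
    rw [isPurelyInseparable_iff_pow_mem L p]
    exact fun z => ⟨1, ⟨⟨z ^ p,
      IntermediateField.subset_adjoin _ _ ((mem_powSubfield_iff p).mpr ⟨z, rfl⟩)⟩,
      by simp⟩⟩
  have hsurj := IsPurelyInseparable.surjective_algebraMap_of_isSeparable L F
  have htop : L = ⊤ := by
    rw [eq_top_iff]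
    intro z _
    obtain ⟨l, rfl⟩ := hsurj z
    exact l.2
  have := IntermediateField.adjoin_toSubfield K⟮x⟯ (powSubfield (F := F) p : Set F)
  rw [← hL, htop] at this
  simpa using this.symm

/-- In characteristic `p`, a function killed by a derivation with `d x = 1` is a `p`-th power. -/
theorem exists_pow_eq_of_deriv_eq_zero [IsAlgClosed K] {d : Derivation K F F} (hd : d x = 1)
    {f : F} (hf : d f = 0) : ∃ g : F, g ^ p = f := by
  have hdpow : ∀ g : F, d (g ^ p) = 0 := fun g => by
    rw [Derivation.leibniz_pow, nsmul_eq_mul, CharP.cast_eq_zero, zero_mul]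
  set Fp := powSubfield (F := F) p with hFp
  have hxp : x ^ p ∈ Fp := (mem_powSubfield_iff p).mpr ⟨x, rfl⟩
  set P : Polynomial Fp := X ^ p - C ⟨x ^ p, hxp⟩ with hP
  have hPirr : Irreducible P := by
    refine X_pow_sub_C_irreducible_of_prime hp.out fun b hb => ?_
    obtain ⟨g, hg⟩ := (mem_powSubfield_iff p).mp b.2
    have hb' : (g ^ p) ^ p = x ^ p := by rw [hg]; exact congrArg Subtype.val hb
    have hgx : g ^ p = x := frobenius_inj F p hb'
    have := hdpow g
    rw [hgx, hd] at this
    exact one_ne_zero this
  have hPmonic : P.Monic := monic_X_pow_sub_C _ hp.out.pos.ne'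
  have hPx : aeval x P = 0 := by
    rw [hP]; simp only [map_sub, map_pow, aeval_X, aeval_C]; exact sub_self _
  have hmin : minpoly Fp x = P := (minpoly.eq_of_irreducible_of_monic hPirr hPx hPmonic).symm
  have hint : IsIntegral Fp x := ⟨P, hPmonic, by rw [← aeval_def]; exact hPx⟩
  obtain ⟨q, hq⟩ : ∃ q : Polynomial Fp, aeval x q = f := by
    set M := IntermediateField.adjoin Fp {x} with hM
    have hxM : x ∈ M := IntermediateField.subset_adjoin _ _ rfl
    have hFpM : ∀ z ∈ Fp, z ∈ M := fun z hz => M.algebraMap_mem ⟨z, hz⟩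
    have hle : Subfield.closure (Set.range (algebraMap K⟮x⟯ F) ∪ (Fp : Set F)) ≤ M.toSubfield := by
      rw [Subfield.closure_le, Set.union_subset_iff]
      refine ⟨?_, hFpM⟩
      rintro _ ⟨⟨z, hz⟩, rfl⟩
      obtain ⟨a, b, rfl⟩ := (IntermediateField.mem_adjoin_simple_iff K _).mp hz
      have hpoly : ∀ a : K[X], aeval x a ∈ M := fun a => by
        rw [aeval_eq_sum_range]
        refine sum_mem fun i _ => ?_
        rw [Algebra.smul_def]
        exact mul_mem (hFpM _ (algebraMap_mem_powSubfield K p _)) (pow_mem hxM i)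
      exact div_mem (hpoly a) (hpoly b)
    rw [closure_powSubfield_eq_top (K := K) (x := x) p] at hle
    have hfM : f ∈ M := hle (show f ∈ (⊤ : Subfield F) from trivial)
    have hfA : f ∈ Algebra.adjoin Fp {x} := by
      rw [← IntermediateField.adjoin_simple_toSubalgebra_of_isAlgebraic hint.isAlgebraic]
      exact hfM
    rwa [Algebra.adjoin_singleton_eq_range_aeval] at hfA
  set r := q %ₘ P with hr
  have hrx : aeval x r = f := by
    rw [hr, ← hq, modByMonic_eq_sub_mul_div, map_sub, map_mul, hPx, zero_mul, sub_zero]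
  have hrdeg : r.natDegree < p := by
    have := natDegree_modByMonic_lt q hPmonic (by
      intro h1
      exact hPirr.not_isUnit (h1 ▸ isUnit_one))
    rwa [hP, natDegree_X_pow_sub_C] at this
  have hder : aeval x (derivative r) = 0 := by
    have key : ∀ s : Polynomial Fp, d (aeval x s) = aeval x (derivative s) := fun s => by
      induction s using Polynomial.induction_on' with
      | add a b ha hb => simp only [map_add, ha, hb]
      | monomial n a =>
        obtain ⟨g, hg⟩ := (mem_powSubfield_iff p).mp a.2
        have ha : d (algebraMap Fp F a) = 0 := by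
          show d (a : F) = 0
          rw [← hg, hdpow g]
        simp only [aeval_monomial, derivative_monomial, Derivation.leibniz,
          Derivation.leibniz_pow, hd, ha, smul_eq_mul, nsmul_eq_mul,
          map_mul, map_natCast]
        ring
    rw [← key, hrx, hf]
  have hr' : derivative r = 0 := by
    by_contra hne
    have := natDegree_le_natDegree (minpoly.degree_le_of_ne_zero Fp x hne hder)
    rw [hmin, hP, natDegree_X_pow_sub_C] at this
    have := natDegree_derivative_le r
    omega
  have hr0 : r.natDegree = 0 := by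
    by_contra hne
    have h1 : (derivative r).coeff (r.natDegree - 1) = 0 := by rw [hr', coeff_zero]
    rw [coeff_derivative, Nat.sub_add_cancel (Nat.pos_of_ne_zero hne), mul_eq_zero] at h1
    rcases h1 with h1 | h1
    · exact (leadingCoeff_ne_zero.mpr fun h0 => hne (by simp [h0])) h1
    · have : CharP Fp p := RingHom.charP Fp.subtype Fp.subtype.injective p
      rw [← Nat.cast_add_one, Nat.sub_add_cancel (Nat.pos_of_ne_zero hne),
        CharP.cast_eq_zero_iff Fp p] at h1
      exact absurd (Nat.le_of_dvd (Nat.pos_of_ne_zero hne) h1) (by omega)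
  refine (mem_powSubfield_iff p).mp ?_
  rw [← hrx, eq_C_of_natDegree_eq_zero hr0, aeval_C]
  exact SetLike.coe_mem _

end CharP

/-- In characteristic `p`, the differential of a uniformiser is non-zero. -/
theorem deriv_uniformiser_ne_zero_of_charP [IsAlgClosed K] [Nontrivial Ω[F⁄K]] {x : F}
    [Algebra.IsSeparable K⟮x⟯ F] (hspan : Submodule.span F {D K F x} = ⊤)
    (p : ℕ) [hp : Fact p.Prime] [CharP F p] {v : Place K F} {t : F} (ht : v.ord t = 1) :
    D K F t ≠ 0 := by
  intro h0
  obtain ⟨d, hd, hd'⟩ := exists_derivation hspan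
  have hdt : d t = 0 := by
    have h1 := hd' t
    rw [h0, eq_comm, smul_eq_zero] at h1
    refine h1.resolve_right fun h => ?_
    rw [h, Submodule.span_zero_singleton] at hspan
    exact bot_ne_top hspan
  obtain ⟨g, rfl⟩ := exists_pow_eq_of_deriv_eq_zero (x := x) p hd hdt
  rw [← zpow_natCast, v.ord_zpow] at ht
  have hdvd : (p : ℤ) ∣ 1 := ⟨v.ord g, ht.symm⟩
  exact hp.out.one_lt.ne' (by exact_mod_cast Int.eq_one_of_dvd_one (by positivity) hdvd)

end Fermat.Agent.FF.Diff
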