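import Fermat.Agent.FF.DiffBasic
import Fermat.Agent.FF.DiffSep

/-!
# Orders of differentials

At a regular place, `ord (g dt) = ord g` for every uniformiser `t`, and `ord (df) = ord f - 1`
whenever `ord f` is prime to the characteristic.
-/

noncomputable section

open WithZero Polynomial AlgebraicCurve KaehlerDifferential
open scoped IntermediateField

namespace Fermat.Agent.FF.Diff

variable {K F : Type*} [Field K] [Field F] [Algebra K F]

/-- A place at which the local theory of differentials works. -/
structure RegularPlace (v : Place K F) : Prop where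
  constResidue : ConstResidue v
  span : ∀ t : F, v.ord t = 1 → Submodule.span F {D K F t} = ⊤
  separable : ∀ t : F, v.ord t = 1 → Algebra.IsSeparable K⟮t⟯ F

variable {v : Place K F}

/-- The chosen coordinate at a place is the differential of some uniformiser. -/
theorem exists_dCoord_eq : ∃ t : F, v.ord t = 1 ∧ v.dCoord = D K F t := by
  refine ⟨_, ?_, rfl⟩
  exact v.ord_coe_irreducible
    (IsDiscreteValuationRing.exists_irreducible v.toValuationSubring).choose_spec

/-- The order of `d/dt f` when `ord f` is prime to the characteristic. -/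
theorem ord_deriv_of_ne {t : F} (ht : v.ord t = 1) {d : Derivation K F F} (hd : d t = 1)
    (hO : ∀ f, v.adicValuation f ≤ 1 → v.adicValuation (d f) ≤ 1)
    {f : F} (hn : ((v.ord f : ℤ) : K) ≠ 0) : v.ord (d f) = v.ord f - 1 ∧ d f ≠ 0 := by
  set n := v.ord f with hndef
  have hf0 : f ≠ 0 := by rintro rfl; simp [hndef] at hn
  have ht0 := uniformiser_ne_zero ht
  have htn : t ^ n ≠ 0 := zpow_ne_zero _ ht0
  set u := f / t ^ n with hu
  have hu1 : v.adicValuation u = 1 := by
    rw [hu, map_div₀, map_zpow₀, val_uniformiser ht, val_eq_exp hf0, ← exp_zsmul, ← exp_sub,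
      ← exp_zero]
    congr 1
    simp [hndef]
  have hnF : ((n : ℤ) : F) ≠ 0 := by
    rw [← map_intCast (algebraMap K F)]
    exact (_root_.map_ne_zero _).mpr hn
  have hdf : d f = t ^ (n - 1) * ((n : F) * u + t * d u) := by
    have hf : f = t ^ n * u := by rw [hu]; field_simp
    conv_lhs => rw [hf]
    rw [Derivation.leibniz, Derivation.leibniz_zpow, hd]
    simp only [smul_eq_mul, zsmul_eq_mul, mul_one]
    rw [zpow_sub_one₀ ht0]
    field_simp
    ring
  have hval : v.adicValuation ((n : F) * u + t * d u) = 1 := by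
    have h1 : v.adicValuation ((n : F) * u) = 1 := by
      rw [map_mul, hu1, mul_one, ← map_intCast (algebraMap K F), val_algebraMap_eq_one hn]
    rw [Valuation.map_add_eq_of_lt_left, h1]
    rw [h1, map_mul, val_uniformiser ht]
    calc exp (-1 : ℤ) * v.adicValuation (d u) ≤ exp (-1 : ℤ) * 1 :=
          mul_le_mul_right (hO u hu1.le) _
      _ < 1 := by rw [mul_one, ← exp_zero, exp_lt_exp]; omega
  have hdf0 : d f ≠ 0 := by
    rw [hdf]
    refine mul_ne_zero (zpow_ne_zero _ ht0) fun h => ?_
    simp [h] at hval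
  refine ⟨?_, hdf0⟩
  have h1 := congrArg v.adicValuation hdf
  rw [val_eq_exp hdf0, map_mul, map_zpow₀, val_uniformiser ht, hval, mul_one, ← exp_zsmul] at h1
  have := congrArg WithZero.log h1
  simp at this
  omega

namespace RegularPlace

variable (hv : RegularPlace v)
include hv

theorem dCoordGenerates : v.DCoordGenerates := by
  obtain ⟨t, ht, he⟩ := exists_dCoord_eq (v := v)
  exact ⟨by rw [he]; exact hv.span t ht⟩

variable [Nontrivial Ω[F⁄K]]

/-- The derivation `d/dt` at a uniformiser. -/
theorem exists_deriv {t : F} (ht : v.ord t = 1) :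
    ∃ d : Derivation K F F, d t = 1 ∧ (∀ f, D K F f = d f • D K F t) ∧
      ∀ f, v.adicValuation f ≤ 1 → v.adicValuation (d f) ≤ 1 := by
  obtain ⟨d, hd, hd'⟩ := exists_derivation (hv.span t ht)
  have := hv.separable t ht
  exact ⟨d, hd, hd', fun f hf => val_deriv_le_one hv.constResidue ht hd hf⟩

theorem ordDifferential_smul_dCoord (g : F) : v.ordDifferential (g • v.dCoord) = v.ord g := by
  have := hv.dCoordGenerates
  rw [Place.ordDifferential, v.differentialCoeff_unique rfl]

/-- `ord` of `g • dt` for any uniformiser. -/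
theorem ordDifferential_smul_D_uniformiser {t : F} (ht : v.ord t = 1) (g : F) :
    v.ordDifferential (g • D K F t) = v.ord g := by
  obtain ⟨t₀, ht₀, he⟩ := exists_dCoord_eq (v := v)
  obtain ⟨d, hd, hd', hO⟩ := hv.exists_deriv ht₀
  obtain ⟨hord, hne⟩ := ord_deriv_of_ne ht₀ hd hO (f := t) (by simp [ht])
  rw [hd' t, smul_smul, ← he, hv.ordDifferential_smul_dCoord]
  rcases eq_or_ne g 0 with rfl | hg
  · simp
  · rw [v.ord_mul hg hne, hord, ht]
    simp

/-- `ord (df)` when `ord f` is prime to the characteristic. -/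
theorem ordDifferential_D_of_ord_ne {f : F} (hn : ((v.ord f : ℤ) : K) ≠ 0) :
    v.ordDifferential (D K F f) = v.ord f - 1 := by
  obtain ⟨t, ht, he⟩ := exists_dCoord_eq (v := v)
  obtain ⟨d, hd, hd', hO⟩ := hv.exists_deriv ht
  rw [hd' f, hv.ordDifferential_smul_D_uniformiser ht]
  exact (ord_deriv_of_ne ht hd hO hn).1

theorem ordDifferential_D_sub_algebraMap {f : F} {c : K}
    (hn : ((v.ord (f - algebraMap K F c) : ℤ) : K) ≠ 0) :
    v.ordDifferential (D K F f) = v.ord (f - algebraMap K F c) - 1 := by
  rw [← hv.ordDifferential_D_of_ord_ne hn, map_sub, Derivation.map_algebraMap, sub_zero]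

theorem ordDifferential_smul_of_ne_zero {c : F} (hc : c ≠ 0) {ω : Ω[F⁄K]} (hω : ω ≠ 0) :
    v.ordDifferential (c • ω) = v.ord c + v.ordDifferential ω := by
  have := hv.dCoordGenerates
  refine v.ordDifferential_smul hc fun h => hω ?_
  rw [← v.differentialCoeff_smul_dCoord ω, h, zero_smul]

/-- The order of a regular function's differential is non-negative. -/
theorem ordDifferential_D_nonneg {f : F} (hf : v.adicValuation f ≤ 1) :
    0 ≤ v.ordDifferential (D K F f) := by
  obtain ⟨t, ht, he⟩ := exists_dCoord_eq (v := v)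
  obtain ⟨d, hd, hd', hO⟩ := hv.exists_deriv ht
  rw [hd' f, hv.ordDifferential_smul_D_uniformiser ht]
  rcases eq_or_ne (d f) 0 with h | h
  · simp [h]
  · have h1 := hO f hf
    rw [val_eq_exp h, ← exp_zero, exp_le_exp] at h1
    omega

end RegularPlace

end Fermat.Agent.FF.Diff
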