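import Fermat.Agent.FF.DiffBasic

/-!
# Almost all places are unramified over a separating element

If `y` generates `F` over `K(x)` and is a simple root modulo the place, then `x - c` is a local
parameter there. This is the input to the finiteness of the divisor of `dx`.
-/

noncomputable section

open WithZero Polynomial AlgebraicCurve
open scoped IntermediateField

namespace Fermat.Agent.FF.Diff

variable {K F : Type*} [Field K] [Field F] [Algebra K F]

/-- `K[x, y]` lies in the valuation ring as soon as `x` and `y` do. -/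
theorem val_le_one_of_mem_adjoin {v : Place K F} {x y z : F} (hx : v.adicValuation x ≤ 1)
    (hy : v.adicValuation y ≤ 1) (hz : z ∈ Algebra.adjoin K ({x, y} : Set F)) :
    v.adicValuation z ≤ 1 := by
  induction hz using Algebra.adjoin_induction with
  | mem z hz => rcases hz with rfl | rfl <;> assumption
  | algebraMap r => exact v.adicValuation_algebraMap_le_one r
  | add z w _ _ h1 h2 => exact (Valuation.map_add _ _ _).trans (max_le h1 h2)
  | mul z w _ _ h1 h2 => rw [map_mul]; exact mul_le_one' h1 h2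

/-- Every element of `K[x, y]` is a constant modulo the ideal `(x - c, y - b)`. -/
theorem exists_eq_add_mul_add_mul {x y z : F} (c b : K)
    (hz : z ∈ Algebra.adjoin K ({x, y} : Set F)) :
    ∃ a : K, ∃ z₁ ∈ Algebra.adjoin K ({x, y} : Set F), ∃ z₂ ∈ Algebra.adjoin K ({x, y} : Set F),
      z = algebraMap K F a + (x - algebraMap K F c) * z₁ + (y - algebraMap K F b) * z₂ := by
  induction hz using Algebra.adjoin_induction with
  | mem z hz =>
    rcases hz with rfl | rfl
    · exact ⟨c, 1, one_mem _, 0, zero_mem _, by ring⟩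
    · exact ⟨b, 0, zero_mem _, 1, one_mem _, by ring⟩
  | algebraMap r => exact ⟨r, 0, zero_mem _, 0, zero_mem _, by ring⟩
  | add z z' _ _ h1 h2 =>
    obtain ⟨a, z₁, h₁, z₂, h₂, rfl⟩ := h1
    obtain ⟨a', z₁', h₁', z₂', h₂', rfl⟩ := h2
    exact ⟨a + a', z₁ + z₁', add_mem h₁ h₁', z₂ + z₂', add_mem h₂ h₂', by rw [map_add]; ring⟩
  | mul z z' _ hz' h1 h2 =>
    obtain ⟨a, z₁, h₁, z₂, h₂, rfl⟩ := h1
    obtain ⟨a', z₁', h₁', z₂', h₂', he'⟩ := h2
    refine ⟨a * a', algebraMap K F a * z₁' + z₁ * z', ?_,
      algebraMap K F a * z₂' + z₂ * z', ?_, ?_⟩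
    · exact add_mem (mul_mem (Subalgebra.algebraMap_mem _ a) h₁') (mul_mem h₁ hz')
    · exact add_mem (mul_mem (Subalgebra.algebraMap_mem _ a) h₂') (mul_mem h₂ hz')
    · rw [map_mul]
      linear_combination (algebraMap K F a) * he'

/-- If `(y - b) H = (x - c) U` in `K[x, y]` with `H` a unit at `v`, then `ord (x - c)` divides the
orders of all non-zero elements of `K[x, y]`. -/
theorem dvd_ord_of_mem_adjoin {v : Place K F} {x y H U : F} {c b : K}
    (hx : v.adicValuation x ≤ 1) (hy : v.adicValuation y ≤ 1)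
    (hc : v.adicValuation (x - algebraMap K F c) < 1)
    (hb : v.adicValuation (y - algebraMap K F b) < 1)
    (hxc : x - algebraMap K F c ≠ 0)
    (hH : H ∈ Algebra.adjoin K ({x, y} : Set F)) (hH1 : v.adicValuation H = 1)
    (hU : U ∈ Algebra.adjoin K ({x, y} : Set F))
    (hrel : (y - algebraMap K F b) * H = (x - algebraMap K F c) * U)
    {z : F} (hz : z ∈ Algebra.adjoin K ({x, y} : Set F)) (hz0 : z ≠ 0) :
    v.ord (x - algebraMap K F c) ∣ v.ord z := by
  set s := x - algebraMap K F c with hs
  have he1 : 1 ≤ v.ord s := by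
    rw [val_eq_exp hxc, ← exp_zero, exp_lt_exp] at hc
    omega
  have hH0 : H ≠ 0 := fun h0 => by simp [h0] at hH1
  have hord0 : ∀ z : F, z ≠ 0 → v.adicValuation z = 1 → v.ord z = 0 := fun z h0 h1 => by
    rw [val_eq_exp h0, ← exp_zero] at h1
    have := WithZero.exp_inj.mp h1
    omega
  have hnn : ∀ z ∈ Algebra.adjoin K ({x, y} : Set F), z ≠ 0 → 0 ≤ v.ord z := fun z hz h0 => by
    have := val_le_one_of_mem_adjoin hx hy hz
    rw [val_eq_exp h0, ← exp_zero, exp_le_exp] at this
    omega
  induction hn : (v.ord z).toNat using Nat.strong_induction_on generalizing z with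
  | _ n ih =>
    obtain ⟨a, z₁, h₁, z₂, h₂, hzd⟩ := exists_eq_add_mul_add_mul c b hz
    by_cases ha0 : a = 0
    · subst ha0
      set z' := H * z₁ + U * z₂ with hz'
      have hz'R : z' ∈ Algebra.adjoin K ({x, y} : Set F) :=
        add_mem (mul_mem hH h₁) (mul_mem hU h₂)
      have hid : H * z = s * z' := by
        rw [hzd, hz', map_zero]
        linear_combination z₂ * hrel
      have hz'0 : z' ≠ 0 := fun h => mul_ne_zero hH0 hz0 (by rw [hid, h, mul_zero])
      have hord : v.ord z = v.ord s + v.ord z' := by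
        have := congrArg v.ord hid
        rwa [v.ord_mul hH0 hz0, v.ord_mul hxc hz'0, hord0 H hH0 hH1, zero_add] at this
      have := hnn z' hz'R hz'0
      rw [hord]
      exact dvd_add dvd_rfl (ih (v.ord z').toNat (by omega) hz'R hz'0 rfl)
    · suffices h : v.ord z = 0 by rw [h]; exact dvd_zero _
      have h1 : v.adicValuation (s * z₁ + (y - algebraMap K F b) * z₂) < 1 := by
        refine Valuation.map_add_lt _ ?_ ?_ <;> rw [map_mul]
        · exact lt_of_le_of_lt (mul_le_of_le_one_right' (val_le_one_of_mem_adjoin hx hy h₁)) hc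
        · exact lt_of_le_of_lt (mul_le_of_le_one_right' (val_le_one_of_mem_adjoin hx hy h₂)) hb
      refine hord0 z hz0 ?_
      rw [hzd, add_assoc, Valuation.map_add_eq_of_lt_left, val_algebraMap_eq_one ha0]
      rwa [val_algebraMap_eq_one ha0]

/-- At a place where `y` is a simple root of its equation over `K[x]`, the function `x` is a
local parameter. -/
theorem ord_sub_eq_one_of_simple_root {v : Place K F} (hv : ConstResidue v) {x y : F}
    (htop : IntermediateField.adjoin K ({x, y} : Set F) = ⊤)
    (hx : v.adicValuation x ≤ 1) (hy : v.adicValuation y ≤ 1)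
    (G : F[X]) (hG : ∀ i, ∃ a : K[X], aeval x a = G.coeff i) (hroot : G.eval y = 0)
    (hder : v.adicValuation (G.derivative.eval y) = 1) {c : K}
    (hc : v.adicValuation (x - algebraMap K F c) ≤ exp (-1 : ℤ))
    (hxc : x - algebraMap K F c ≠ 0) :
    v.ord (x - algebraMap K F c) = 1 := by
  classical
  set s := x - algebraMap K F c with hs
  set e := v.ord s with he
  have he1 : 1 ≤ e := by
    rw [val_eq_exp hxc, exp_le_exp] at hc
    omega
  obtain ⟨b, hb⟩ := hv y hy
  set R := Algebra.adjoin K ({x, y} : Set F) with hR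
  have hxR : x ∈ R := Algebra.subset_adjoin (by simp)
  have hyR : y ∈ R := Algebra.subset_adjoin (by simp)
  have hRint : ∀ z ∈ R, v.adicValuation z ≤ 1 := fun z hz => val_le_one_of_mem_adjoin hx hy hz
  set w := y - algebraMap K F b with hw
  -- the equation, split at `x = c`
  choose a ha using hG
  set G₀ : K[X] := ∑ i ∈ Finset.range (G.natDegree + 1), C ((a i).eval c) * X ^ i with hG₀
  have hcoef : ∀ i, ∃ q ∈ R, G.coeff i = algebraMap K F ((a i).eval c) + s * q := fun i => by
    obtain ⟨q, hq⟩ := X_sub_C_dvd_sub_C_eval (a := c) (p := a i)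
    refine ⟨aeval x q, Algebra.adjoin_mono (by simp) (Polynomial.aeval_mem_adjoin_singleton K x),
      ?_⟩
    have h := congrArg (aeval x) hq
    simp only [map_sub, map_mul, aeval_X, aeval_C] at h
    rw [← ha i]
    linear_combination h
  choose qc hqR hqc using hcoef
  obtain ⟨U, hU, hGU⟩ : ∃ U ∈ R, aeval y G₀ = s * U := by
    refine ⟨-∑ i ∈ Finset.range (G.natDegree + 1), qc i * y ^ i,
      neg_mem (sum_mem fun i _ => mul_mem (hqR i) (pow_mem hyR i)), ?_⟩
    rw [eval_eq_sum_range] at hroot
    simp only [hqc, add_mul, Finset.sum_add_distrib, mul_assoc, ← Finset.mul_sum] at hroot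
    simp only [hG₀, map_sum, map_mul, map_pow, aeval_X, aeval_C]
    linear_combination hroot
  have hev : ∀ p : K[X], v.adicValuation (aeval y p - algebraMap K F (p.eval b)) < 1 := fun p => by
    obtain ⟨q, hq⟩ := X_sub_C_dvd_sub_C_eval (a := b) (p := p)
    have h := congrArg (aeval y) hq
    simp only [map_sub, map_mul, aeval_X, aeval_C] at h
    rw [h, map_mul]
    exact lt_of_le_of_lt ((mul_le_of_le_one_right' (val_aeval_le_one hy q)).trans hb)
      (by rw [← exp_zero, exp_lt_exp]; omega)
  have hroot₀ : G₀.eval b = 0 := by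
    by_contra hne
    have h1 := hev G₀
    rw [hGU, Valuation.map_sub_eq_of_lt_right, val_algebraMap_eq_one hne] at h1
    · exact lt_irrefl _ h1
    · rw [val_algebraMap_eq_one hne, map_mul]
      exact lt_of_le_of_lt ((mul_le_of_le_one_right' (hRint U hU)).trans hc)
        (by rw [← exp_zero, exp_lt_exp]; omega)
  obtain ⟨H, hH⟩ := dvd_iff_isRoot.mpr hroot₀
  have hGd : aeval y (derivative G₀) = aeval y H + w * aeval y (derivative H) := by
    rw [hH, derivative_mul, derivative_X_sub_C, one_mul, map_add, map_mul, hw]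
    simp
  have hwv : v.adicValuation w < 1 := lt_of_le_of_lt hb (by rw [← exp_zero, exp_lt_exp]; omega)
  have hsv : v.adicValuation s < 1 := lt_of_le_of_lt hc (by rw [← exp_zero, exp_lt_exp]; omega)
  have hG'dec : ∃ q, v.adicValuation q ≤ 1 ∧
      G.derivative.eval y = aeval y (derivative G₀) + s * q := by
    refine ⟨∑ i ∈ Finset.range (G.natDegree + 1), qc i * ((i : F) * y ^ (i - 1)), ?_, ?_⟩
    · refine Valuation.map_sum_le _ fun i _ => ?_
      rw [map_mul, map_mul, map_pow]
      refine mul_le_one' (hRint _ (hqR i)) (mul_le_one' ?_ (pow_le_one₀ zero_le hy))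
      rw [← map_natCast (algebraMap K F)]
      exact v.adicValuation_algebraMap_le_one _
    · rw [derivative_eval, sum_over_range _ (fun n => by simp)]
      simp only [hG₀, derivative_C_mul_X_pow, map_sum, map_mul, map_pow, aeval_X,
        aeval_C, map_natCast, Finset.mul_sum, ← Finset.sum_add_distrib, hqc]
      exact Finset.sum_congr rfl fun i _ => by ring
  obtain ⟨q, hq1, hq⟩ := hG'dec
  have hHv : v.adicValuation (aeval y H) = 1 := by
    refine le_antisymm (val_aeval_le_one hy H) (not_lt.mp fun hlt => ?_)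
    have : v.adicValuation (G.derivative.eval y) < 1 := by
      rw [hq, hGd]
      refine Valuation.map_add_lt _ (Valuation.map_add_lt _ hlt ?_) ?_
      · rw [map_mul]; exact lt_of_le_of_lt (mul_le_of_le_one_right' (val_aeval_le_one hy _)) hwv
      · rw [map_mul]; exact lt_of_le_of_lt (mul_le_of_le_one_right' hq1) hsv
    exact absurd hder this.ne
  have hHR : aeval y H ∈ R :=
    Algebra.adjoin_mono (by simp) (Polynomial.aeval_mem_adjoin_singleton K y)
  have hwH : w * aeval y H = s * U := by
    rw [← hGU, hH]; simp [hw]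
  have hdiv : ∀ z ∈ R, z ≠ 0 → e ∣ v.ord z := fun z hz hz0 =>
    dvd_ord_of_mem_adjoin hx hy hsv hwv hxc hHR hHv hU hwH hz hz0
  obtain ⟨t, ht⟩ := exists_uniformiser v
  have htmem : t ∈ IntermediateField.adjoin K ({x, y} : Set F) := htop ▸ IntermediateField.mem_top
  rw [IntermediateField.mem_adjoin_iff_div] at htmem
  obtain ⟨r₁, hr₁, r₂, hr₂, hr⟩ := htmem
  have h10 : r₁ ≠ 0 := fun h => uniformiser_ne_zero ht (by simp [hr, h])
  have h20 : r₂ ≠ 0 := fun h => uniformiser_ne_zero ht (by simp [hr, h])
  have hd1 : e ∣ 1 := by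
    rw [← ht, hr, div_eq_mul_inv, v.ord_mul h10 (inv_ne_zero h20), v.ord_inv]
    exact dvd_add (hdiv r₁ hr₁ h10) (dvd_neg.mpr (hdiv r₂ hr₂ h20))
  exact Int.eq_one_of_dvd_one (by omega) hd1

end Fermat.Agent.FF.Diff
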