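import Mathlib.RingTheory.Trace.Basic
import Fermat.Agent.FF.DiffOrd
import Fermat.Agent.FF.DiffUnramified

/-!
# The different at a place of the base (Euler's lemma)

For a finite separable extension `F/E` and a place `w` of `E` with uniformiser `s`, the
trace-dual of the semilocal integral ring over `w` is `{z | ord_v z ≥ -ord_v (ds)}`; no tameness
is needed.
-/

noncomputable section

open WithZero Polynomial AlgebraicCurve KaehlerDifferential
open scoped IntermediateField

namespace Fermat.Agent.FF.Diff

variable {K E F : Type*} [Field K] [Field E] [Field F] [Algebra K E] [Algebra K F] [Algebra E F]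
  [IsScalarTower K E F]

/-- The data of the fibre of a place `w` of `E` in `F`. -/
structure FiberData (w : Place K E) (S : Finset (Place K F)) (e : Place K F → ℕ) : Prop where
  residue_base : ConstResidue w
  regular : ∀ v ∈ S, RegularPlace v
  e_pos : ∀ v ∈ S, 0 < e v
  val_map : ∀ v ∈ S, ∀ a : E, v.adicValuation (algebraMap E F a) = w.adicValuation a ^ (e v)
  sum_e : ∑ v ∈ S, e v = Module.finrank E F
  approx : ∀ (a : Place K F → F) (N : ℕ), ∃ f : F, ∀ v ∈ S,
    v.adicValuation (f - a v) ≤ exp (-(N : ℤ))

theorem exp_neg_one_lt_one : exp (-1 : ℤ) < (1 : ℤᵐ⁰) := by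
  rw [← exp_zero, exp_lt_exp]; omega

/-- An element congruent to one of two constants modulo the maximal ideal determines it. -/
theorem const_unique {w : Place K E} {a : E} {c c' : K}
    (h : w.adicValuation (a - algebraMap K E c) ≤ exp (-1 : ℤ))
    (h' : w.adicValuation (a - algebraMap K E c') ≤ exp (-1 : ℤ)) : c = c' := by
  by_contra hne
  have h1 : w.adicValuation (algebraMap K E (c' - c)) ≤ exp (-1 : ℤ) := by
    rw [map_sub, show algebraMap K E c' - algebraMap K E c =
      (a - algebraMap K E c) - (a - algebraMap K E c') by ring]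
    exact (Valuation.map_sub _ _ _).trans (max_le h h')
  rw [val_algebraMap_eq_one (sub_ne_zero.mpr (Ne.symm hne))] at h1
  exact absurd (h1.trans_lt exp_neg_one_lt_one) (lt_irrefl _)

omit [Field E] [Algebra K E] [Algebra E F] [IsScalarTower K E F] in
/-- Differentiating with respect to a uniformiser lowers the order of vanishing by at most one. -/
theorem val_deriv_le_exp {v : Place K F} {t : F} (ht : v.ord t = 1) {d : Derivation K F F}
    (hd : d t = 1) (hO : ∀ f, v.adicValuation f ≤ 1 → v.adicValuation (d f) ≤ 1)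
    (L : ℕ) {f : F} (hf : v.adicValuation f ≤ exp (-(L : ℤ))) :
    v.adicValuation (d f) ≤ exp (-(L : ℤ) + 1) := by
  have ht0 := uniformiser_ne_zero ht
  have hu : v.adicValuation (f / t ^ L) ≤ 1 := by
    rw [map_div₀, map_pow, val_uniformiser ht, ← exp_nsmul, div_le_one₀ exp_pos]
    simpa using hf
  have hid : f = t ^ L * (f / t ^ L) := by field_simp
  rw [hid, Derivation.leibniz, Derivation.leibniz_pow, hd, smul_eq_mul, smul_eq_mul, nsmul_eq_mul,
    smul_eq_mul, mul_one]
  refine (Valuation.map_add _ _ _).trans (max_le ?_ ?_)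
  · rw [map_mul, map_pow, val_uniformiser ht, ← exp_nsmul]
    refine (mul_le_of_le_one_right' (hO _ hu)).trans ?_
    rw [exp_le_exp]; simp
  · rw [map_mul, map_mul, map_pow, val_uniformiser ht, ← exp_nsmul]
    refine (mul_le_of_le_one_left' hu).trans ((mul_le_of_le_one_left' ?_).trans ?_)
    · rw [← map_natCast (algebraMap K F)]; exact v.adicValuation_algebraMap_le_one _
    · rw [exp_le_exp]; simp; omega

namespace FiberData

variable {w : Place K E} {S : Finset (Place K F)} {e : Place K F → ℕ}
  (hD : FiberData w S e)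
include hD

omit [IsScalarTower K E F] in
/-- An element with distinct constant values and simple behaviour on the whole fibre. -/
theorem exists_generator [Infinite K] : ∃ (y : F) (b : Place K F → K),
    (∀ v ∈ S, ∀ v' ∈ S, b v = b v' → v = v') ∧
    ∀ v ∈ S, v.adicValuation (y - algebraMap K F (b v)) = exp (-1 : ℤ) := by
  classical
  obtain ⟨b, hb⟩ : ∃ b : Place K F → K, ∀ v ∈ S, ∀ v' ∈ S, b v = b v' → v = v' := by
    let emb := Infinite.natEmbedding K
    refine ⟨fun v => if h : v ∈ S then emb (S.equivFin ⟨v, h⟩) else 0, fun v hv v' hv' h => ?_⟩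
    simp only [hv, hv', dif_pos] at h
    have := S.equivFin.injective (Fin.ext (emb.injective h))
    exact congrArg Subtype.val this
  choose t ht using fun v : Place K F => exists_uniformiser v
  obtain ⟨y, hy⟩ := hD.approx (fun v => algebraMap K F (b v) + t v) 2
  refine ⟨y, b, hb, fun v hv => ?_⟩
  have h := hy v hv
  rw [show y - algebraMap K F (b v) = (y - (algebraMap K F (b v) + t v)) + t v by ring,
    Valuation.map_add_eq_of_lt_right, val_uniformiser (ht v)]
  rw [val_uniformiser (ht v)]
  refine h.trans_lt ?_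
  rw [exp_lt_exp]; omega

variable {y : F} {b : Place K F → K}
  (hb : ∀ v ∈ S, ∀ v' ∈ S, b v = b v' → v = v')
  (hy : ∀ v ∈ S, v.adicValuation (y - algebraMap K F (b v)) = exp (-1 : ℤ))
include hb hy

omit [Field E] [Algebra K E] [Algebra E F] [IsScalarTower K E F] hD hb in
theorem val_gen_le_one {v : Place K F} (hv : v ∈ S) : v.adicValuation y ≤ 1 := by
  rw [show y = (y - algebraMap K F (b v)) + algebraMap K F (b v) by ring]
  exact (Valuation.map_add _ _ _).trans
    (max_le ((hy v hv).le.trans exp_neg_one_lt_one.le) (v.adicValuation_algebraMap_le_one _))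

omit [Field E] [Algebra K E] [Algebra E F] [IsScalarTower K E F] hD hb in
/-- The order at `v` of a polynomial with constant coefficients evaluated at `y`. -/
theorem val_aeval_const {v : Place K F} (hv : v ∈ S) {p : K[X]} (hp : p ≠ 0) :
    v.adicValuation (aeval y p) = exp (-(p.rootMultiplicity (b v) : ℤ)) := by
  obtain ⟨q, hq, hndvd⟩ := p.exists_eq_pow_rootMultiplicity_mul_and_not_dvd hp (b v)
  have hqb : q.eval (b v) ≠ 0 := fun h => hndvd (dvd_iff_isRoot.mpr h)
  obtain ⟨r, hr⟩ := X_sub_C_dvd_sub_C_eval (a := b v) (p := q)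
  have hq1 : v.adicValuation (aeval y q) = 1 := by
    have h := congrArg (aeval y) hr
    simp only [map_sub, map_mul, aeval_X, aeval_C] at h
    rw [show aeval y q = algebraMap K F (q.eval (b v)) + (y - algebraMap K F (b v)) * aeval y r by
      rw [← h]; ring, Valuation.map_add_eq_of_lt_left, val_algebraMap_eq_one hqb]
    rw [val_algebraMap_eq_one hqb, map_mul, hy v hv]
    exact lt_of_le_of_lt (mul_le_of_le_one_right'
      (val_aeval_le_one (val_gen_le_one hy hv) r)) exp_neg_one_lt_one
  conv_lhs => rw [hq]
  rw [map_mul, map_pow, map_sub, aeval_X, aeval_C, map_mul, map_pow, hy v hv, hq1, mul_one,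
    ← exp_nsmul]
  simp

omit hb hy [IsScalarTower K E F] in
theorem val_map_le_exp {v : Place K F} (hv : v ∈ S) {a : E} {k : ℕ}
    (ha : w.adicValuation a ≤ exp (-(k : ℤ))) :
    v.adicValuation (algebraMap E F a) ≤ exp (-((k * e v : ℕ) : ℤ)) := by
  rw [hD.val_map v hv]
  refine (pow_le_pow_left' ha _).trans (le_of_eq ?_)
  rw [← exp_nsmul]
  congr 1
  push_cast
  ring

omit hb [IsScalarTower K E F] in
/-- Congruent coefficients give congruent values at `y`. -/
theorem val_aeval_le_of_coeff {v : Place K F} (hv : v ∈ S) {p : E[X]} {k : ℕ}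
    (h : ∀ i, w.adicValuation (p.coeff i) ≤ exp (-(k : ℤ))) :
    v.adicValuation (aeval y p) ≤ exp (-((k * e v : ℕ) : ℤ)) := by
  rw [aeval_eq_sum_range]
  refine Valuation.map_sum_le _ fun i _ => ?_
  rw [Algebra.smul_def, map_mul, map_pow]
  exact (mul_le_of_le_one_right' (pow_le_one₀ zero_le (val_gen_le_one hy hv))).trans
    (hD.val_map_le_exp hv (h i))

/-- A polynomial of degree `< n` with unit content does not vanish deeply on the whole fibre. -/
theorem exists_val_gt {p : E[X]} (hdeg : p.degree < (Module.finrank E F : WithBot ℕ))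
    (hle : ∀ i, w.adicValuation (p.coeff i) ≤ 1) (hone : ∃ i, w.adicValuation (p.coeff i) = 1) :
    ∃ v ∈ S, exp (-(e v : ℤ)) < v.adicValuation (aeval y p) := by
  classical
  choose c hc using fun i => hD.residue_base (p.coeff i) (hle i)
  obtain ⟨i₀, hi₀⟩ := hone
  have hn : p.natDegree < Module.finrank E F := by
    rcases eq_or_ne p 0 with rfl | hp
    · simp at hi₀
    · exact (natDegree_lt_iff_degree_lt hp).mpr hdeg
  set P : K[X] := ∑ i ∈ Finset.range (Module.finrank E F), C (c i) * X ^ i with hP
  have hPcoeff : ∀ i, P.coeff i = if i < Module.finrank E F then c i else 0 := fun i => by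
    simp [hP, finsetSum_coeff]
  have hi₀n : i₀ < Module.finrank E F := by
    by_contra h
    rw [coeff_eq_zero_of_natDegree_lt (by omega), map_zero] at hi₀
    exact zero_ne_one hi₀
  have hP0 : P ≠ 0 := by
    intro h0
    have h := hPcoeff i₀
    rw [h0, coeff_zero, if_pos hi₀n] at h
    have h' := hc i₀
    rw [← h, map_zero, sub_zero, hi₀] at h'
    exact absurd (h'.trans_lt exp_neg_one_lt_one) (lt_irrefl _)
  have hPdeg : P.natDegree < Module.finrank E F := by
    rw [natDegree_lt_iff_degree_lt hP0, degree_lt_iff_coeff_zero]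
    intro i hi
    rw [hPcoeff, if_neg (by omega)]
  obtain ⟨v, hv, hvm⟩ : ∃ v ∈ S, P.rootMultiplicity (b v) < e v := by
    by_contra hcon
    simp only [not_exists, not_and, not_lt] at hcon
    have hdvd : (∏ v ∈ S, (X - C (b v)) ^ e v) ∣ P := by
      refine Finset.prod_dvd_of_coprime ?_ fun v hv =>
        (pow_dvd_pow _ (hcon v hv)).trans (pow_rootMultiplicity_dvd P (b v))
      intro v hv v' hv' hne
      exact (isCoprime_X_sub_C_of_isUnit_sub
        (sub_ne_zero.mpr fun h => hne (hb v hv v' hv' h)).isUnit).pow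
    have hle' := natDegree_le_of_dvd hdvd hP0
    rw [natDegree_prod _ _ fun v _ => pow_ne_zero _ (X_sub_C_ne_zero _)] at hle'
    simp only [natDegree_pow, natDegree_X_sub_C, mul_one] at hle'
    have := hD.sum_e
    omega
  refine ⟨v, hv, ?_⟩
  have hdiff : v.adicValuation (aeval y p - aeval y P) ≤ exp (-((1 * e v : ℕ) : ℤ)) := by
    rw [← aeval_map_algebraMap E y P, ← map_sub]
    refine hD.val_aeval_le_of_coeff hy hv fun i => ?_
    rw [coeff_sub, coeff_map, hPcoeff]
    by_cases hi : i < Module.finrank E F
    · rw [if_pos hi]; exact hc i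
    · rw [if_neg hi, coeff_eq_zero_of_natDegree_lt (by omega), map_zero, sub_zero, map_zero]
      exact zero_le
  rw [one_mul] at hdiff
  have hval := val_aeval_const hy hv hP0
  have hlt : exp (-(e v : ℤ)) < v.adicValuation (aeval y P) := by
    rw [hval, exp_lt_exp]; omega
  rw [show aeval y p = aeval y P + (aeval y p - aeval y P) by ring,
    Valuation.map_add_eq_of_lt_left _ (hdiff.trans_lt hlt)]
  exact hlt

/-- Polynomials of degree `< n`: non-vanishing, and integral values force integral coefficients. -/
theorem coeff_le_one {p : E[X]} (hdeg : p.degree < (Module.finrank E F : WithBot ℕ)) (hp : p ≠ 0) :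
    aeval y p ≠ 0 ∧
      ((∀ v ∈ S, v.adicValuation (aeval y p) ≤ 1) → ∀ i, w.adicValuation (p.coeff i) ≤ 1) := by
  obtain ⟨i₀, hi₀, hmax⟩ := p.support.exists_max_image (fun i => w.adicValuation (p.coeff i))
    (support_nonempty.mpr hp)
  set a := p.coeff i₀ with ha
  have ha0 : a ≠ 0 := mem_support_iff.mp hi₀
  have hmax' : ∀ i, w.adicValuation (p.coeff i) ≤ w.adicValuation a := fun i => by
    by_cases hi : i ∈ p.support
    · exact hmax i hi
    · rw [notMem_support_iff.mp hi, map_zero]; exact zero_le
  have hwa : 0 < w.adicValuation a := zero_lt_iff.mpr (w.adicValuation_ne_zero ha0)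
  obtain ⟨v, hv, hvgt⟩ := hD.exists_val_gt hb hy (p := C a⁻¹ * p)
    (by rwa [degree_C_mul (inv_ne_zero ha0)])
    (fun i => by
      rw [coeff_C_mul, map_mul, map_inv₀, inv_mul_le_iff₀ hwa, mul_one]
      exact hmax' i)
    ⟨i₀, by rw [coeff_C_mul, ← ha, inv_mul_cancel₀ ha0, map_one]⟩
  rw [map_mul, aeval_C, map_mul, map_inv₀, map_inv₀, hD.val_map v hv,
    lt_inv_mul_iff₀ (pow_pos hwa _)] at hvgt
  refine ⟨fun h => ?_, fun hle i => (hmax' i).trans (not_lt.mp fun hgt => ?_)⟩
  · rw [h, map_zero] at hvgt
    exact (not_lt.mpr zero_le) hvgt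
  · have h1 : exp (e v : ℤ) ≤ w.adicValuation a ^ e v := by
      have : exp (1 : ℤ) ≤ w.adicValuation a := by
        rw [val_eq_exp ha0, ← exp_zero, exp_lt_exp] at hgt
        rw [val_eq_exp ha0, exp_le_exp]
        omega
      refine le_trans (le_of_eq ?_) (pow_le_pow_left' this _)
      rw [← exp_nsmul]; simp
    have h2 := lt_of_lt_of_le hvgt (hle v hv)
    have h3 : (1 : ℤᵐ⁰) ≤ w.adicValuation a ^ e v * exp (-(e v : ℤ)) := by
      refine le_trans (le_of_eq ?_) (mul_le_mul_left h1 _)
      rw [← exp_add, add_neg_cancel, exp_zero]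
    exact absurd (h3.trans_lt h2) (lt_irrefl _)

variable [FiniteDimensional E F]

theorem natDegree_minpoly : (minpoly E y).natDegree = Module.finrank E F := by
  refine le_antisymm (minpoly.natDegree_le y) (not_lt.mp fun h => ?_)
  have hne := minpoly.ne_zero (IsIntegral.of_finite E y)
  exact (hD.coeff_le_one hb hy ((natDegree_lt_iff_degree_lt hne).mp h) hne).1 (minpoly.aeval E y)

theorem coeff_minpoly_le_one (i : ℕ) : w.adicValuation ((minpoly E y).coeff i) ≤ 1 := by
  set n := Module.finrank E F with hn
  have hmon := minpoly.monic (IsIntegral.of_finite E y)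
  have hnd : (minpoly E y).natDegree = n := hD.natDegree_minpoly hb hy
  set p := X ^ n - minpoly E y with hp
  have hdeg : p.degree < (n : WithBot ℕ) := by
    rw [degree_lt_iff_coeff_zero]
    intro m hm
    rw [hp, coeff_sub, coeff_X_pow]
    rcases eq_or_ne m n with rfl | hne
    · rw [if_pos rfl, ← hnd, hmon.coeff_natDegree, sub_self]
    · rw [if_neg hne, coeff_eq_zero_of_natDegree_lt (by omega), sub_zero]
  have hcoef : w.adicValuation (p.coeff i) ≤ 1 := by
    rcases eq_or_ne p 0 with h0 | h0
    · rw [h0, coeff_zero, map_zero]; exact zero_le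
    · refine (hD.coeff_le_one hb hy hdeg h0).2 (fun v hv => ?_) i
      rw [hp, map_sub, map_pow, aeval_X, minpoly.aeval, sub_zero, map_pow]
      exact pow_le_one₀ zero_le (val_gen_le_one hy hv)
  rw [show (minpoly E y).coeff i = (X ^ n : E[X]).coeff i - p.coeff i by
    rw [hp, coeff_sub]; ring]
  refine (Valuation.map_sub _ _ _).trans (max_le ?_ hcoef)
  rw [coeff_X_pow]
  split <;> simp

/-- The reduction of the minimal polynomial of `y`. -/
theorem coeff_minpoly_congr (i : ℕ) :
    w.adicValuation ((minpoly E y).coeff i -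
      algebraMap K E ((∏ v ∈ S, (X - C (b v)) ^ e v).coeff i)) ≤ exp (-1 : ℤ) := by
  set n := Module.finrank E F with hn
  have hnd : (minpoly E y).natDegree = n := hD.natDegree_minpoly hb hy
  have hmon := minpoly.monic (IsIntegral.of_finite E y)
  set Q : K[X] := ∏ v ∈ S, (X - C (b v)) ^ e v with hQ
  have hQm : Q.Monic := monic_prod_of_monic _ _ fun v _ => (monic_X_sub_C _).pow _
  have hQd : Q.natDegree = n := by
    rw [hQ, natDegree_prod_of_monic _ _ fun v _ => (monic_X_sub_C _).pow _]
    simp [hn, hD.sum_e]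
  choose c hc using fun j => hD.residue_base ((minpoly E y).coeff j)
      (hD.coeff_minpoly_le_one hb hy j)
  suffices h : ∀ j, c j = Q.coeff j by rw [← h i]; exact hc i
  have hhigh : ∀ j, n ≤ j → c j = Q.coeff j := fun j hj => by
    refine const_unique (hc j) ?_
    rcases eq_or_ne j n with rfl | hne
    · rw [show (minpoly E y).coeff n = 1 from hnd ▸ hmon.coeff_natDegree, ← hQd,
        hQm.coeff_natDegree, map_one, sub_self, map_zero]
      exact zero_le
    · rw [coeff_eq_zero_of_natDegree_lt (by omega), coeff_eq_zero_of_natDegree_lt (by omega),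
        map_zero, sub_zero, map_zero]
      exact zero_le
  intro j
  by_contra hne
  have hj : j < n := not_le.mp fun h => hne (hhigh j h)
  set p : E[X] := ∑ i ∈ Finset.range n, C (algebraMap K E (c i - Q.coeff i)) * X ^ i with hp
  have hpc : ∀ i, p.coeff i = algebraMap K E (c i - Q.coeff i) := fun i => by
    rw [hp, finsetSum_coeff]
    simp only [coeff_C_mul_X_pow, Finset.sum_ite_eq, Finset.mem_range]
    by_cases hi : i < n
    · rw [if_pos hi]
    · rw [if_neg hi, hhigh i (not_lt.mp hi), sub_self, map_zero]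
  obtain ⟨v, hv, hgt⟩ := hD.exists_val_gt hb hy (p := p)
    (by
      rw [degree_lt_iff_coeff_zero]
      intro i hi
      rw [hpc, hhigh i hi, sub_self, map_zero])
    (fun i => by rw [hpc]; exact w.adicValuation_algebraMap_le_one _)
    ⟨j, by rw [hpc]; exact val_algebraMap_eq_one (sub_ne_zero.mpr hne)⟩
  refine (not_le.mpr hgt) ?_
  have hid : p = (p - minpoly E y + Q.map (algebraMap K E)) +
      (minpoly E y - Q.map (algebraMap K E)) := by ring
  rw [hid, map_add, map_sub (aeval y) (minpoly E y), minpoly.aeval, zero_sub, aeval_map_algebraMap]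
  refine (Valuation.map_add _ _ _).trans (max_le ?_ ?_)
  · refine (hD.val_aeval_le_of_coeff hy hv (k := 1) fun i => ?_).trans (by simp)
    rw [coeff_add, coeff_sub, coeff_map, hpc, map_sub,
      show algebraMap K E (c i) - algebraMap K E (Q.coeff i) - (minpoly E y).coeff i +
        algebraMap K E (Q.coeff i) = -((minpoly E y).coeff i - algebraMap K E (c i)) by ring,
      Valuation.map_neg]
    exact hc i
  · rw [Valuation.map_neg, val_aeval_const hy hv hQm.ne_zero, exp_le_exp]
    have : e v ≤ Q.rootMultiplicity (b v) := (le_rootMultiplicity_iff hQm.ne_zero).mpr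
      (Finset.dvd_prod_of_mem (fun v => (X - C (b v)) ^ e v) hv)
    omega

omit [Field E] [Algebra K E] [Algebra E F] [IsScalarTower K E F] hD hy [FiniteDimensional E F] hb in
theorem rootMultiplicity_prod {v : Place K F} (hv : v ∈ S)
    (hb : ∀ v ∈ S, ∀ v' ∈ S, b v = b v' → v = v') :
    (∏ u ∈ S, (X - C (b u)) ^ e u).rootMultiplicity (b v) = e v := by
  classical
  rw [← Finset.mul_prod_erase _ _ hv, rootMultiplicity_mul, rootMultiplicity_X_sub_C_pow,
    rootMultiplicity_eq_zero, add_zero]
  · simp only [IsRoot.def, eval_prod, Finset.prod_eq_zero_iff, eval_pow, eval_sub, eval_X, eval_C,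
      not_exists, not_and]
    intro u hu h
    have hu' := Finset.mem_erase.mp hu
    exact hu'.1 (hb v hv u hu'.2 (sub_eq_zero.mp (pow_eq_zero_iff'.mp h).1)).symm
  · refine mul_ne_zero (pow_ne_zero _ (X_sub_C_ne_zero _)) ?_
    exact Finset.prod_ne_zero_iff.mpr fun u _ => pow_ne_zero _ (X_sub_C_ne_zero _)

variable [Nontrivial Ω[F⁄K]]

omit [Nontrivial Ω[F⁄K]] in
/-- If `q i` approximates the `i`-th coefficient of the minimal polynomial of `y` as a polynomial
in `s`, then the coefficients of `s` in the `q i` give a unit at `v` when evaluated at `y`. -/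
theorem val_aeval_linear_part {s : E} (hs : w.ord s = 1)
    {v : Place K F} (hv : v ∈ S) {M : ℕ} (hM : 2 ≤ M) {q r : ℕ → K[X]}
    (hq : ∀ i, w.adicValuation ((minpoly E y).coeff i - aeval s (q i)) ≤ exp (-(M : ℤ)))
    (hq0 : ∀ i, (q i).eval 0 = (∏ u ∈ S, (X - C (b u)) ^ e u).coeff i)
    (hr : ∀ i, q i - C ((q i).eval 0) = X * r i)
    (hr0 : ∀ i, (r i).coeff 0 = (q i).coeff 1) :
    v.adicValuation (aeval y (∑ i ∈ Finset.range (Module.finrank E F + 1),
      C ((q i).coeff 1) * X ^ i)) = 1 := by
  classical
  set n := Module.finrank E F with hn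
  set f := minpoly E y with hf
  set Q : K[X] := ∏ u ∈ S, (X - C (b u)) ^ e u with hQ
  set κ : K[X] := ∑ i ∈ Finset.range (n + 1), C ((q i).coeff 1) * X ^ i with hκ
  set s' := algebraMap E F s with hs'
  have hy1 := val_gen_le_one hy hv
  have hev := hD.e_pos v hv
  have hs'1 : v.adicValuation s' = exp (-(e v : ℤ)) := by
    rw [hs', hD.val_map v hv, val_uniformiser hs, ← exp_nsmul]; simp
  have hs'le : v.adicValuation s' ≤ 1 := by
    rw [hs'1, ← exp_zero, exp_le_exp]; omega
  have hfsum : ∑ i ∈ Finset.range (n + 1), algebraMap E F (f.coeff i) * y ^ i = 0 := by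
    have h := minpoly.aeval E y
    rw [aeval_eq_sum_range, hD.natDegree_minpoly hb hy] at h
    simpa [Algebra.smul_def] using h
  refine le_antisymm (val_aeval_le_one hy1 κ) (not_lt.mp fun hlt => ?_)
  -- the equation modulo `s²`
  have hQval : v.adicValuation (aeval y Q) = exp (-(e v : ℤ)) := by
    rw [val_aeval_const hy hv
        (monic_prod_of_monic _ _ fun u _ => (monic_X_sub_C _).pow _).ne_zero,
      rootMultiplicity_prod hv hb]
  have hQsum : aeval y Q = ∑ i ∈ Finset.range (n + 1), algebraMap K F (Q.coeff i) * y ^ i := by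
    rw [aeval_eq_sum_range' (n := n + 1)]
    · simp [Algebra.smul_def]
    · rw [hQ, natDegree_prod_of_monic _ _ fun u _ => (monic_X_sub_C _).pow _]
      simp [hn, hD.sum_e]
  have hrest : v.adicValuation (∑ i ∈ Finset.range (n + 1),
      (algebraMap E F (f.coeff i) - algebraMap K F (Q.coeff i)) * y ^ i) <
        exp (-(e v : ℤ)) := by
    have hdec : ∀ i, algebraMap E F (f.coeff i) - algebraMap K F (Q.coeff i) =
        algebraMap E F (f.coeff i - aeval s (q i)) + s' * (aeval s' (r i) -
          algebraMap K F ((q i).coeff 1)) + s' * algebraMap K F ((q i).coeff 1) := fun i => by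
      have h := congrArg (aeval s') (hr i)
      simp only [map_sub, map_mul, aeval_X, aeval_C, hq0] at h
      rw [map_sub, ← aeval_algebraMap_apply, ← hs']
      linear_combination h
    simp only [hdec, add_mul, Finset.sum_add_distrib, mul_assoc, ← Finset.mul_sum]
    refine Valuation.map_add_lt _ (Valuation.map_add_lt _ ?_ ?_) ?_
    · refine Valuation.map_sum_lt _ exp_ne_zero fun i _ => ?_
      rw [map_mul, map_pow]
      refine lt_of_le_of_lt ((mul_le_of_le_one_right' (pow_le_one₀ zero_le hy1)).trans
        (hD.val_map_le_exp hv (hq i))) ?_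
      rw [exp_lt_exp, neg_lt_neg_iff]
      exact_mod_cast lt_of_lt_of_le (by omega : e v < 2 * e v)
        (Nat.mul_le_mul_right _ (by omega))
    · rw [map_mul, hs'1]
      refine mul_lt_of_lt_one_right (exp_pos) (Valuation.map_sum_lt _ one_ne_zero fun i _ => ?_)
      obtain ⟨r', hr'⟩ := X_sub_C_dvd_sub_C_eval (a := (0 : K)) (p := r i)
      have h := congrArg (aeval s') hr'
      simp only [map_sub, map_mul, aeval_X, aeval_C, map_zero, sub_zero,
        ← coeff_zero_eq_eval_zero, hr0] at h
      rw [h, map_mul, map_mul, map_pow, hs'1]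
      refine lt_of_le_of_lt (mul_le_of_le_one_right' (pow_le_one₀ zero_le hy1)) ?_
      refine lt_of_le_of_lt (mul_le_of_le_one_right' (val_aeval_le_one hs'le r')) ?_
      rw [← exp_zero, exp_lt_exp]; omega
    · rw [map_mul, hs'1]
      refine mul_lt_of_lt_one_right (exp_pos) ?_
      simpa [hκ] using hlt
  simp only [sub_mul, Finset.sum_sub_distrib, hfsum, zero_sub, Valuation.map_neg, ← hQsum,
    hQval] at hrest
  exact lt_irrefl _ hrest

/-- `f'(y)` has the same order as `ds`. -/
theorem val_derivative_minpoly {s : E} (hs : w.ord s = 1)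
    {v : Place K F} (hv : v ∈ S) (hds : D K F (algebraMap E F s) ≠ 0) :
    v.adicValuation (aeval y (derivative (minpoly E y))) =
      exp (-v.ordDifferential (D K F (algebraMap E F s))) := by
  classical
  have hreg := hD.regular v hv
  obtain ⟨t, ht⟩ := exists_uniformiser v
  obtain ⟨d, hd, hd', hO⟩ := hreg.exists_deriv ht
  set s' := algebraMap E F s with hs'
  have hds0 : d s' ≠ 0 := fun h => hds (by rw [hd', h, zero_smul])
  rw [hd' s', hreg.ordDifferential_smul_D_uniformiser ht, ← val_eq_exp hds0]
  have hy1 := val_gen_le_one hy hv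
  have hev := hD.e_pos v hv
  have hdy : v.adicValuation (d y) = 1 := by
    have hne : y - algebraMap K F (b v) ≠ 0 := fun h => by
      have := hy v hv
      rw [h, map_zero] at this
      exact exp_ne_zero this.symm
    have hord : v.ord (y - algebraMap K F (b v)) = 1 := by
      have := hy v hv
      rw [val_eq_exp hne] at this
      have := WithZero.exp_inj.mp this
      omega
    obtain ⟨ho, h0⟩ := ord_deriv_of_ne ht hd hO (f := y - algebraMap K F (b v))
      (by simp [hord])
    rw [map_sub, Derivation.map_algebraMap, sub_zero, hord] at ho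
    rw [map_sub, Derivation.map_algebraMap, sub_zero] at h0
    rw [val_eq_exp h0, ho, sub_self, neg_zero, exp_zero]
  -- approximate the coefficients by polynomials in `s`
  set f := minpoly E y with hf
  set M : ℕ := (v.ord (d s')).natAbs + 2 with hM
  choose q hq using fun i => exists_polynomial_approx hD.residue_base hs
    (hD.coeff_minpoly_le_one hb hy i) M
  set n := Module.finrank E F with hn
  set Q : K[X] := ∏ u ∈ S, (X - C (b u)) ^ e u with hQ
  have hs1 : w.adicValuation s = exp (-1 : ℤ) := val_uniformiser hs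
  have hs'1 : v.adicValuation s' = exp (-(e v : ℤ)) := by
    rw [hs', hD.val_map v hv, hs1, ← exp_nsmul]; simp
  have hs'le : v.adicValuation s' ≤ 1 := by
    rw [hs'1, ← exp_zero, exp_le_exp]; omega
  have hq0 : ∀ i, (q i).eval 0 = Q.coeff i := fun i => by
    refine const_unique ?_ (hD.coeff_minpoly_congr hb hy i)
    obtain ⟨r, hr⟩ := X_sub_C_dvd_sub_C_eval (a := (0 : K)) (p := q i)
    have h := congrArg (aeval s) hr
    simp only [map_sub, map_mul, aeval_X, aeval_C, map_zero, sub_zero] at h
    rw [show f.coeff i - algebraMap K E ((q i).eval 0)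
      = (f.coeff i - aeval s (q i)) + s * aeval s r by rw [← h]; ring]
    refine (Valuation.map_add _ _ _).trans (max_le ((hq i).trans ?_) ?_)
    · rw [exp_le_exp]; omega
    · rw [map_mul, hs1]
      exact mul_le_of_le_one_right' (val_aeval_le_one (hs1.le.trans exp_neg_one_lt_one.le) r)
  set A : F := ∑ i ∈ Finset.range (n + 1), aeval s' (derivative (q i)) * y ^ i with hA
  have hMlt : exp (-(M : ℤ) + 1) < v.adicValuation (d s') := by
    rw [val_eq_exp hds0, exp_lt_exp]; omega
  have hderiv : aeval y (derivative f) * d y +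
      ∑ i ∈ Finset.range (n + 1), d (algebraMap E F (f.coeff i)) * y ^ i = 0 := by
    obtain ⟨G, hGc, hG⟩ := exists_deriv_eval d (f.map (algebraMap E F))
    have h := hG y
    rw [eval_map_algebraMap, derivative_map, eval_map_algebraMap, minpoly.aeval, map_zero] at h
    have hGdeg : G.natDegree < n + 1 := by
      refine lt_of_le_of_lt (natDegree_le_iff_coeff_eq_zero.mpr fun i hi => ?_) (Nat.lt_succ_self n)
      rw [hGc, coeff_map, coeff_eq_zero_of_natDegree_lt
        (by rw [hD.natDegree_minpoly hb hy]; omega), map_zero, map_zero]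
    rw [eval_eq_sum_range' hGdeg] at h
    simp only [hGc, coeff_map] at h
    linear_combination -h
  have hB : v.adicValuation ((∑ i ∈ Finset.range (n + 1), d (algebraMap E F (f.coeff i)) * y ^ i) -
      d s' * A) ≤ exp (-(M : ℤ) + 1) := by
    rw [hA, Finset.mul_sum, ← Finset.sum_sub_distrib]
    refine Valuation.map_sum_le _ fun i _ => ?_
    rw [← mul_assoc, ← sub_mul, map_mul, map_pow]
    refine (mul_le_of_le_one_right' (pow_le_one₀ zero_le hy1)).trans ?_
    have h1 : d (aeval s' (q i)) = aeval s' (derivative (q i)) * d s' := by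
      rw [Derivation.map_aeval, smul_eq_mul]
    rw [mul_comm (d s'), ← h1, hs', aeval_algebraMap_apply, ← map_sub, ← map_sub]
    refine val_deriv_le_exp ht hd hO M ((hD.val_map_le_exp hv (hq i)).trans ?_)
    rw [exp_le_exp, neg_le_neg_iff]
    exact_mod_cast Nat.le_mul_of_pos_right M hev
  -- `A` is a unit
  set κ : K[X] := ∑ i ∈ Finset.range (n + 1), C ((q i).coeff 1) * X ^ i with hκ
  have hdvd : ∀ i, X ∣ q i - C ((q i).eval 0) := fun i => by
    simpa using X_sub_C_dvd_sub_C_eval (a := (0 : K)) (p := q i)
  choose r hr using hdvd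
  have hr0 : ∀ i, (r i).coeff 0 = (q i).coeff 1 := fun i => by
    have h := congrArg (fun p => coeff p 1) (hr i)
    simpa [coeff_C] using h.symm
  have hAκ : v.adicValuation (A - aeval y κ) ≤ exp (-(e v : ℤ)) := by
    rw [hA, hκ, map_sum, ← Finset.sum_sub_distrib]
    refine Valuation.map_sum_le _ fun i _ => ?_
    rw [map_mul, map_pow, aeval_C, aeval_X, ← sub_mul, map_mul, map_pow]
    refine (mul_le_of_le_one_right' (pow_le_one₀ zero_le hy1)).trans ?_
    obtain ⟨r', hr'⟩ := X_sub_C_dvd_sub_C_eval (a := (0 : K)) (p := derivative (q i))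
    have hd1 : (derivative (q i)).eval 0 = (q i).coeff 1 := by
      rw [← coeff_zero_eq_eval_zero, coeff_derivative]; simp
    have h := congrArg (aeval s') hr'
    simp only [map_sub, map_mul, aeval_X, aeval_C, map_zero, sub_zero, hd1] at h
    rw [h, map_mul, hs'1]
    exact mul_le_of_le_one_right' (val_aeval_le_one hs'le r')
  have hκ1 : v.adicValuation (aeval y κ) = 1 :=
    hD.val_aeval_linear_part hb hy hs hv (by omega) hq hq0 hr hr0
  have hAval : v.adicValuation A = 1 := by
    rw [show A = aeval y κ + (A - aeval y κ) by ring, Valuation.map_add_eq_of_lt_left, hκ1]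
    rw [hκ1]
    refine hAκ.trans_lt ?_
    rw [← exp_zero, exp_lt_exp]; omega
  have hsumval : v.adicValuation (∑ i ∈ Finset.range (n + 1),
      d (algebraMap E F (f.coeff i)) * y ^ i) = v.adicValuation (d s') := by
    have h1 : v.adicValuation (d s' * A) = v.adicValuation (d s') := by rw [map_mul, hAval, mul_one]
    rw [show (∑ i ∈ Finset.range (n + 1), d (algebraMap E F (f.coeff i)) * y ^ i) = d s' * A +
      ((∑ i ∈ Finset.range (n + 1), d (algebraMap E F (f.coeff i)) * y ^ i) - d s' * A) by ring,
      Valuation.map_add_eq_of_lt_left, h1]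
    rw [h1]
    exact hB.trans_lt hMlt
  rw [← hsumval, ← Valuation.map_neg v.adicValuation (∑ i ∈ _, _),
    ← eq_neg_of_add_eq_zero_left hderiv, map_mul, hdy, mul_one]

omit [Nontrivial Ω[F⁄K]] in
/-- Euler's lemma: for `deg g < n`, the trace of `g(y) / f'(y)` is the coefficient `gₙ₋₁`. -/
theorem trace_aeval_div [Algebra.IsSeparable E F] (g : E[X])
    (hg : g.degree < (Module.finrank E F : WithBot ℕ)) :
    Algebra.trace E F (aeval y g / aeval y (derivative (minpoly E y))) =
      g.coeff (Module.finrank E F - 1) := by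
  classical
  set n := Module.finrank E F with hn
  have hint := IsIntegral.of_finite E y
  have hnd : (minpoly E y).natDegree = n := hD.natDegree_minpoly hb hy
  have htop : Algebra.adjoin E ({y} : Set F) = ⊤ := by
    rw [← IntermediateField.adjoin_simple_toSubalgebra_of_isAlgebraic hint.isAlgebraic,
      (Field.primitive_element_iff_minpoly_natDegree_eq E y).mpr hnd,
      IntermediateField.top_toSubalgebra]
  have hpow : ∀ r < n, Algebra.trace E F (y ^ r / aeval y (derivative (minpoly E y))) =
      if r = n - 1 then 1 else 0 := by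
    intro r hr
    apply (algebraMap E (AlgebraicClosure E)).injective
    have h := congr_arg (coeff · (n - 1))
      (sum_smul_minpolyDiv_eq_X_pow (AlgebraicClosure E) htop hr)
    have hc : (minpolyDiv E y).coeff (n - 1) = 1 := by
      rw [← hnd, ← natDegree_minpolyDiv]
      exact (minpolyDiv_monic hint).leadingCoeff
    simp only [Polynomial.map_smul, finsetSum_coeff, coeff_smul, coeff_map, hc, map_one,
      smul_eq_mul, mul_one, coeff_X_pow] at h
    rw [trace_eq_sum_embeddings (E := AlgebraicClosure E)]
    simp only [RingHom.coe_coe] at h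
    rw [h, MonoidWithZeroHom.map_ite_one_zero]
    exact if_congr eq_comm rfl rfl
  rw [aeval_eq_sum_range' (n := n)]
  · rw [Finset.sum_div, map_sum]
    simp only [smul_div_assoc, map_smul]
    rw [Finset.sum_congr rfl fun r hr => by rw [hpow r (Finset.mem_range.mp hr)]]
    have hnpos : 0 < n := Module.finrank_pos
    simp only [smul_eq_mul, mul_ite, mul_one, mul_zero, Finset.sum_ite_eq', Finset.mem_range]
    rw [if_pos (by omega)]
  · rcases eq_or_ne g 0 with rfl | hg0
    · simpa using Module.finrank_pos
    · exact (natDegree_lt_iff_degree_lt hg0).mpr hg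

end FiberData

/-- Elements bounded by the different have integral trace. -/
theorem FiberData.val_trace_le_one [Infinite K] [FiniteDimensional E F] [Algebra.IsSeparable E F]
    [Nontrivial Ω[F⁄K]] {w : Place K E} {S : Finset (Place K F)} {e : Place K F → ℕ}
    (hD : FiberData w S e) {s : E} (hs : w.ord s = 1) (hds : D K F (algebraMap E F s) ≠ 0)
    {z : F} (hz : ∀ v ∈ S,
      v.adicValuation z ≤ exp (v.ordDifferential (D K F (algebraMap E F s)))) :
    w.adicValuation (Algebra.trace E F z) ≤ 1 := by
  classical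
  obtain ⟨y, b, hb, hy⟩ := hD.exists_generator
  have hint := IsIntegral.of_finite E y
  have hnd := hD.natDegree_minpoly hb hy
  set δ := aeval y (derivative (minpoly E y)) with hδ
  have hδ0 : δ ≠ 0 :=
    (Algebra.IsSeparable.isSeparable E y).aeval_derivative_ne_zero (minpoly.aeval E y)
  obtain ⟨g, hg⟩ : ∃ g : E[X], aeval y g = z * δ := by
    have htop : Algebra.adjoin E ({y} : Set F) = ⊤ := by
      rw [← IntermediateField.adjoin_simple_toSubalgebra_of_isAlgebraic hint.isAlgebraic,
        (Field.primitive_element_iff_minpoly_natDegree_eq E y).mpr hnd,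
        IntermediateField.top_toSubalgebra]
    have : z * δ ∈ Algebra.adjoin E ({y} : Set F) := htop ▸ Algebra.mem_top
    rwa [Algebra.adjoin_singleton_eq_range_aeval] at this
  set g₁ := g %ₘ minpoly E y with hg₁
  have hg₁y : aeval y g₁ = z * δ := by
    rw [hg₁, modByMonic_eq_sub_mul_div, map_sub, map_mul, minpoly.aeval,
      zero_mul, sub_zero, hg]
  have hg₁d : g₁.degree < (Module.finrank E F : WithBot ℕ) := by
    have := degree_modByMonic_lt g (minpoly.monic hint)
    rwa [degree_eq_natDegree (minpoly.ne_zero hint), hnd] at this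
  rw [show z = aeval y g₁ / δ by rw [hg₁y]; field_simp, hD.trace_aeval_div hb hy g₁ hg₁d]
  rcases eq_or_ne g₁ 0 with h0 | h0
  · rw [h0, coeff_zero, map_zero]; exact zero_le
  refine (hD.coeff_le_one hb hy hg₁d h0).2 (fun v hv => ?_) _
  rw [hg₁y, map_mul, hD.val_derivative_minpoly hb hy hs hv hds]
  refine (mul_le_mul_left (hz v hv) _).trans ?_
  rw [← exp_add, add_neg_cancel, exp_zero]

/-- The different is the largest such bound. -/
theorem FiberData.exists_trace_pole [Infinite K] [FiniteDimensional E F]
    [Algebra.IsSeparable E F] [Nontrivial Ω[F⁄K]] {w : Place K E} {S : Finset (Place K F)}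
    {e : Place K F → ℕ} (hD : FiberData w S e) {s : E} (hs : w.ord s = 1)
    (hds : D K F (algebraMap E F s) ≠ 0) {P : Place K F} (hP : P ∈ S) :
    ∃ z : F, (∀ v ∈ S, v ≠ P →
        v.adicValuation z ≤ exp (v.ordDifferential (D K F (algebraMap E F s)))) ∧
      P.adicValuation z ≤ exp (P.ordDifferential (D K F (algebraMap E F s)) + 1) ∧
      Algebra.trace E F z = s⁻¹ := by
  classical
  obtain ⟨y, b, hb, hy⟩ := hD.exists_generator
  set Q : K[X] := (X - C (b P)) ^ (e P - 1) * ∏ v ∈ S.erase P, (X - C (b v)) ^ e v with hQ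
  have hmon : Q.Monic := ((monic_X_sub_C _).pow _).mul
    (monic_prod_of_monic _ _ fun v _ => (monic_X_sub_C _).pow _)
  have hdeg : Q.natDegree = Module.finrank E F - 1 := by
    rw [hQ, Monic.natDegree_mul ((monic_X_sub_C _).pow _)
      (monic_prod_of_monic _ _ fun v _ => (monic_X_sub_C _).pow _),
      natDegree_prod_of_monic _ _ fun v _ => (monic_X_sub_C _).pow _]
    simp only [natDegree_pow, natDegree_X_sub_C, mul_one]
    have h1 := hD.sum_e
    rw [← Finset.add_sum_erase _ _ hP] at h1
    have := hD.e_pos P hP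
    omega
  set g : E[X] := C s⁻¹ * Q.map (algebraMap K E) with hg
  have hnpos : 0 < Module.finrank E F := Module.finrank_pos
  have hs0 := uniformiser_ne_zero hs
  refine ⟨aeval y g / aeval y (derivative (minpoly E y)), ?_, ?_, ?_⟩
  rotate_right
  · rw [hD.trace_aeval_div hb hy g, hg, coeff_C_mul, coeff_map, ← hdeg, hmon.coeff_natDegree,
      map_one, mul_one]
    rw [hg, degree_C_mul (inv_ne_zero hs0), degree_map, degree_eq_natDegree hmon.ne_zero, hdeg]
    exact_mod_cast Nat.sub_lt hnpos one_pos
  all_goals
    have hval : ∀ v ∈ S, v.adicValuation (aeval y g / aeval y (derivative (minpoly E y))) =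
        exp ((e v : ℤ) - Q.rootMultiplicity (b v) +
          v.ordDifferential (D K F (algebraMap E F s))) := fun v hv => by
      rw [map_div₀, hg, map_mul, aeval_C, aeval_map_algebraMap, map_mul, hD.val_map v hv,
        map_inv₀, val_uniformiser hs, val_aeval_const hy hv hmon.ne_zero,
        hD.val_derivative_minpoly hb hy hs hv hds, inv_pow, ← exp_nsmul, ← exp_neg, ← exp_add,
        ← exp_sub]
      congr 1
      simp
      ring
  · intro v hv hne
    rw [hval v hv, exp_le_exp]
    have : e v ≤ Q.rootMultiplicity (b v) := (le_rootMultiplicity_iff hmon.ne_zero).mpr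
      (dvd_mul_of_dvd_right (Finset.dvd_prod_of_mem (fun v => (X - C (b v)) ^ e v)
        (Finset.mem_erase.mpr ⟨hne, hv⟩)) _)
    omega
  · rw [hval P hP, exp_le_exp]
    have : e P - 1 ≤ Q.rootMultiplicity (b P) :=
      (le_rootMultiplicity_iff hmon.ne_zero).mpr (dvd_mul_right _ _)
    omega

end Fermat.Agent.FF.Diff
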