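import Fermat.Prelude.Def_AlgebraicCurve_DivisorPushPull
import Fermat.Agent.FF.Degree
import Fermat.Agent.FF.DiffLocalTrace

/-!
# Places over `K(x)`; regularity of all places; finiteness of the divisor of `dx`

For a separating element `x` all places are regular, almost all are unramified over `K(x)`, and
the fibres over `K(x)` satisfy the hypotheses of the local different computation.
-/

noncomputable section

open IntermediateField AlgebraicCurve WithZero Polynomial KaehlerDifferential

namespace Fermat.Agent.FF.Diff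

variable {K F : Type*} [Field K] [Field F] [Algebra K F]

/-- A separating element generates the differentials. -/
theorem span_D_of_isSeparable {x : F} [Algebra.IsSeparable K⟮x⟯ F] :
    Submodule.span F {D K F x} = ⊤ := by
  rw [eq_top_iff, ← KaehlerDifferential.span_range_derivation, Submodule.span_le]
  rintro _ ⟨f, rfl⟩
  obtain ⟨G, hG, hroot, hder⟩ :=
    exists_root_of_isSeparable (Algebra.IsSeparable.isSeparable K⟮x⟯ f)
  set S := Submodule.span F {D K F x} with hS
  have hx : D K F x ∈ S := Submodule.subset_span rfl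
  have key : G.derivative.eval f • D K F f ∈ S := by
    have h := congrArg (D K F) hroot
    rw [eval_eq_sum_range, map_sum, map_zero] at h
    simp only [Derivation.leibniz, Derivation.leibniz_pow, Finset.sum_add_distrib] at h
    have e1 : G.derivative.eval f • D K F f =
        ∑ i ∈ Finset.range (G.natDegree + 1), G.coeff i • i • f ^ (i - 1) • D K F f := by
      rw [derivative_eval, sum_over_range _ (fun n => by simp), Finset.sum_smul]
      refine Finset.sum_congr rfl fun i _ => ?_
      rw [← Nat.cast_smul_eq_nsmul F, smul_smul, smul_smul]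
    rw [e1, eq_neg_of_add_eq_zero_left h]
    refine S.neg_mem (S.sum_mem fun i _ => S.smul_mem _ ?_)
    obtain ⟨a, ha⟩ := hG i
    rw [← ha, Derivation.map_aeval]
    exact S.smul_mem _ hx
  simpa [smul_smul, inv_mul_cancel₀ hder] using S.smul_mem (G.derivative.eval f)⁻¹ key

theorem D_ne_zero_of_span [Nontrivial Ω[F⁄K]] {x : F}
    (h : Submodule.span F {D K F x} = ⊤) : D K F x ≠ 0 := by
  intro h0
  rw [h0, Submodule.span_zero_singleton] at h
  exact bot_ne_top h

variable [IsAlgClosed K] [IsFunctionField K F]

/-- Over an algebraically closed field every residue field is the constant field. -/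
theorem constResidue (v : Place K F) : ConstResidue v :=
  constResidue_of_deg_eq_one v (place_deg_eq_one v)

variable [Nontrivial Ω[F⁄K]]

/-- Every place is regular once a separating element exists. -/
theorem regularPlace (x : F) [Algebra.IsSeparable K⟮x⟯ F] (v : Place K F) : RegularPlace v := by
  have hspan := span_D_of_isSeparable (K := K) (x := x)
  have key : ∀ t : F, v.ord t = 1 → D K F t ≠ 0 := fun t ht => by
    rcases CharP.exists' K with hK | ⟨p, hp, hK⟩
    · have := finiteDimensional_adjoin_of_transcendental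
        (transcendental_of_ord_ne_zero v (f := t) (by omega))
      exact D_ne_zero_of_span span_D_of_isSeparable
    · have := hp
      have : CharP F p := charP_of_injective_algebraMap (algebraMap K F).injective p
      exact deriv_uniformiser_ne_zero_of_charP hspan p ht
  have hspan' : ∀ t : F, v.ord t = 1 → Submodule.span F {D K F t} = ⊤ := fun t ht => by
    obtain ⟨d, -, hd⟩ := exists_derivation hspan
    have hdt : d t ≠ 0 := fun h => key t ht (by rw [hd t, h, zero_smul])
    rw [hd t, Submodule.span_singleton_smul_eq (IsUnit.mk0 _ hdt), hspan]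
  refine ⟨constResidue v, hspan', fun t ht => ?_⟩
  have := finiteDimensional_adjoin_of_transcendental
    (transcendental_of_ord_ne_zero v (f := t) (by omega))
  exact isSeparable_of_span (hspan' t ht)

variable {x : F} [Algebra.IsSeparable K⟮x⟯ F]

/-- Only finitely many places are ramified over `K(x)`. -/
theorem finite_ordDifferential_D_ne_zero (hx : Transcendental K x) :
    {v : Place K F | v.ordDifferential (D K F x) ≠ 0}.Finite := by
  have := finiteDimensional_adjoin_of_transcendental hx
  obtain ⟨y, hy⟩ := Field.exists_primitive_element K⟮x⟯ F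
  have htop : IntermediateField.adjoin K ({x, y} : Set F) = ⊤ := by
    rw [← IntermediateField.adjoin_simple_adjoin_simple, hy, restrictScalars_top]
  obtain ⟨G, hG, hroot, hder⟩ :=
    exists_root_of_isSeparable (Algebra.IsSeparable.isSeparable K⟮x⟯ y)
  refine (((finite_ord_ne_zero (K := K) x).union (finite_ord_ne_zero (K := K) y)).union
    (finite_ord_ne_zero (K := K) (G.derivative.eval y))).subset fun v hv => ?_
  simp only [Set.mem_union, Set.mem_ofPred_eq] at hv ⊢
  by_contra hcon
  simp only [not_or, not_not] at hcon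
  obtain ⟨⟨h1, h2⟩, h3⟩ := hcon
  have hle : ∀ f : F, v.ord f = 0 → v.adicValuation f ≤ 1 := fun f hf => by
    rw [v.adicValuation_le_one_iff, hf]; exact Or.inr le_rfl
  obtain ⟨c, hc⟩ := constResidue v x (hle x h1)
  have hxc : x - algebraMap K F c ≠ 0 := fun h =>
    hx (sub_eq_zero.mp h ▸ isAlgebraic_algebraMap c)
  have hord := ord_sub_eq_one_of_simple_root (constResidue v) htop (hle x h1) (hle y h2) G hG hroot
    (by rw [val_eq_exp hder, h3, neg_zero, exp_zero]) hc hxc
  refine hv ?_
  rw [(regularPlace x v).ordDifferential_D_sub_algebraMap (c := c) (by simp [hord]), hord, sub_self]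

omit [Nontrivial Ω[F⁄K]] [Algebra.IsSeparable K⟮x⟯ F] [IsAlgClosed K] [IsFunctionField K F] in
theorem transcendental_gen (hx : Transcendental K x) :
    Transcendental K (AdjoinSimple.gen K x) :=
  fun h => hx (by simpa using h.algHom (K⟮x⟯).val)

omit [Nontrivial Ω[F⁄K]] [Algebra.IsSeparable K⟮x⟯ F] [IsAlgClosed K] [IsFunctionField K F] in
theorem adjoin_gen_eq_top : K⟮AdjoinSimple.gen K x⟯ = ⊤ := by
  refine IntermediateField.map_injective (K⟮x⟯).val ?_
  rw [IntermediateField.adjoin_map, ← AlgHom.fieldRange_eq_map, fieldRange_val]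
  simp

omit [Nontrivial Ω[F⁄K]] [Algebra.IsSeparable K⟮x⟯ F] [IsAlgClosed K] [IsFunctionField K F] in
theorem finrank_adjoin_gen : Module.finrank K⟮AdjoinSimple.gen K x⟯ K⟮x⟯ = 1 := by
  rw [adjoin_gen_eq_top, IntermediateField.finrank_top]

omit [Nontrivial Ω[F⁄K]] [Algebra.IsSeparable K⟮x⟯ F] [IsAlgClosed K] [IsFunctionField K F] in
/-- `K(x)` is a function field. -/
theorem isFunctionField_adjoin_simple (hx : Transcendental K x) : IsFunctionField K K⟮x⟯ :=
  ⟨⟨_, transcendental_gen hx, Module.finite_of_finrank_eq_succ finrank_adjoin_gen⟩⟩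

omit [Nontrivial Ω[F⁄K]] [Algebra.IsSeparable K⟮x⟯ F] [IsAlgClosed K] [IsFunctionField K F] in
/-- On `K(x)` a function of degree one has a single zero, and it is simple. -/
theorem eq_of_zero_of_finrank_one {g : K⟮x⟯} (hx : Transcendental K x)
    (hg : Transcendental K g) (h1 : Module.finrank K⟮g⟯ K⟮x⟯ = 1) {w w' : Place K K⟮x⟯}
    (hw : 0 < w.ord g) (hw' : 0 < w'.ord g) : w = w' ∧ w.ord g = 1 := by
  classical
  have := isFunctionField_adjoin_simple hx
  have key : ∀ S : Finset (Place K K⟮x⟯), (∀ v ∈ S, 0 < v.ord g) →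
      ∑ v ∈ S, (v.ord g).toNat ≤ 1 := fun S hS => h1 ▸ sum_ord_le_finrank hg S hS
  constructor
  · by_contra hne
    have := key {w, w'} (by simp [hw, hw'])
    rw [Finset.sum_pair hne] at this
    omega
  · have := key {w} (by simp [hw])
    rw [Finset.sum_singleton] at this
    omega

omit [Nontrivial Ω[F⁄K]] [Algebra.IsSeparable K⟮x⟯ F] [IsFunctionField K F] in
/-- Places of `K(x)`. -/
theorem exists_uniformiser_adjoin (hx : Transcendental K x) (w : Place K K⟮x⟯) :
    (∃ c : K, w.ord (AdjoinSimple.gen K x - algebraMap K K⟮x⟯ c) = 1) ∨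
      w.ord (AdjoinSimple.gen K x)⁻¹ = 1 := by
  have := isFunctionField_adjoin_simple hx
  set g := AdjoinSimple.gen K x with hg
  have hgt := transcendental_gen hx
  rcases lt_or_ge (w.ord g) 0 with hneg | hpos
  · right
    have h' : 0 < w.ord g⁻¹ := by rw [w.ord_inv]; omega
    exact (eq_of_zero_of_finrank_one hx (transcendental_inv hgt)
      (by rw [finrank_adjoin_inv]; exact finrank_adjoin_gen) h' h').2
  · left
    obtain ⟨c, hc⟩ := exists_const w hpos
    refine ⟨c, ?_⟩
    have h' : 0 < w.ord (g - algebraMap K K⟮x⟯ c) := hc.resolve_left fun h =>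
      hgt (show IsAlgebraic K g from (sub_eq_zero.mp h).symm ▸ isAlgebraic_algebraMap c)
    exact (eq_of_zero_of_finrank_one hx (transcendental_sub_const hgt c)
      (by rw [adjoin_sub_const_eq]; exact finrank_adjoin_gen) h' h').2

section Fibre

variable [FiniteDimensional K⟮x⟯ F]

omit [Nontrivial Ω[F⁄K]] [FiniteDimensional (K⟮x⟯) F] in
/-- The ramification indices over a place of `K(x)` add up to the degree. -/
theorem sum_ramificationIndex_adjoin (hx : Transcendental K x) (w : Place K K⟮x⟯) :
    ∑ v ∈ w.fiber F, v.ramificationIndex K⟮x⟯ = Module.finrank K⟮x⟯ F := by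
  classical
  have := isFunctionField_adjoin_simple hx
  obtain ⟨g, hg1, hgt, hg, h1⟩ : ∃ g : K⟮x⟯, w.ord g = 1 ∧ Transcendental K (g : F) ∧
      K⟮(g : F)⟯ = K⟮x⟯ ∧ Module.finrank K⟮g⟯ K⟮x⟯ = 1 := by
    rcases exists_uniformiser_adjoin hx w with ⟨c, hc⟩ | hc
    · refine ⟨_, hc, ?_, ?_, by rw [adjoin_sub_const_eq]; exact finrank_adjoin_gen⟩
      · simpa using transcendental_sub_const hx c
      · simpa using adjoin_sub_const_eq x c
    · exact ⟨_, hc, by simpa using transcendental_inv hx, by simpa using adjoin_inv_eq x,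
        by rw [finrank_adjoin_inv]; exact finrank_adjoin_gen⟩
  have hg' : Transcendental K g := fun h => hgt (h.algHom (K⟮x⟯).val)
  have hfib : ∀ v : Place K F, v ∈ w.fiber F ↔ 0 < v.ord (g : F) := fun v => by
    have he := v.ord_restrict (F := K⟮x⟯) g
    change v.ord (g : F) = _ at he
    rw [Place.mem_fiber]
    refine ⟨fun h => ?_, fun h => ?_⟩
    · rw [he, h, hg1, mul_one]
      exact_mod_cast v.ramificationIndex_pos (F := K⟮x⟯)
    · rw [he] at h
      exact (eq_of_zero_of_finrank_one hx hg' h1
        (pos_of_mul_pos_right h (Int.natCast_nonneg _)) (hg1 ▸ one_pos : (0 : ℤ) < w.ord g)).1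
  have h := degree_zeroDiv (K := K) hgt
  rw [hg, degree_eq_sum, Finsupp.sum] at h
  have hsupp : (zeroDiv (K := K) (g : F)).support = w.fiber F := by
    ext v
    rw [Finsupp.mem_support_iff, zeroDiv_apply, hfib]
    omega
  rw [hsupp] at h
  have h2 : ∀ v ∈ w.fiber F, zeroDiv (K := K) (g : F) v = (v.ramificationIndex K⟮x⟯ : ℤ) := by
    intro v hv
    rw [zeroDiv_apply, show v.ord (g : F) = _ from v.ord_restrict (F := K⟮x⟯) g,
      Place.mem_fiber.mp hv, hg1, mul_one]
    omega
  rw [Finset.sum_congr rfl h2] at h
  exact_mod_cast h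

omit [FiniteDimensional (K⟮x⟯) F] in
/-- The fibre data over a place of `K(x)`. -/
theorem fiberData (hx : Transcendental K x) (w : Place K K⟮x⟯) :
    FiberData w (w.fiber F) (fun v : Place K F => v.ramificationIndex K⟮x⟯) where
  residue_base := by
    have := isFunctionField_adjoin_simple hx
    exact constResidue w
  regular v _ := regularPlace x v
  e_pos v _ := v.ramificationIndex_pos
  val_map v hv a := by
    rcases eq_or_ne a 0 with rfl | ha
    · simp [zero_pow (v.ramificationIndex_pos (F := K⟮x⟯)).ne']
    · rw [val_eq_exp ((_root_.map_ne_zero _).mpr ha), val_eq_exp ha, v.ord_restrict a,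
        Place.mem_fiber.mp hv, ← exp_nsmul]
      congr 1
      simp
  sum_e := sum_ramificationIndex_adjoin hx w
  approx a N := by
    obtain ⟨f, hf⟩ := approximation (w.fiber F) a fun _ => (N : ℤ)
    exact ⟨f, hf⟩

end Fibre

end Fermat.Agent.FF.Diff
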